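/-
S26lib / Quad / LocEq  (helper1)  --  Project K (S26)

**Cartier calculus on integral schemes, by local equations.**

For an integral scheme `X` every local ring `O_{X,x} = X.presheaf.stalk x` sits inside the function
field `K(X) = X.functionField` (the stalk at the generic point).  We work with

* `toFF X x : O_{X,x} →+* K(X)` (injective), compatible with generisation (`toFF_spec`);
* `LocFam X` : a family of local equations `t x ∈ O_{X,x}` (an "effective Cartier divisor" when it
  is coherent, see `LocFam.IsCoherent`); products `D * E`, powers;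
* `LocFam.pullback ψ D` for ANY morphism `ψ : Y ⟶ X` : local equations `ψ.stalkMap y (t (ψ y))`;
  functorial (`pullback_comp`, `pullback_id`, `pullback_congr`);
* `IsDivOf H P N` : the rational function `H` has divisor `P - N`, i.e. for every point `x`
  there is a unit `ε` of `O_{X,x}` with `ε * H * N.t x = P.t x` in `K(X)`;
* **the transfer theorem** `IsDivOf.pullback` : if `ψ : Y ⟶ X` maps the generic point of `Y` outside
  the supports of `P` and `N`, then `H` is (the image of) a unit `h` of `O_{X, ψ η_Y}`, its pull-back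
  `ψ^* H := ψ.stalkMap η_Y h ∈ K(Y)` is non-zero and `IsDivOf (ψ^* H) (ψ^* P) (ψ^* N)`.
  This is "div (ψ^* H) = ψ^* (div H)" for restriction to subvarieties through points outside the
  supports -- no moving lemma, no Pic.
-/
import Mathlib

set_option autoImplicit false
set_option linter.unusedSectionVars false

noncomputable section

namespace Fermat.Agent.S26lib.Quad

open AlgebraicGeometry CategoryTheory TopologicalSpace

universe u

/-! ### local rings inside the function field -/

section FF

variable (X : Scheme.{u}) [IsIntegral X]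

/-- the generic point specialises to every point -/
theorem generic_specializes (x : X) : genericPoint X ⤳ x :=
  (genericPoint_spec X).specializes trivial

/-- the inclusion of the local ring at `x` into the function field -/
abbrev toFF (x : X) : X.presheaf.stalk x →+* X.functionField :=
  algebraMap (X.presheaf.stalk x) X.functionField

theorem toFF_eq (x : X) :
    toFF X x = (X.presheaf.stalkSpecializes (generic_specializes X x)).hom := rfl

theorem toFF_injective (x : X) : Function.Injective (toFF X x) :=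
  IsFractionRing.injective _ _

/-- compatibility with generisation -/
theorem toFF_spec {x x' : X} (h : x' ⤳ x) (a : X.presheaf.stalk x) :
    toFF X x' (X.presheaf.stalkSpecializes h a) = toFF X x a := by
  rw [toFF_eq, toFF_eq]
  have := X.presheaf.stalkSpecializes_comp (generic_specializes X x') h
  exact congrArg (fun φ => φ.hom a) this

/-- at the generic point `toFF` is the identity -/
theorem toFF_generic (a : X.functionField) : toFF X (genericPoint X) a = a := by
  rw [toFF_eq]
  have := X.presheaf.stalkSpecializes_refl (genericPoint X)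
  exact congrArg (fun φ => φ.hom a) this

theorem toFF_ne_zero {x : X} {a : X.presheaf.stalk x} (ha : a ≠ 0) : toFF X x a ≠ 0 :=
  fun h => ha (toFF_injective X x (by rw [h, map_zero]))

end FF

/-! ### pull-back of functions along a morphism -/

section Pb

variable {X Y : Scheme.{u}} [IsIntegral X] [IsIntegral Y] (ψ : Y ⟶ X)

/-- the image of the generic point of `Y` generises `ψ y` -/
theorem map_generic_specializes (y : Y) : ψ (genericPoint Y) ⤳ ψ y :=
  (generic_specializes Y y).map ψ.continuous

/-- pull-back of functions regular at the image of the generic point -/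
def pbFF : X.presheaf.stalk (ψ (genericPoint Y)) →+* Y.functionField :=
  (ψ.stalkMap (genericPoint Y)).hom

/-- **naturality**: the local homomorphism at `y` and the pull-back at the generic point -/
theorem toFF_stalkMap (y : Y) (a : X.presheaf.stalk (ψ y)) :
    toFF Y y (ψ.stalkMap y a) =
      pbFF ψ (X.presheaf.stalkSpecializes (map_generic_specializes ψ y) a) := by
  rw [toFF_eq]
  exact (ψ.stalkSpecializes_stalkMap_apply (genericPoint Y) y (generic_specializes Y y) a).symm

end Pb

/-! ### families of local equations -/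

/-- a family of local equations (an effective Cartier divisor, if coherent) -/
@[ext]
structure LocFam (X : Scheme.{u}) where
  /-- the local equation at `x` -/
  t : ∀ x : X, X.presheaf.stalk x

namespace LocFam

variable {X Y Z : Scheme.{u}}

instance : One (LocFam X) := ⟨⟨fun _ => 1⟩⟩

instance : Mul (LocFam X) := ⟨fun D E => ⟨fun x => D.t x * E.t x⟩⟩

instance : Pow (LocFam X) ℕ := ⟨fun D n => ⟨fun x => D.t x ^ n⟩⟩

@[simp] theorem one_t (x : X) : (1 : LocFam X).t x = 1 := rfl

@[simp] theorem mul_t (D E : LocFam X) (x : X) : (D * E).t x = D.t x * E.t x := rfl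

@[simp] theorem pow_t (D : LocFam X) (n : ℕ) (x : X) : (D ^ n).t x = D.t x ^ n := rfl

/-- the support: the points where the local equation is not a unit -/
def supp (D : LocFam X) : Set X := {x | ¬ IsUnit (D.t x)}

theorem not_mem_supp_iff (D : LocFam X) (x : X) : x ∉ D.supp ↔ IsUnit (D.t x) := by
  simp [supp]

theorem not_mem_supp_mul {D E : LocFam X} {x : X} (hD : x ∉ D.supp) (hE : x ∉ E.supp) :
    x ∉ (D * E).supp := by
  rw [not_mem_supp_iff] at *
  exact hD.mul hE

theorem not_mem_supp_pow {D : LocFam X} {x : X} (hD : x ∉ D.supp) (n : ℕ) :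
    x ∉ (D ^ n).supp := by
  rw [not_mem_supp_iff] at *
  exact hD.pow n

/-- coherence: near every point the local equations are the germs of one section, up to units -/
def IsCoherent (D : LocFam X) : Prop :=
  ∀ x : X, ∃ (U : X.Opens) (_ : x ∈ U) (s : Γ(X, U)), ∀ (y : X) (hy : y ∈ U),
    Associated (X.presheaf.germ U y hy s) (D.t y)

/-- two families define the same divisor -/
def Equiv (D E : LocFam X) : Prop := ∀ x, Associated (D.t x) (E.t x)

theorem Equiv.refl (D : LocFam X) : D.Equiv D := fun _ => Associated.refl _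

theorem Equiv.symm {D E : LocFam X} (h : D.Equiv E) : E.Equiv D := fun x => (h x).symm

theorem Equiv.trans {D E F : LocFam X} (h : D.Equiv E) (h' : E.Equiv F) : D.Equiv F :=
  fun x => (h x).trans (h' x)

theorem Equiv.mul {D D' E E' : LocFam X} (h : D.Equiv D') (h' : E.Equiv E') :
    (D * E).Equiv (D' * E') := fun x => (h x).mul_mul (h' x)

theorem Equiv.pow {D D' : LocFam X} (h : D.Equiv D') (n : ℕ) : (D ^ n).Equiv (D' ^ n) :=
  fun x => (h x).pow_pow

theorem Equiv.supp_eq {D E : LocFam X} (h : D.Equiv E) : D.supp = E.supp := by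
  ext x
  simp only [supp, Set.mem_ofPred_eq]
  rw [(h x).isUnit_iff]

/-- generisation of a coherent family -/
theorem IsCoherent.spec {D : LocFam X} (hD : D.IsCoherent) {x x' : X} (h : x' ⤳ x) :
    Associated (X.presheaf.stalkSpecializes h (D.t x)) (D.t x') := by
  obtain ⟨U, hx, s, hs⟩ := hD x
  have hx' : x' ∈ U := h.mem_open U.isOpen hx
  have e : X.presheaf.stalkSpecializes h (X.presheaf.germ U x hx s) =
      X.presheaf.germ U x' hx' s :=
    congrArg (fun φ => φ.hom s) (X.presheaf.germ_stalkSpecializes hx h)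
  have h1 : Associated (X.presheaf.stalkSpecializes h (X.presheaf.germ U x hx s))
      (X.presheaf.stalkSpecializes h (D.t x)) :=
    (hs x hx).map (X.presheaf.stalkSpecializes h).hom
  rw [e] at h1
  exact h1.symm.trans (hs x' hx')

theorem IsCoherent.mul {D E : LocFam X} (hD : D.IsCoherent) (hE : E.IsCoherent) :
    (D * E).IsCoherent := by
  intro x
  obtain ⟨U, hxU, s, hs⟩ := hD x
  obtain ⟨V, hxV, r, hr⟩ := hE x
  refine ⟨U ⊓ V, ⟨hxU, hxV⟩, X.presheaf.map (homOfLE inf_le_left).op s *
    X.presheaf.map (homOfLE inf_le_right).op r, fun y hy => ?_⟩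
  rw [map_mul]
  have e1 : X.presheaf.germ (U ⊓ V) y hy (X.presheaf.map (homOfLE inf_le_left).op s) =
      X.presheaf.germ U y hy.1 s := X.presheaf.germ_res_apply (homOfLE inf_le_left) y hy s
  have e2 : X.presheaf.germ (U ⊓ V) y hy (X.presheaf.map (homOfLE inf_le_right).op r) =
      X.presheaf.germ V y hy.2 r := X.presheaf.germ_res_apply (homOfLE inf_le_right) y hy r
  rw [e1, e2]
  exact (hs y hy.1).mul_mul (hr y hy.2)

theorem isCoherent_one : (1 : LocFam X).IsCoherent := fun x =>
  ⟨⊤, trivial, 1, fun y hy => by rw [map_one]; exact Associated.refl _⟩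

theorem IsCoherent.pow {D : LocFam X} (hD : D.IsCoherent) (n : ℕ) : (D ^ n).IsCoherent := by
  induction n with
  | zero =>
    have : D ^ 0 = 1 := by ext x; simp
    rw [this]; exact isCoherent_one
  | succ n ih =>
    have : D ^ (n + 1) = D ^ n * D := by ext x; simp [pow_succ]
    rw [this]; exact ih.mul hD

/-! ### pull-back -/

/-- pull-back of a family of local equations along a morphism -/
def pullback (ψ : Y ⟶ X) (D : LocFam X) : LocFam Y :=
  ⟨fun y => ψ.stalkMap y (D.t (ψ y))⟩

@[simp] theorem pullback_t (ψ : Y ⟶ X) (D : LocFam X) (y : Y) :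
    (D.pullback ψ).t y = ψ.stalkMap y (D.t (ψ y)) := rfl

theorem pullback_one (ψ : Y ⟶ X) : (1 : LocFam X).pullback ψ = 1 := by
  ext y; simp

theorem pullback_mul (ψ : Y ⟶ X) (D E : LocFam X) :
    (D * E).pullback ψ = D.pullback ψ * E.pullback ψ := by
  ext y; simp

theorem pullback_pow (ψ : Y ⟶ X) (D : LocFam X) (n : ℕ) :
    (D ^ n).pullback ψ = D.pullback ψ ^ n := by
  ext y; simp

theorem pullback_id (D : LocFam X) : D.pullback (𝟙 X) = D := by
  ext y
  simp
  rfl

theorem pullback_comp (ψ : Z ⟶ Y) (φ : Y ⟶ X) (D : LocFam X) :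
    D.pullback (ψ ≫ φ) = (D.pullback φ).pullback ψ := by
  ext z
  show (ψ ≫ φ).stalkMap z (D.t (φ (ψ z))) = ψ.stalkMap z (φ.stalkMap (ψ z) (D.t (φ (ψ z))))
  rw [Scheme.Hom.stalkMap_comp]
  rfl

theorem pullback_congr {ψ ψ' : Y ⟶ X} (h : ψ = ψ') (D : LocFam X) :
    D.pullback ψ = D.pullback ψ' := by
  subst h; rfl

theorem Equiv.pullback {D E : LocFam X} (h : D.Equiv E) (ψ : Y ⟶ X) :
    (D.pullback ψ).Equiv (E.pullback ψ) :=
  fun y => (h (ψ y)).map (ψ.stalkMap y).hom

theorem IsCoherent.pullback {D : LocFam X} (hD : D.IsCoherent) (ψ : Y ⟶ X) :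
    (D.pullback ψ).IsCoherent := by
  intro y
  obtain ⟨U, hx, s, hs⟩ := hD (ψ y)
  refine ⟨ψ ⁻¹ᵁ U, hx, ψ.app U s, fun y' hy' => ?_⟩
  have e : Y.presheaf.germ (ψ ⁻¹ᵁ U) y' hy' (ψ.app U s) =
      ψ.stalkMap y' (X.presheaf.germ U (ψ y') hy' s) :=
    (ψ.germ_stalkMap_apply U y' hy' s).symm
  rw [e]
  exact (hs (ψ y') hy').map (ψ.stalkMap y').hom

/-- a point outside the support stays outside the support of the pull-back -/
theorem not_mem_supp_pullback {D : LocFam X} (ψ : Y ⟶ X) {y : Y} (h : ψ y ∉ D.supp) :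
    y ∉ (D.pullback ψ).supp := by
  rw [not_mem_supp_iff] at *
  exact h.map (ψ.stalkMap y).hom

/-- **non-vanishing of the pulled-back equations** : if the image of the generic point of `Y` is
outside the support of a coherent `D`, all pulled-back local equations are non-zero -/
theorem pullback_t_ne_zero [IsIntegral X] [IsIntegral Y] {D : LocFam X} (hD : D.IsCoherent)
    (ψ : Y ⟶ X) (hη : ψ (genericPoint Y) ∉ D.supp) (y : Y) : (D.pullback ψ).t y ≠ 0 := by
  intro h0
  have h1 := toFF_stalkMap ψ y (D.t (ψ y))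
  rw [show ψ.stalkMap y (D.t (ψ y)) = (D.pullback ψ).t y from rfl, h0, map_zero] at h1
  have h2 : IsUnit (X.presheaf.stalkSpecializes (map_generic_specializes ψ y) (D.t (ψ y))) := by
    rw [(hD.spec (map_generic_specializes ψ y)).isUnit_iff]
    exact (not_mem_supp_iff D _).1 hη
  exact (h2.map (pbFF ψ)).ne_zero h1.symm

end LocFam

/-! ### divisors of rational functions -/

section Div

variable {X Y : Scheme.{u}} [IsIntegral X] [IsIntegral Y]

/-- `H` has divisor `P - N` : at every point `ε * H * N.t x = P.t x` for a unit `ε` of the local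
ring -/
def IsDivOf (H : X.functionField) (P N : LocFam X) : Prop :=
  ∀ x : X, ∃ ε : (X.presheaf.stalk x)ˣ,
    toFF X x ε * H * toFF X x (N.t x) = toFF X x (P.t x)

theorem IsDivOf.congr {H : X.functionField} {P N P' N' : LocFam X} (h : IsDivOf H P N)
    (hP : P.Equiv P') (hN : N.Equiv N') : IsDivOf H P' N' := by
  intro x
  obtain ⟨ε, hε⟩ := h x
  obtain ⟨a, ha⟩ := hP x
  obtain ⟨b, hb⟩ := hN x
  refine ⟨ε * a * b⁻¹, ?_⟩
  rw [← ha, ← hb, map_mul, map_mul, ← hε]
  simp only [Units.val_mul, map_mul]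
  have hbb : toFF X x ((b⁻¹ : (X.presheaf.stalk x)ˣ) : X.presheaf.stalk x) * toFF X x b = 1 := by
    rw [← map_mul, Units.inv_mul, map_one]
  calc toFF X x ε * toFF X x a * toFF X x ((b⁻¹ : (X.presheaf.stalk x)ˣ) : X.presheaf.stalk x) * H
        * (toFF X x (N.t x) * toFF X x b)
      = toFF X x ε * H * toFF X x (N.t x) * toFF X x a *
        (toFF X x ((b⁻¹ : (X.presheaf.stalk x)ˣ) : X.presheaf.stalk x) * toFF X x b) := by ring
    _ = toFF X x ε * H * toFF X x (N.t x) * toFF X x a := by rw [hbb, mul_one]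

/-- the constant function `1` has divisor `D - D` -/
theorem isDivOf_one (D : LocFam X) : IsDivOf (1 : X.functionField) D D :=
  fun x => ⟨1, by simp⟩

/-- products -/
theorem IsDivOf.mul {H H' : X.functionField} {P N P' N' : LocFam X} (h : IsDivOf H P N)
    (h' : IsDivOf H' P' N') : IsDivOf (H * H') (P * P') (N * N') := by
  intro x
  obtain ⟨ε, hε⟩ := h x
  obtain ⟨ε', hε'⟩ := h' x
  refine ⟨ε * ε', ?_⟩
  simp only [Units.val_mul, map_mul, LocFam.mul_t]
  rw [← hε, ← hε']
  ring

/-- inverses -/
theorem IsDivOf.inv {H : X.functionField} {P N : LocFam X} (h : IsDivOf H P N) (hH : H ≠ 0) :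
    IsDivOf H⁻¹ N P := by
  intro x
  obtain ⟨ε, hε⟩ := h x
  refine ⟨ε⁻¹, ?_⟩
  rw [← hε]
  have hεε : toFF X x ((ε⁻¹ : (X.presheaf.stalk x)ˣ) : X.presheaf.stalk x) * toFF X x ε = 1 := by
    rw [← map_mul, Units.inv_mul, map_one]
  calc toFF X x ((ε⁻¹ : (X.presheaf.stalk x)ˣ) : X.presheaf.stalk x) * H⁻¹ *
        (toFF X x ε * H * toFF X x (N.t x))
      = (toFF X x ((ε⁻¹ : (X.presheaf.stalk x)ˣ) : X.presheaf.stalk x) * toFF X x ε) *
        (H⁻¹ * H) * toFF X x (N.t x) := by ring
    _ = toFF X x (N.t x) := by rw [hεε, inv_mul_cancel₀ hH, one_mul, one_mul]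

/-- powers -/
theorem IsDivOf.pow {H : X.functionField} {P N : LocFam X} (h : IsDivOf H P N) (n : ℕ) :
    IsDivOf (H ^ n) (P ^ n) (N ^ n) := by
  intro x
  obtain ⟨ε, hε⟩ := h x
  refine ⟨ε ^ n, ?_⟩
  simp only [Units.val_pow_eq_pow_val, map_pow, LocFam.pow_t]
  rw [← hε]
  ring

/-- cancellation of a common factor -/
theorem IsDivOf.cancel {H : X.functionField} {P N C : LocFam X} (h : IsDivOf H (P * C) (N * C))
    (hC : ∀ x, C.t x ≠ 0) : IsDivOf H P N := by
  intro x
  obtain ⟨ε, hε⟩ := h x
  refine ⟨ε, ?_⟩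
  simp only [LocFam.mul_t, map_mul] at hε
  have hc : toFF X x (C.t x) ≠ 0 := toFF_ne_zero X (hC x)
  apply mul_right_cancel₀ hc
  rw [← hε]
  ring

/-- `H` is the image of a unit of the local ring at a point outside both supports -/
theorem IsDivOf.exists_unit {H : X.functionField} {P N : LocFam X} (h : IsDivOf H P N) {x : X}
    (hP : x ∉ P.supp) (hN : x ∉ N.supp) : ∃ a : (X.presheaf.stalk x)ˣ, toFF X x a = H := by
  obtain ⟨ε, hε⟩ := h x
  rw [LocFam.not_mem_supp_iff] at hP hN
  obtain ⟨p, hp⟩ := hP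
  obtain ⟨n, hn⟩ := hN
  refine ⟨ε⁻¹ * p * n⁻¹, ?_⟩
  rw [← hp, ← hn] at hε
  simp only [Units.val_mul, map_mul]
  rw [← hε]
  have hεε : toFF X x ((ε⁻¹ : (X.presheaf.stalk x)ˣ) : X.presheaf.stalk x) * toFF X x ε = 1 := by
    rw [← map_mul, Units.inv_mul, map_one]
  have hnn : toFF X x n * toFF X x ((n⁻¹ : (X.presheaf.stalk x)ˣ) : X.presheaf.stalk x) = 1 := by
    rw [← map_mul, Units.mul_inv, map_one]
  calc toFF X x ((ε⁻¹ : (X.presheaf.stalk x)ˣ) : X.presheaf.stalk x) *
        (toFF X x ε * H * toFF X x n) *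
        toFF X x ((n⁻¹ : (X.presheaf.stalk x)ˣ) : X.presheaf.stalk x)
      = (toFF X x ((ε⁻¹ : (X.presheaf.stalk x)ˣ) : X.presheaf.stalk x) * toFF X x ε) * H *
        (toFF X x n * toFF X x ((n⁻¹ : (X.presheaf.stalk x)ˣ) : X.presheaf.stalk x)) := by ring
    _ = H := by rw [hεε, hnn, one_mul, mul_one]

/-- **THE TRANSFER THEOREM** (`div (ψ^* H) = ψ^* (div H)`): if `h ∈ O_{X, ψ η_Y}` represents `H`
and `H` has divisor `P - N`, then `ψ^* h` has divisor `ψ^* P - ψ^* N`. -/
theorem IsDivOf.pullback {H : X.functionField} {P N : LocFam X} (hH : IsDivOf H P N) (ψ : Y ⟶ X)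
    (h : X.presheaf.stalk (ψ (genericPoint Y))) (hh : toFF X _ h = H) :
    IsDivOf (pbFF ψ h) (P.pullback ψ) (N.pullback ψ) := by
  intro y
  obtain ⟨ε, hε⟩ := hH (ψ y)
  have hlocal : IsUnit (ψ.stalkMap y (ε : X.presheaf.stalk (ψ y))) :=
    ε.isUnit.map (ψ.stalkMap y).hom
  refine ⟨hlocal.unit, ?_⟩
  -- the relation inside the local ring at `ψ η_Y`
  set sp := X.presheaf.stalkSpecializes (map_generic_specializes ψ y) with hsp
  have key : sp (ε : X.presheaf.stalk (ψ y)) * h * sp (N.t (ψ y)) = sp (P.t (ψ y)) := by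
    apply toFF_injective X (ψ (genericPoint Y))
    rw [map_mul, map_mul, toFF_spec, toFF_spec, toFF_spec, hh]
    exact hε
  have key' := congrArg (pbFF ψ) key
  rw [map_mul, map_mul] at key'
  rw [IsUnit.unit_spec, LocFam.pullback_t, LocFam.pullback_t, toFF_stalkMap, toFF_stalkMap,
    toFF_stalkMap]
  exact key'

/-- the pulled-back function is non-zero -/
theorem pbFF_ne_zero (ψ : Y ⟶ X) {h : X.presheaf.stalk (ψ (genericPoint Y))} (hh : IsUnit h) :
    pbFF ψ h ≠ 0 :=
  (hh.map (pbFF ψ)).ne_zero

end Div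

end Fermat.Agent.S26lib.Quad
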