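/-
S26lib / Quad / RatFam  (helper1)  --  Project K (S26), cube kernel, step (M)

**Cartier divisors as families of non-zero rational functions, and the NORMALISED pull-back.**

For an integral scheme `X`:

* `unitsAt X x : Subgroup K(X)ˣ` (the image of `(O_{X,x})ˣ`), `regAt X x : Subring K(X)`
  (the image of `O_{X,x}`), monotone under generisation;
* `RatFam X := X → K(X)ˣ` (a commutative group, pointwise): a family of local equations
  `τ x ∈ K(X)ˣ`; `τ.IsCoherent` (near every point the `τ y` are associated to one rational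
  function), `τ.IsPrincipal` (`∃ s, ∀ x, s * τ x ∈ unitsAt x`, i.e. `div s = -τ`);
* `RatFam.pull ψ τ` (`ψ^* τ`, for DOMINANT `ψ : Y ⟶ X`): `z ↦ ffMap ψ (τ (ψ z))`;
* `RatFam.npb ψ τ` (`ψ^! τ`, for ANY `ψ : Y ⟶ X`): `z ↦ ψ^# (τ (ψ z) / τ (ψ η_Y))`, the pull-back of
  the MOVED divisor `τ / τ (ψ η_Y)` (whose support does not contain `ψ η_Y`).  It is multiplicative,
  preserves coherence, is strictly functorial (`npb_comp`), is `1` for maps which are constant on
  points (`npb_of_const`), differs from `ψ^*τ` by a constant for dominant `ψ` (`npb_eq_pull`), and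
  **preserves principal families with no condition on supports** (`IsPrincipal.npb`, the transfer
  theorem).
-/
import Mathlib
import Fermat.Agent.S26lib.Quad.LocEq
import Fermat.Agent.S26lib.FinMap.FFMap

set_option autoImplicit false
set_option linter.unusedSectionVars false
set_option linter.style.haveILetI false

noncomputable section

namespace Fermat.Agent.S26lib.Quad

open AlgebraicGeometry CategoryTheory TopologicalSpace Fermat.Agent.S26lib.FinMap

universe u

/-! ### units and regular functions at a point -/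

section Units

variable (X : Scheme.{u}) [IsIntegral X]

/-- the units of the local ring at `x`, inside `K(X)ˣ` -/
def unitsAt (x : X) : Subgroup X.functionFieldˣ :=
  (Units.map (toFF X x : X.presheaf.stalk x →* X.functionField)).range

/-- the functions regular at `x` -/
def regAt (x : X) : Subring X.functionField := (toFF X x).range

variable {X}

theorem mem_unitsAt_iff {x : X} {f : X.functionFieldˣ} :
    f ∈ unitsAt X x ↔ ∃ a : (X.presheaf.stalk x)ˣ, toFF X x (a : X.presheaf.stalk x) = f := by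
  constructor
  · rintro ⟨a, rfl⟩
    exact ⟨a, rfl⟩
  · rintro ⟨a, ha⟩
    exact ⟨a, Units.ext ha⟩

theorem mem_unitsAt_of_isUnit {x : X} {f : X.functionFieldˣ} {a : X.presheaf.stalk x}
    (ha : IsUnit a) (h : toFF X x a = f) : f ∈ unitsAt X x :=
  mem_unitsAt_iff.2 ⟨ha.unit, by rw [IsUnit.unit_spec, h]⟩

theorem mem_regAt_iff {x : X} {f : X.functionField} :
    f ∈ regAt X x ↔ ∃ a : X.presheaf.stalk x, toFF X x a = f := Iff.rfl

theorem unitsAt_le_regAt {x : X} {f : X.functionFieldˣ} (h : f ∈ unitsAt X x) :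
    (f : X.functionField) ∈ regAt X x := by
  obtain ⟨a, ha⟩ := mem_unitsAt_iff.1 h
  exact ⟨a, ha⟩

/-- a function is a unit at `x` iff it and its inverse are regular at `x` -/
theorem mem_unitsAt_iff_regAt {x : X} {f : X.functionFieldˣ} :
    f ∈ unitsAt X x ↔ (f : X.functionField) ∈ regAt X x ∧
      ((f⁻¹ : X.functionFieldˣ) : X.functionField) ∈ regAt X x := by
  constructor
  · intro h
    exact ⟨unitsAt_le_regAt h, unitsAt_le_regAt ((unitsAt X x).inv_mem h)⟩
  · rintro ⟨⟨a, ha⟩, ⟨b, hb⟩⟩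
    refine mem_unitsAt_of_isUnit (a := a) (IsUnit.of_mul_eq_one b (toFF_injective X x ?_)) ha
    rw [map_mul, ha, hb, map_one, ← Units.val_mul, mul_inv_cancel, Units.val_one]

theorem unitsAt_mono {x x' : X} (h : x' ⤳ x) : unitsAt X x ≤ unitsAt X x' := by
  intro f hf
  obtain ⟨a, ha⟩ := mem_unitsAt_iff.1 hf
  refine mem_unitsAt_of_isUnit (a := X.presheaf.stalkSpecializes h a)
    (a.isUnit.map (X.presheaf.stalkSpecializes h).hom) ?_
  rw [toFF_spec, ha]

theorem regAt_mono {x x' : X} (h : x' ⤳ x) : regAt X x ≤ regAt X x' := by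
  rintro f ⟨a, ha⟩
  exact ⟨X.presheaf.stalkSpecializes h a, by rw [toFF_spec, ha]⟩

theorem unitsAt_generic : unitsAt X (genericPoint X) = ⊤ := by
  rw [eq_top_iff]
  intro f _
  exact mem_unitsAt_iff.2 ⟨f, toFF_generic X _⟩

theorem regAt_generic : regAt X (genericPoint X) = ⊤ := by
  rw [eq_top_iff]
  intro f _
  exact ⟨f, toFF_generic X _⟩

/-- the unit of the local ring representing an element of `unitsAt` -/
def unitsAt.lift {x : X} {f : X.functionFieldˣ} (h : f ∈ unitsAt X x) : (X.presheaf.stalk x)ˣ :=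
  (mem_unitsAt_iff.1 h).choose

theorem unitsAt.toFF_lift {x : X} {f : X.functionFieldˣ} (h : f ∈ unitsAt X x) :
    toFF X x (unitsAt.lift h : X.presheaf.stalk x) = f :=
  (mem_unitsAt_iff.1 h).choose_spec

theorem unitsAt.lift_eq {x : X} {f : X.functionFieldˣ} (h : f ∈ unitsAt X x)
    {a : (X.presheaf.stalk x)ˣ} (ha : toFF X x (a : X.presheaf.stalk x) = f) :
    unitsAt.lift h = a :=
  Units.ext (toFF_injective X x (by rw [unitsAt.toFF_lift, ha]))

end Units

/-! ### families of rational local equations -/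

/-- a family of non-zero rational functions (a Cartier divisor, if coherent) -/
abbrev RatFam (X : Scheme.{u}) [IsIntegral X] : Type u := X → X.functionFieldˣ

namespace RatFam

section Basic

variable {X : Scheme.{u}} [IsIntegral X]

/-- the constant family -/
def const (s : X.functionFieldˣ) : RatFam X := fun _ => s

@[simp] theorem const_apply (s : X.functionFieldˣ) (x : X) : const s x = s := rfl

/-- coherence: near every point the local equations are associated to one rational function -/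
def IsCoherent (τ : RatFam X) : Prop :=
  ∀ x : X, ∃ U : X.Opens, x ∈ U ∧ ∃ s : X.functionFieldˣ, ∀ y ∈ U, τ y / s ∈ unitsAt X y

/-- principal families: `div s = - τ` -/
def IsPrincipal (τ : RatFam X) : Prop :=
  ∃ s : X.functionFieldˣ, ∀ x : X, s * τ x ∈ unitsAt X x

theorem IsCoherent.spec {τ : RatFam X} (hτ : τ.IsCoherent) {x x' : X} (h : x' ⤳ x) :
    τ x / τ x' ∈ unitsAt X x' := by
  obtain ⟨U, hxU, s, hs⟩ := hτ x
  have hx'U : x' ∈ U := h.mem_open U.isOpen hxU
  have h1 := unitsAt_mono h (hs x hxU)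
  have h2 := hs x' hx'U
  have : τ x / τ x' = (τ x / s) / (τ x' / s) := by
    rw [div_div_div_cancel_right]
  rw [this]
  exact (unitsAt X x').div_mem h1 h2

theorem isCoherent_const (s : X.functionFieldˣ) : (const s).IsCoherent := fun _ =>
  ⟨⊤, trivial, s, fun y _ => by simp⟩

theorem isCoherent_one : (1 : RatFam X).IsCoherent := isCoherent_const 1

theorem IsCoherent.mul {τ σ : RatFam X} (hτ : τ.IsCoherent) (hσ : σ.IsCoherent) :
    (τ * σ).IsCoherent := by
  intro x
  obtain ⟨U, hxU, s, hs⟩ := hτ x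
  obtain ⟨V, hxV, r, hr⟩ := hσ x
  refine ⟨U ⊓ V, ⟨hxU, hxV⟩, s * r, fun y hy => ?_⟩
  have : (τ * σ) y / (s * r) = (τ y / s) * (σ y / r) := by
    rw [Pi.mul_apply, mul_div_mul_comm]
  rw [this]
  exact (unitsAt X y).mul_mem (hs y hy.1) (hr y hy.2)

theorem IsCoherent.inv {τ : RatFam X} (hτ : τ.IsCoherent) : (τ⁻¹).IsCoherent := by
  intro x
  obtain ⟨U, hxU, s, hs⟩ := hτ x
  refine ⟨U, hxU, s⁻¹, fun y hy => ?_⟩
  have : τ⁻¹ y / s⁻¹ = (τ y / s)⁻¹ := by
    rw [Pi.inv_apply, inv_div_inv, inv_div]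
  rw [this]
  exact (unitsAt X y).inv_mem (hs y hy)

theorem IsCoherent.div {τ σ : RatFam X} (hτ : τ.IsCoherent) (hσ : σ.IsCoherent) :
    (τ / σ).IsCoherent := by
  rw [div_eq_mul_inv]
  exact hτ.mul hσ.inv

theorem IsCoherent.pow {τ : RatFam X} (hτ : τ.IsCoherent) (n : ℕ) : (τ ^ n).IsCoherent := by
  induction n with
  | zero => rw [pow_zero]; exact isCoherent_one
  | succ n ih => rw [pow_succ]; exact ih.mul hτ

theorem IsCoherent.zpow {τ : RatFam X} (hτ : τ.IsCoherent) (n : ℤ) : (τ ^ n).IsCoherent := by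
  cases n with
  | ofNat n => rw [Int.ofNat_eq_natCast, zpow_natCast]; exact hτ.pow n
  | negSucc n => rw [zpow_negSucc]; exact (hτ.pow _).inv

theorem IsPrincipal.isCoherent {τ : RatFam X} (hτ : τ.IsPrincipal) : τ.IsCoherent := by
  obtain ⟨s, hs⟩ := hτ
  refine fun _ => ⟨⊤, trivial, s⁻¹, fun y _ => ?_⟩
  have : τ y / s⁻¹ = s * τ y := by rw [div_inv_eq_mul, mul_comm]
  rw [this]
  exact hs y

theorem isPrincipal_const (s : X.functionFieldˣ) : (const s).IsPrincipal :=
  ⟨s⁻¹, fun x => by simp [(unitsAt X x).one_mem]⟩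

theorem isPrincipal_one : (1 : RatFam X).IsPrincipal := isPrincipal_const 1

theorem IsPrincipal.mul {τ σ : RatFam X} (hτ : τ.IsPrincipal) (hσ : σ.IsPrincipal) :
    (τ * σ).IsPrincipal := by
  obtain ⟨s, hs⟩ := hτ
  obtain ⟨r, hr⟩ := hσ
  refine ⟨s * r, fun x => ?_⟩
  have : s * r * (τ * σ) x = (s * τ x) * (r * σ x) := by
    rw [Pi.mul_apply, mul_mul_mul_comm]
  rw [this]
  exact (unitsAt X x).mul_mem (hs x) (hr x)

theorem IsPrincipal.inv {τ : RatFam X} (hτ : τ.IsPrincipal) : (τ⁻¹).IsPrincipal := by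
  obtain ⟨s, hs⟩ := hτ
  refine ⟨s⁻¹, fun x => ?_⟩
  have : s⁻¹ * τ⁻¹ x = (s * τ x)⁻¹ := by
    rw [Pi.inv_apply, mul_inv]
  rw [this]
  exact (unitsAt X x).inv_mem (hs x)

theorem IsPrincipal.div {τ σ : RatFam X} (hτ : τ.IsPrincipal) (hσ : σ.IsPrincipal) :
    (τ / σ).IsPrincipal := by
  rw [div_eq_mul_inv]
  exact hτ.mul hσ.inv

/-- a principal family times a constant is principal -/
theorem IsPrincipal.const_mul {τ : RatFam X} (hτ : τ.IsPrincipal) (s : X.functionFieldˣ) :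
    (const s * τ).IsPrincipal := (isPrincipal_const s).mul hτ

theorem isPrincipal_of_const_mul {τ : RatFam X} (s : X.functionFieldˣ)
    (h : (const s * τ).IsPrincipal) : τ.IsPrincipal := by
  have := (isPrincipal_const s⁻¹).mul h
  have e : const s⁻¹ * (const s * τ) = τ := by
    funext x
    simp
  rwa [e] at this

end Basic

/-! ### pull-back along a dominant morphism -/

section Pull

variable {X Y : Scheme.{u}} [IsIntegral X] [IsIntegral Y]

/-- `ψ^* τ` for a dominant morphism -/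
def pull (ψ : Y ⟶ X) [IsDominant ψ] (τ : RatFam X) : RatFam Y :=
  fun z => Units.map (ffMap ψ : X.functionField →* Y.functionField) (τ (ψ z))

@[simp] theorem pull_apply (ψ : Y ⟶ X) [IsDominant ψ] (τ : RatFam X) (z : Y) :
    ((pull ψ τ z : Y.functionFieldˣ) : Y.functionField) = ffMap ψ (τ (ψ z)) := rfl

theorem pull_mul (ψ : Y ⟶ X) [IsDominant ψ] (τ σ : RatFam X) :
    pull ψ (τ * σ) = pull ψ τ * pull ψ σ := by
  funext z
  simp [pull]

theorem pull_inv (ψ : Y ⟶ X) [IsDominant ψ] (τ : RatFam X) :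
    pull ψ τ⁻¹ = (pull ψ τ)⁻¹ := by
  funext z
  simp [pull]

theorem pull_one (ψ : Y ⟶ X) [IsDominant ψ] : pull ψ (1 : RatFam X) = 1 := by
  funext z
  simp [pull]

/-- units pull back to units -/
theorem map_ffMap_mem_unitsAt (ψ : Y ⟶ X) [IsDominant ψ] {z : Y} {f : X.functionFieldˣ}
    (hf : f ∈ unitsAt X (ψ z)) :
    Units.map (ffMap ψ : X.functionField →* Y.functionField) f ∈ unitsAt Y z := by
  obtain ⟨a, ha⟩ := mem_unitsAt_iff.1 hf
  refine mem_unitsAt_of_isUnit (a := ψ.stalkMap z a) (a.isUnit.map (ψ.stalkMap z).hom) ?_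
  rw [toFF_stalkMap_ffMap, ha]
  rfl

/-- regular functions pull back to regular functions -/
theorem ffMap_mem_regAt (ψ : Y ⟶ X) [IsDominant ψ] {z : Y} {f : X.functionField}
    (hf : f ∈ regAt X (ψ z)) : ffMap ψ f ∈ regAt Y z := by
  obtain ⟨a, ha⟩ := hf
  exact ⟨ψ.stalkMap z a, by rw [toFF_stalkMap_ffMap, ha]⟩

theorem IsCoherent.pull {τ : RatFam X} (hτ : τ.IsCoherent) (ψ : Y ⟶ X) [IsDominant ψ] :
    (pull ψ τ).IsCoherent := by
  intro z
  obtain ⟨U, hxU, s, hs⟩ := hτ (ψ z)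
  refine ⟨ψ ⁻¹ᵁ U, hxU, Units.map (ffMap ψ : X.functionField →* Y.functionField) s,
    fun y hy => ?_⟩
  have : RatFam.pull ψ τ y / Units.map (ffMap ψ : X.functionField →* Y.functionField) s =
      Units.map (ffMap ψ : X.functionField →* Y.functionField) (τ (ψ y) / s) := by
    rw [map_div]; rfl
  rw [this]
  exact map_ffMap_mem_unitsAt ψ (hs (ψ y) hy)

theorem IsPrincipal.pull {τ : RatFam X} (hτ : τ.IsPrincipal) (ψ : Y ⟶ X) [IsDominant ψ] :
    (pull ψ τ).IsPrincipal := by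
  obtain ⟨s, hs⟩ := hτ
  refine ⟨Units.map (ffMap ψ : X.functionField →* Y.functionField) s, fun y => ?_⟩
  have : Units.map (ffMap ψ : X.functionField →* Y.functionField) s * RatFam.pull ψ τ y =
      Units.map (ffMap ψ : X.functionField →* Y.functionField) (s * τ (ψ y)) := by
    rw [map_mul]; rfl
  rw [this]
  exact map_ffMap_mem_unitsAt ψ (hs (ψ y))

end Pull

/-! ### the normalised pull-back along an arbitrary morphism -/

section Npb

variable {X Y Z : Scheme.{u}} [IsIntegral X] [IsIntegral Y] [IsIntegral Z]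

/-- the pull-back of units of the local ring at the image of the generic point -/
def pbUnits (ψ : Y ⟶ X) : (X.presheaf.stalk (ψ (genericPoint Y)))ˣ →* Y.functionFieldˣ :=
  Units.map (pbFF ψ : X.presheaf.stalk (ψ (genericPoint Y)) →* Y.functionField)

/-- the pull-back of a rational function which is a unit at the image of the generic point -/
def pbU (ψ : Y ⟶ X) (f : X.functionFieldˣ) (hf : f ∈ unitsAt X (ψ (genericPoint Y))) :
    Y.functionFieldˣ := pbUnits ψ (unitsAt.lift hf)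

theorem pbU_eq (ψ : Y ⟶ X) {f : X.functionFieldˣ} (hf : f ∈ unitsAt X (ψ (genericPoint Y)))
    {a : (X.presheaf.stalk (ψ (genericPoint Y)))ˣ}
    (ha : toFF X (ψ (genericPoint Y)) (a : X.presheaf.stalk (ψ (genericPoint Y))) = f) :
    pbU ψ f hf = pbUnits ψ a := by
  rw [pbU, unitsAt.lift_eq hf ha]

theorem pbU_congr (ψ : Y ⟶ X) {f g : X.functionFieldˣ} (h : f = g)
    (hf : f ∈ unitsAt X (ψ (genericPoint Y))) :
    pbU ψ f hf = pbU ψ g (h ▸ hf) := by
  subst h; rfl

theorem pbU_mul (ψ : Y ⟶ X) {f g : X.functionFieldˣ}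
    (hf : f ∈ unitsAt X (ψ (genericPoint Y))) (hg : g ∈ unitsAt X (ψ (genericPoint Y))) :
    pbU ψ (f * g) ((unitsAt X _).mul_mem hf hg) = pbU ψ f hf * pbU ψ g hg := by
  rw [pbU_eq ψ _ (a := unitsAt.lift hf * unitsAt.lift hg), map_mul]
  · rfl
  · rw [Units.val_mul, map_mul, unitsAt.toFF_lift, unitsAt.toFF_lift, Units.val_mul]

theorem pbU_one (ψ : Y ⟶ X) : pbU ψ 1 (unitsAt X _).one_mem = 1 := by
  rw [pbU_eq ψ _ (a := 1), map_one]
  simp

theorem pbU_inv (ψ : Y ⟶ X) {f : X.functionFieldˣ}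
    (hf : f ∈ unitsAt X (ψ (genericPoint Y))) :
    pbU ψ f⁻¹ ((unitsAt X _).inv_mem hf) = (pbU ψ f hf)⁻¹ := by
  rw [eq_inv_iff_mul_eq_one, ← pbU_mul, pbU_congr ψ (inv_mul_cancel f), pbU_one]

theorem pbU_div (ψ : Y ⟶ X) {f g : X.functionFieldˣ}
    (hf : f ∈ unitsAt X (ψ (genericPoint Y))) (hg : g ∈ unitsAt X (ψ (genericPoint Y))) :
    pbU ψ (f / g) ((unitsAt X _).div_mem hf hg) = pbU ψ f hf / pbU ψ g hg := by
  have e := pbU_congr ψ (div_eq_mul_inv f g) ((unitsAt X _).div_mem hf hg)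
  rw [e, pbU_mul ψ hf ((unitsAt X _).inv_mem hg), pbU_inv ψ hg, div_eq_mul_inv]

/-- a function which is a unit at `ψ y` pulls back to a unit at `y`, represented by the image under
the local homomorphism -/
theorem pbU_of_mem (ψ : Y ⟶ X) (y : Y) {f : X.functionFieldˣ} (hf : f ∈ unitsAt X (ψ y)) :
    ((pbU ψ f (unitsAt_mono (map_generic_specializes ψ y) hf) : Y.functionFieldˣ) :
      Y.functionField) = toFF Y y (ψ.stalkMap y (unitsAt.lift hf : X.presheaf.stalk (ψ y))) := by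
  have hu : IsUnit (X.presheaf.stalkSpecializes (map_generic_specializes ψ y)
      (unitsAt.lift hf : X.presheaf.stalk (ψ y))) := (unitsAt.lift hf).isUnit.map _
  rw [pbU_eq ψ _ (a := hu.unit) (by rw [IsUnit.unit_spec, toFF_spec, unitsAt.toFF_lift])]
  show pbFF ψ (hu.unit : X.presheaf.stalk (ψ (genericPoint Y))) = _
  rw [IsUnit.unit_spec, ← toFF_stalkMap]

theorem pbU_mem_unitsAt (ψ : Y ⟶ X) (y : Y) {f : X.functionFieldˣ} (hf : f ∈ unitsAt X (ψ y)) :
    pbU ψ f (unitsAt_mono (map_generic_specializes ψ y) hf) ∈ unitsAt Y y :=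
  mem_unitsAt_of_isUnit ((unitsAt.lift hf).isUnit.map (ψ.stalkMap y).hom) (pbU_of_mem ψ y hf).symm

/-- functoriality of the pull-back of units -/
theorem pbU_comp (φ : Z ⟶ Y) (ψ : Y ⟶ X) {f : X.functionFieldˣ}
    (hf : f ∈ unitsAt X ((φ ≫ ψ) (genericPoint Z))) :
    pbU (φ ≫ ψ) f hf = pbU φ (pbU ψ f (unitsAt_mono (map_generic_specializes ψ _) hf))
      (pbU_mem_unitsAt ψ (φ (genericPoint Z)) hf) := by
  have hu : IsUnit (ψ.stalkMap (φ (genericPoint Z))
      (unitsAt.lift hf : X.presheaf.stalk ((φ ≫ ψ) (genericPoint Z)))) :=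
    (unitsAt.lift hf).isUnit.map (ψ.stalkMap (φ (genericPoint Z))).hom
  rw [pbU_eq φ _ (a := hu.unit) (by rw [IsUnit.unit_spec]; exact (pbU_of_mem ψ _ hf).symm)]
  apply Units.ext
  show pbFF (φ ≫ ψ) (unitsAt.lift hf : X.presheaf.stalk ((φ ≫ ψ) (genericPoint Z))) =
    pbFF φ (hu.unit : Y.presheaf.stalk (φ (genericPoint Z)))
  rw [IsUnit.unit_spec]
  show ((φ ≫ ψ).stalkMap (genericPoint Z)).hom _ = (φ.stalkMap (genericPoint Z)).hom _
  rw [Scheme.Hom.stalkMap_comp]
  rfl

open Classical in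
/-- `ψ^! τ` : the normalised pull-back, `z ↦ ψ^# (τ (ψ z) / τ (ψ η_Y))` -/
def npb (ψ : Y ⟶ X) (τ : RatFam X) : RatFam Y := fun z =>
  if h : τ (ψ z) / τ (ψ (genericPoint Y)) ∈ unitsAt X (ψ (genericPoint Y)) then
    pbU ψ _ h else 1

theorem npb_apply {τ : RatFam X} (hτ : τ.IsCoherent) (ψ : Y ⟶ X) (z : Y) :
    npb ψ τ z = pbU ψ (τ (ψ z) / τ (ψ (genericPoint Y)))
      (hτ.spec (map_generic_specializes ψ z)) := by
  rw [npb, dif_pos]

theorem npb_generic {τ : RatFam X} (hτ : τ.IsCoherent) (ψ : Y ⟶ X) :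
    npb ψ τ (genericPoint Y) = 1 := by
  rw [npb_apply hτ, pbU_congr ψ (div_self' _), pbU_one]

theorem npb_mul {τ σ : RatFam X} (hτ : τ.IsCoherent) (hσ : σ.IsCoherent) (ψ : Y ⟶ X) :
    npb ψ (τ * σ) = npb ψ τ * npb ψ σ := by
  funext z
  rw [Pi.mul_apply, npb_apply hτ, npb_apply hσ, npb_apply (hτ.mul hσ), ← pbU_mul]
  exact pbU_congr ψ (mul_div_mul_comm _ _ _ _) _

theorem npb_inv {τ : RatFam X} (hτ : τ.IsCoherent) (ψ : Y ⟶ X) :
    npb ψ τ⁻¹ = (npb ψ τ)⁻¹ := by
  funext z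
  rw [Pi.inv_apply, npb_apply hτ, npb_apply hτ.inv, ← pbU_inv]
  exact pbU_congr ψ (by rw [Pi.inv_apply, Pi.inv_apply, inv_div_inv, inv_div]) _

theorem npb_div {τ σ : RatFam X} (hτ : τ.IsCoherent) (hσ : σ.IsCoherent) (ψ : Y ⟶ X) :
    npb ψ (τ / σ) = npb ψ τ / npb ψ σ := by
  rw [div_eq_mul_inv, npb_mul hτ hσ.inv, npb_inv hσ, div_eq_mul_inv]

theorem npb_const (ψ : Y ⟶ X) (s : X.functionFieldˣ) : npb ψ (const s) = 1 := by
  funext z
  rw [npb_apply (isCoherent_const s), Pi.one_apply]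
  rw [pbU_congr ψ (by simp : const s (ψ z) / const s (ψ (genericPoint Y)) = 1), pbU_one]

theorem npb_one (ψ : Y ⟶ X) : npb ψ (1 : RatFam X) = 1 := npb_const ψ 1

theorem npb_pow {τ : RatFam X} (hτ : τ.IsCoherent) (ψ : Y ⟶ X) (n : ℕ) :
    npb ψ (τ ^ n) = npb ψ τ ^ n := by
  induction n with
  | zero => rw [pow_zero, pow_zero, npb_one]
  | succ n ih => rw [pow_succ, pow_succ, npb_mul (hτ.pow n) hτ, ih]

theorem npb_congr {ψ ψ' : Y ⟶ X} (h : ψ = ψ') (τ : RatFam X) : npb ψ τ = npb ψ' τ := by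
  subst h; rfl

/-- **a morphism which is constant on points**: the normalised pull-back is trivial -/
theorem npb_of_const {τ : RatFam X} (hτ : τ.IsCoherent) (ψ : Y ⟶ X)
    (hψ : ∀ z : Y, ψ z = ψ (genericPoint Y)) : npb ψ τ = 1 := by
  funext z
  rw [npb_apply hτ, Pi.one_apply]
  rw [pbU_congr ψ (by rw [hψ z, div_self'] :
    τ (ψ z) / τ (ψ (genericPoint Y)) = 1), pbU_one]

/-- **local structure of the normalised pull-back**: if `τ` is associated to `s` on the open `U`,
then `ψ^! τ` is associated to a constant on `ψ⁻¹ U` -/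
theorem exists_npb_div_mem (ψ : Y ⟶ X) (τ : RatFam X) (U : X.Opens) (s : X.functionFieldˣ)
    (hs : ∀ y ∈ U, τ y / s ∈ unitsAt X y) (hU : ψ (genericPoint Y) ∈ U) :
    ∃ s' : Y.functionFieldˣ, ∀ z : Y, ψ z ∈ U → npb ψ τ z / s' ∈ unitsAt Y z := by
  refine ⟨(pbU ψ _ (hs _ hU))⁻¹, fun z hz => ?_⟩
  have h1 := unitsAt_mono (map_generic_specializes ψ z) (hs _ hz)
  have h2 := hs _ hU
  have e : τ (ψ z) / τ (ψ (genericPoint Y)) = (τ (ψ z) / s) / (τ (ψ (genericPoint Y)) / s) := by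
    rw [div_div_div_cancel_right]
  have h3 : τ (ψ z) / τ (ψ (genericPoint Y)) ∈ unitsAt X (ψ (genericPoint Y)) := by
    rw [e]; exact (unitsAt X _).div_mem h1 h2
  have e2 : npb ψ τ z = pbU ψ _ h1 / pbU ψ _ h2 := by
    rw [npb, dif_pos h3, ← pbU_div ψ h1 h2]
    exact pbU_congr ψ e _
  rw [e2, div_inv_eq_mul, div_mul_cancel]
  exact pbU_mem_unitsAt ψ z (hs _ hz)

/-- the normalised pull-back of a coherent family is coherent -/
theorem IsCoherent.npb {τ : RatFam X} (hτ : τ.IsCoherent) (ψ : Y ⟶ X) :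
    (npb ψ τ).IsCoherent := by
  intro z
  obtain ⟨U, hxU, s, hs⟩ := hτ (ψ z)
  have hη : ψ (genericPoint Y) ∈ U :=
    (map_generic_specializes ψ z).mem_open U.isOpen hxU
  obtain ⟨s', hs'⟩ := exists_npb_div_mem ψ τ U s hs hη
  exact ⟨ψ ⁻¹ᵁ U, hxU, s', fun y hy => hs' y hy⟩

/-- **the transfer theorem**: the normalised pull-back of a principal family is principal -/
theorem IsPrincipal.npb {τ : RatFam X} (hτ : τ.IsPrincipal) (ψ : Y ⟶ X) :
    (npb ψ τ).IsPrincipal := by
  obtain ⟨s, hs⟩ := hτ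
  obtain ⟨s', hs'⟩ := exists_npb_div_mem ψ τ ⊤ s⁻¹ (fun y _ => by
    have : τ y / s⁻¹ = s * τ y := by rw [div_inv_eq_mul, mul_comm]
    rw [this]; exact hs y) trivial
  refine ⟨s'⁻¹, fun z => ?_⟩
  have := hs' z trivial
  rwa [div_eq_mul_inv, mul_comm] at this

/-- **functoriality of the normalised pull-back** -/
theorem npb_comp {τ : RatFam X} (hτ : τ.IsCoherent) (φ : Z ⟶ Y) (ψ : Y ⟶ X) :
    npb (φ ≫ ψ) τ = npb φ (npb ψ τ) := by
  funext z
  have hσ := hτ.npb ψ
  rw [npb_apply hτ, npb_apply hσ, pbU_comp φ ψ]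
  apply pbU_congr φ
  have h1 : τ (ψ (φ z)) / τ (ψ (genericPoint Y)) ∈ unitsAt X (ψ (genericPoint Y)) :=
    hτ.spec (map_generic_specializes ψ (φ z))
  have h2 : τ (ψ (φ (genericPoint Z))) / τ (ψ (genericPoint Y)) ∈
      unitsAt X (ψ (genericPoint Y)) :=
    hτ.spec (map_generic_specializes ψ (φ (genericPoint Z)))
  rw [npb_apply hτ, npb_apply hτ, ← pbU_div ψ h1 h2]
  exact pbU_congr ψ (div_div_div_cancel_right _ _ _).symm _

/-- for a dominant morphism the pull-back of units is the comorphism of function fields -/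
theorem pbU_eq_ffMap (ψ : Y ⟶ X) [IsDominant ψ] {f : X.functionFieldˣ}
    (hf : f ∈ unitsAt X (ψ (genericPoint Y))) :
    pbU ψ f hf = Units.map (ffMap ψ : X.functionField →* Y.functionField) f := by
  apply Units.ext
  show pbFF ψ (unitsAt.lift hf : X.presheaf.stalk (ψ (genericPoint Y))) = ffMap ψ f
  rw [ffMap_apply]
  congr 1
  apply toFF_injective X (ψ (genericPoint Y))
  rw [unitsAt.toFF_lift, toFF_spec, toFF_generic]

/-- **for a dominant morphism the normalised pull-back is the pull-back up to a constant** -/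
theorem npb_eq_pull {τ : RatFam X} (hτ : τ.IsCoherent) (ψ : Y ⟶ X) [IsDominant ψ] :
    npb ψ τ = pull ψ τ / const (pull ψ τ (genericPoint Y)) := by
  funext z
  rw [npb_apply hτ, pbU_eq_ffMap, map_div]
  rfl

theorem isPrincipal_npb_iff_pull {τ : RatFam X} (hτ : τ.IsCoherent) (ψ : Y ⟶ X) [IsDominant ψ] :
    (npb ψ τ).IsPrincipal ↔ (pull ψ τ).IsPrincipal := by
  rw [npb_eq_pull hτ]
  constructor
  · intro h
    have := h.mul (isPrincipal_const (pull ψ τ (genericPoint Y)))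
    rwa [div_mul_cancel] at this
  · intro h
    exact h.div (isPrincipal_const _)

theorem pbU_congr_hom {ψ ψ' : Y ⟶ X} (h : ψ = ψ') {f : X.functionFieldˣ}
    (hf : f ∈ unitsAt X (ψ (genericPoint Y))) :
    pbU ψ f hf = pbU ψ' f (h ▸ hf) := by
  subst h; rfl

theorem pbU_id {f : X.functionFieldˣ}
    (hf : f ∈ unitsAt X ((𝟙 X : X ⟶ X) (genericPoint X))) : pbU (𝟙 X) f hf = f := by
  apply Units.ext
  show pbFF (𝟙 X) (unitsAt.lift hf : X.presheaf.stalk ((𝟙 X : X ⟶ X) (genericPoint X))) = f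
  have h1 : pbFF (𝟙 X) (unitsAt.lift hf : X.presheaf.stalk ((𝟙 X : X ⟶ X) (genericPoint X))) =
      ((𝟙 X : X ⟶ X).stalkMap (genericPoint X)).hom
        (unitsAt.lift hf : X.presheaf.stalk ((𝟙 X : X ⟶ X) (genericPoint X))) := rfl
  rw [h1, Scheme.Hom.stalkMap_id]
  have h2 := unitsAt.toFF_lift hf
  rw [← h2]
  exact (toFF_generic X _).symm

/-- **a section of a dominant morphism**: `i ≫ ρ = 𝟙` implies `i^# (ρ^* f) = f` -/
theorem pbU_pull_of_section (i : X ⟶ Y) (ρ : Y ⟶ X) [IsDominant ρ] (h : i ≫ ρ = 𝟙 X)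
    (f : X.functionFieldˣ)
    (hf : Units.map (ffMap ρ : X.functionField →* Y.functionField) f ∈
      unitsAt Y (i (genericPoint X))) :
    pbU i (Units.map (ffMap ρ : X.functionField →* Y.functionField) f) hf = f := by
  have hf0 : f ∈ unitsAt X ((i ≫ ρ) (genericPoint X)) := by
    rw [h]
    show f ∈ unitsAt X (genericPoint X)
    rw [unitsAt_generic]; trivial
  have h1 := pbU_comp i ρ hf0
  rw [pbU_congr_hom h hf0, pbU_id] at h1
  refine Eq.trans ?_ h1.symm
  apply pbU_congr i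
  rw [pbU_eq_ffMap]

/-- the restriction of a regular function which is a unit at the image of the generic point -/
theorem toFF_stalkMap_eq_pbU (ψ : Y ⟶ X) (y : Y) (e : X.presheaf.stalk (ψ y))
    {F : X.functionFieldˣ} (he : toFF X (ψ y) e = F)
    (hF : F ∈ unitsAt X (ψ (genericPoint Y))) :
    toFF Y y (ψ.stalkMap y e) = ((pbU ψ F hF : Y.functionFieldˣ) : Y.functionField) := by
  rw [toFF_stalkMap]
  show _ = pbFF ψ (unitsAt.lift hF : X.presheaf.stalk (ψ (genericPoint Y)))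
  congr 1
  apply toFF_injective X (ψ (genericPoint Y))
  rw [unitsAt.toFF_lift, toFF_spec, he]

theorem pbU_zpow (ψ : Y ⟶ X) {f : X.functionFieldˣ}
    (hf : f ∈ unitsAt X (ψ (genericPoint Y))) (n : ℤ) :
    pbU ψ (f ^ n) ((unitsAt X _).zpow_mem hf n) = pbU ψ f hf ^ n := by
  rw [pbU_eq ψ _ (a := unitsAt.lift hf ^ n), map_zpow]
  · rfl
  · have h1 : Units.map (toFF X (ψ (genericPoint Y)) : _ →* X.functionField) (unitsAt.lift hf) = f :=
      Units.ext (unitsAt.toFF_lift hf)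
    have h2 := congrArg (fun g : X.functionFieldˣ => ((g ^ n : X.functionFieldˣ) : X.functionField)) h1
    simp only [← map_zpow] at h2
    exact h2

end Npb

end RatFam

end Fermat.Agent.S26lib.Quad
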