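/-
S26lib / Quad / LocalEq  (helper1)  --  Project K (S26)

**Local equations of prime divisors at arbitrary points (locally factorial schemes).**

* `specPrime h` for a generisation `h : z ⤳ x` : the prime ideal of `O_{X,x}` of the germs which are
  non-units at `z`; `isLocalization_stalkSpecializes` : `O_{X,z}` is the localisation of `O_{X,x}` at
  `specPrime h` (through `stalkSpecializes h`); `specPrime_injective`;
* `height_specPrime_eq_one` : for a prime divisor `Z ⤳ x` (i.e. `O_{X,Z}` a DVR);
* **`exists_localEq`** : if `O_{X,x}` is a UFD and `Z` a prime divisor through `x`, there is `π ∈ O_{X,x}`,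
  `π ≠ 0`, with `ordAt Z π = 1` and `ordAt Z' π = 0` for every other prime divisor `Z'` through `x`.
-/
import Mathlib
import Fermat.Agent.S26lib.Quad.LocEq
import Fermat.Agent.S26lib.Weil.Model
import Fermat.Agent.S26lib.FinMap.OrdComp

set_option autoImplicit false
set_option linter.unusedSectionVars false
set_option linter.style.haveILetI false
set_option linter.overlappingInstances false

noncomputable section

namespace Fermat.Agent.S26lib.Quad

open AlgebraicGeometry CategoryTheory TopologicalSpace IsLocalRing Fermat.Agent.S26lib.Weil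
  Fermat.Agent.S26lib.FinMap

universe u

section Spec

variable {X : Scheme.{u}}

/-- the prime ideal of an affine open attached to a point: the sections which are not units at the
point -/
theorem mem_primeIdealOf_iff {U : X.Opens} (hU : IsAffineOpen U) (y : U) (s : Γ(X, U)) :
    s ∈ (hU.primeIdealOf y).asIdeal ↔ ¬ IsUnit (X.presheaf.germ U y.1 y.2 s) := by
  rw [hU.primeIdealOf_eq_map_closedPoint]
  show X.presheaf.germ U y.1 y.2 s ∈ maximalIdeal _ ↔ _
  rw [mem_maximalIdeal, mem_nonunits_iff]

/-- the prime ideal of `O_{X,x}` of a generisation `z` of `x` -/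
def specPrime {x z : X} (h : z ⤳ x) : Ideal (X.presheaf.stalk x) :=
  (maximalIdeal (X.presheaf.stalk z)).comap (X.presheaf.stalkSpecializes h).hom

instance {x z : X} (h : z ⤳ x) : (specPrime h).IsPrime :=
  Ideal.comap_isPrime _ _

theorem mem_specPrime_iff {x z : X} (h : z ⤳ x) (a : X.presheaf.stalk x) :
    a ∈ specPrime h ↔ ¬ IsUnit (X.presheaf.stalkSpecializes h a) := by
  unfold specPrime
  rw [Ideal.mem_comap, mem_maximalIdeal, mem_nonunits_iff]

/-- **`O_{X,z}` is the localisation of `O_{X,x}` at the prime of the generisation `z`** -/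
theorem isLocalization_stalkSpecializes {x z : X} (h : z ⤳ x) :
    letI := (X.presheaf.stalkSpecializes h).hom.toAlgebra
    IsLocalization.AtPrime (X.presheaf.stalk z) (specPrime h) := by
  letI a3 : Algebra (X.presheaf.stalk x) (X.presheaf.stalk z) :=
    (X.presheaf.stalkSpecializes h).hom.toAlgebra
  obtain ⟨_, ⟨U, hU : IsAffineOpen U, rfl⟩, hx, -⟩ :=
    X.isBasis_affineOpens.exists_subset_of_mem_open (Set.mem_univ x) isOpen_univ
  have hz : z ∈ U := h.mem_open U.isOpen hx
  letI a1 : Algebra Γ(X, U) (X.presheaf.stalk x) :=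
    TopCat.Presheaf.algebra_section_stalk X.presheaf ⟨x, hx⟩
  letI a2 : Algebra Γ(X, U) (X.presheaf.stalk z) :=
    TopCat.Presheaf.algebra_section_stalk X.presheaf ⟨z, hz⟩
  have hgerm : ∀ s : Γ(X, U), X.presheaf.stalkSpecializes h (X.presheaf.germ U x hx s) =
      X.presheaf.germ U z hz s := fun s =>
    congrArg (fun φ => φ.hom s) (X.presheaf.germ_stalkSpecializes hx h)
  haveI : IsScalarTower Γ(X, U) (X.presheaf.stalk x) (X.presheaf.stalk z) :=
    IsScalarTower.of_algebraMap_eq fun s => (hgerm s).symm
  haveI l1 : IsLocalization.AtPrime (X.presheaf.stalk x) (hU.primeIdealOf ⟨x, hx⟩).asIdeal :=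
    hU.isLocalization_stalk ⟨x, hx⟩
  haveI l2 : IsLocalization.AtPrime (X.presheaf.stalk z) (hU.primeIdealOf ⟨z, hz⟩).asIdeal :=
    hU.isLocalization_stalk ⟨z, hz⟩
  have hle : (hU.primeIdealOf ⟨x, hx⟩).asIdeal.primeCompl ≤
      (hU.primeIdealOf ⟨z, hz⟩).asIdeal.primeCompl := by
    intro s hs hsz
    apply (mem_primeIdealOf_iff hU ⟨z, hz⟩ s).mp hsz
    have hux : IsUnit (X.presheaf.germ U x hx s) := by
      by_contra hnu
      exact hs ((mem_primeIdealOf_iff hU ⟨x, hx⟩ s).mpr hnu)
    rw [← hgerm s]
    exact hux.map (X.presheaf.stalkSpecializes h).hom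
  haveI l3 := IsLocalization.isLocalization_of_submonoid_le (X.presheaf.stalk x)
    (X.presheaf.stalk z) _ _ hle
  refine IsLocalization.of_le
    (M := (hU.primeIdealOf ⟨z, hz⟩).asIdeal.primeCompl.map
      (algebraMap Γ(X, U) (X.presheaf.stalk x)))
    (specPrime h).primeCompl ?_ ?_
  · rintro _ ⟨s, hs, rfl⟩ hmem
    apply (mem_specPrime_iff h _).mp hmem
    show IsUnit (X.presheaf.stalkSpecializes h (X.presheaf.germ U x hx s))
    rw [hgerm s]
    by_contra hnu
    exact hs ((mem_primeIdealOf_iff hU ⟨z, hz⟩ s).mpr hnu)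
  · intro r hr
    by_contra hnu
    exact hr ((mem_specPrime_iff h r).mpr hnu)

/-- a generisation is determined by its prime -/
theorem specPrime_injective {x z z' : X} (h : z ⤳ x) (h' : z' ⤳ x)
    (e : specPrime h = specPrime h') : z = z' := by
  obtain ⟨_, ⟨U, hU : IsAffineOpen U, rfl⟩, hx, -⟩ :=
    X.isBasis_affineOpens.exists_subset_of_mem_open (Set.mem_univ x) isOpen_univ
  have hz : z ∈ U := h.mem_open U.isOpen hx
  have hz' : z' ∈ U := h'.mem_open U.isOpen hx
  have key : hU.primeIdealOf ⟨z, hz⟩ = hU.primeIdealOf ⟨z', hz'⟩ := by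
    apply PrimeSpectrum.ext
    ext s
    rw [mem_primeIdealOf_iff, mem_primeIdealOf_iff]
    have e1 : X.presheaf.stalkSpecializes h (X.presheaf.germ U x hx s) =
        X.presheaf.germ U z hz s :=
      congrArg (fun φ => φ.hom s) (X.presheaf.germ_stalkSpecializes hx h)
    have e2 : X.presheaf.stalkSpecializes h' (X.presheaf.germ U x hx s) =
        X.presheaf.germ U z' hz' s :=
      congrArg (fun φ => φ.hom s) (X.presheaf.germ_stalkSpecializes hx h')
    show ¬ IsUnit (X.presheaf.germ U z hz s) ↔ ¬ IsUnit (X.presheaf.germ U z' hz' s)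
    rw [← e1, ← e2, ← mem_specPrime_iff, ← mem_specPrime_iff, e]
  have := congrArg hU.fromSpec key
  rw [hU.fromSpec_primeIdealOf, hU.fromSpec_primeIdealOf] at this
  exact this

end Spec

section LocalEq

variable {X : Scheme.{u}} [IsIntegral X] [IsLocallyNoetherian X]

/-- the prime of a prime divisor through `x` has height one -/
theorem height_specPrime_eq_one (Z : PrimeDiv X) {x : X} (h : Z.1 ⤳ x) :
    (specPrime h).height = 1 := by
  letI := (X.presheaf.stalkSpecializes h).hom.toAlgebra
  haveI := isLocalization_stalkSpecializes h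
  haveI := Z.2
  have h1 := IsLocalization.AtPrime.ringKrullDim_eq_height (specPrime h) (X.presheaf.stalk Z.1)
  rw [IsDiscreteValuationRing.ringKrullDim_eq_one] at h1
  exact_mod_cast h1.symm

/-- **local equation of a prime divisor at a point with factorial local ring** -/
theorem exists_localEq (Z : PrimeDiv X) {x : X} (h : Z.1 ⤳ x)
    [UniqueFactorizationMonoid (X.presheaf.stalk x)] :
    ∃ π : X.presheaf.stalk x, π ≠ 0 ∧ ordAt Z (toFF X x π) = 1 ∧
      ∀ Z' : PrimeDiv X, Z'.1 ⤳ x → Z' ≠ Z → ordAt Z' (toFF X x π) = 0 := by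
  have hht := height_specPrime_eq_one Z h
  obtain ⟨π, hπ⟩ := (UniqueFactorizationMonoid.isPrincipal_of_height_eq_one hht).principal
  have hπ' : specPrime h = Ideal.span {π} := hπ
  have hπ0 : π ≠ 0 := by
    rintro rfl
    have hbot : specPrime h = ⊥ := by rw [hπ']; simp
    have := Ideal.ne_bot_of_height_eq_one hht
    exact this hbot
  refine ⟨π, hπ0, ?_, ?_⟩
  · -- `spec π` generates the maximal ideal of the DVR `O_Z`
    letI := (X.presheaf.stalkSpecializes h).hom.toAlgebra
    haveI := isLocalization_stalkSpecializes h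
    haveI := Z.2
    have hmax : maximalIdeal (X.presheaf.stalk Z.1) =
        Ideal.span {X.presheaf.stalkSpecializes h π} := by
      have := IsLocalization.map_under (specPrime h).primeCompl (X.presheaf.stalk Z.1)
        (maximalIdeal (X.presheaf.stalk Z.1))
      rw [← this]
      show Ideal.map _ (specPrime h) = _
      rw [hπ', Ideal.map_span, Set.image_singleton]
      rfl
    have hirr : Irreducible (X.presheaf.stalkSpecializes h π) :=
      (IsDiscreteValuationRing.irreducible_iff_uniformizer _).mpr hmax
    rw [← toFF_spec X h π]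
    exact ordAt_toFF_irreducible Z hirr
  · intro Z' h' hne
    by_contra hord
    have hnu : ¬ IsUnit (X.presheaf.stalkSpecializes h' π) := by
      intro hu
      apply hord
      rw [← toFF_spec X h' π]
      have hs0 : X.presheaf.stalkSpecializes h' π ≠ 0 := hu.ne_zero
      exact (ordAt_toFF_eq_zero_iff Z' hs0).mpr hu
    have hmem : π ∈ specPrime h' := (mem_specPrime_iff h' π).mpr hnu
    have hle : specPrime h ≤ specPrime h' := by
      rw [hπ', Ideal.span_singleton_le_iff_mem]
      exact hmem
    have heq : specPrime h = specPrime h' := by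
      by_contra hne'
      have hlt : specPrime h < specPrime h' := lt_of_le_of_ne hle hne'
      have h2 := Ideal.height_add_one_le_of_lt_of_isPrime hlt
      rw [hht, height_specPrime_eq_one Z' h'] at h2
      norm_num at h2
    exact hne (Subtype.ext (specPrime_injective h h' heq).symm)

end LocalEq

end Fermat.Agent.S26lib.Quad
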