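/-
S26lib / Quad / WeilCartier  (helper1)  --  Project K (S26)

**The glue between the Weil side (`Weil.ordAt`, helper9) and the Cartier side (`LocFam`, `IsDivOf`).**

`X` an integral locally noetherian scheme.
* `LocFam.weil D Z := ordAt Z (toFF (D.t Z))` : the Weil divisor of a family of local equations;
  `weil_one/_mul/_pow`, `IsCoherent.ordAt_toFF_spec` (for a coherent family the order along `Z` of the
  local equation at ANY specialisation `x` of `Z` is `weil D Z`);
* **`IsDivOf.ordAt_eq`  (CARTIER ⟹ WEIL)** : `IsDivOf H P N` ⟹ `ordAt Z H = weil P Z - weil N Z`;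
* **`isDivOf_of_weil`  (WEIL ⟹ CARTIER)** : `X` normal, `P`, `N` coherent with non-zero equations,
  `H ≠ 0` with `ordAt Z H = weil P Z - weil N Z` for ALL prime divisors `Z` ⟹ `IsDivOf H P N`
  (local Hartogs, helper4's `mem_range_stalk_of_forall_coheight_one`);
* `weil_pullback` : for a flat unramified dominant `φ`, `weil (φ^* D) P' = weil D (imgPt φ P')`;
* **`hquad_of_isDivOf`** : `IsDivOf u ([n]^*D) (D ^ m)` ⟹ the hypothesis `hquad` of the growth theorem
  `(pullDiv (imgPt φ) 1 Dw P' : ℤ) = m * Dw P' + ordAt P' u` for `Dw` with `(Dw Z : ℤ) = weil D Z`.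
-/
import Mathlib
import Fermat.Agent.S26lib.Quad.LocEq
import Fermat.Agent.S26lib.Weil.Model
import Fermat.Agent.S26lib.P5a.HartogsScheme
import Fermat.Agent.S26lib.P5a.DVR
import Fermat.Agent.S26lib.FinMap.OrdComp

set_option autoImplicit false
set_option linter.unusedSectionVars false
set_option linter.style.haveILetI false
set_option linter.overlappingInstances false

noncomputable section

namespace Fermat.Agent.S26lib.Quad

open AlgebraicGeometry CategoryTheory TopologicalSpace Fermat.Agent.S26lib.Weil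
  Fermat.Agent.S26lib.FinMap

universe u

section Weil

variable {X : Scheme.{u}} [IsIntegral X] [IsLocallyNoetherian X]

/-- the Weil divisor of a family of local equations -/
def LocFam.weil (D : LocFam X) (Z : PrimeDiv X) : ℤ := ordAt Z (toFF X Z.1 (D.t Z.1))

theorem LocFam.weil_nonneg (D : LocFam X) (Z : PrimeDiv X) : 0 ≤ D.weil Z :=
  ordAt_toFF_nonneg Z _

theorem LocFam.weil_one (Z : PrimeDiv X) : (1 : LocFam X).weil Z = 0 := by
  unfold LocFam.weil
  rw [LocFam.one_t, map_one, ordAt_one]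

theorem LocFam.weil_mul {D E : LocFam X} (Z : PrimeDiv X) (hD : D.t Z.1 ≠ 0) (hE : E.t Z.1 ≠ 0) :
    (D * E).weil Z = D.weil Z + E.weil Z := by
  unfold LocFam.weil
  rw [LocFam.mul_t, map_mul, ordAt_mul Z (toFF_ne_zero X hD) (toFF_ne_zero X hE)]

theorem LocFam.weil_pow {D : LocFam X} (Z : PrimeDiv X) (hD : D.t Z.1 ≠ 0) (n : ℕ) :
    (D ^ n).weil Z = n * D.weil Z := by
  unfold LocFam.weil
  rw [LocFam.pow_t, map_pow, ordAt_pow Z (toFF_ne_zero X hD)]

/-- the order along `Z` only depends on the class up to units of `O_Z` -/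
theorem ordAt_toFF_of_associated (Z : PrimeDiv X) {a b : X.presheaf.stalk Z.1}
    (h : Associated a b) : ordAt Z (toFF X Z.1 a) = ordAt Z (toFF X Z.1 b) := by
  obtain ⟨u, rfl⟩ := h
  rcases eq_or_ne a 0 with rfl | ha
  · rw [zero_mul]
  rw [map_mul, ordAt_mul Z (toFF_ne_zero X ha) (toFF_ne_zero X u.ne_zero), ordAt_toFF_unit,
    add_zero]

theorem LocFam.Equiv.weil_eq {D E : LocFam X} (h : D.Equiv E) (Z : PrimeDiv X) :
    D.weil Z = E.weil Z :=
  ordAt_toFF_of_associated Z (h Z.1)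

/-- for a coherent family, the order along `Z` of the local equation at a specialisation `x` of
`Z` is the multiplicity `weil D Z` -/
theorem LocFam.IsCoherent.ordAt_toFF_spec {D : LocFam X} (hD : D.IsCoherent) (Z : PrimeDiv X)
    {x : X} (h : Z.1 ⤳ x) : ordAt Z (toFF X x (D.t x)) = D.weil Z := by
  rw [← toFF_spec X h (D.t x)]
  exact ordAt_toFF_of_associated Z (hD.spec h)

/-- **CARTIER ⟹ WEIL** -/
theorem IsDivOf.ordAt_eq {H : X.functionField} (hH : H ≠ 0) {P N : LocFam X}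
    (h : IsDivOf H P N) (hN : ∀ x, N.t x ≠ 0) (Z : PrimeDiv X) :
    ordAt Z H = P.weil Z - N.weil Z := by
  obtain ⟨ε, hε⟩ := h Z.1
  have h1 : toFF X Z.1 (ε : X.presheaf.stalk Z.1) ≠ 0 := toFF_ne_zero X ε.ne_zero
  have h2 : toFF X Z.1 (N.t Z.1) ≠ 0 := toFF_ne_zero X (hN Z.1)
  have h3 := ordAt_mul Z (mul_ne_zero h1 hH) h2
  rw [hε, ordAt_mul Z h1 hH, ordAt_toFF_unit, zero_add] at h3
  unfold LocFam.weil
  omega

/-- **WEIL ⟹ CARTIER** on a normal scheme -/
theorem isDivOf_of_weil (hnorm : ∀ x : X, IsIntegrallyClosed (X.presheaf.stalk x))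
    {H : X.functionField} (hH : H ≠ 0) {P N : LocFam X} (hP : P.IsCoherent) (hN : N.IsCoherent)
    (hP0 : ∀ x, P.t x ≠ 0) (hN0 : ∀ x, N.t x ≠ 0)
    (h : ∀ Z : PrimeDiv X, ordAt Z H = P.weil Z - N.weil Z) : IsDivOf H P N := by
  intro x
  have hp : toFF X x (P.t x) ≠ 0 := toFF_ne_zero X (hP0 x)
  have hn : toFF X x (N.t x) ≠ 0 := toFF_ne_zero X (hN0 x)
  -- the quotient `r = P / (H N)` and its inverse have order `0` along all `Z ⤳ x`
  set r : X.functionField := toFF X x (P.t x) * (H * toFF X x (N.t x))⁻¹ with hr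
  have hr0 : r ≠ 0 := mul_ne_zero hp (inv_ne_zero (mul_ne_zero hH hn))
  have hord : ∀ Z : PrimeDiv X, Z.1 ⤳ x → ordAt Z r = 0 := by
    intro Z hZ
    have e1 : ordAt Z (r * (H * toFF X x (N.t x))) = ordAt Z (toFF X x (P.t x)) := by
      rw [hr, mul_assoc, inv_mul_cancel₀ (mul_ne_zero hH hn), mul_one]
    rw [ordAt_mul Z hr0 (mul_ne_zero hH hn), ordAt_mul Z hH hn, hP.ordAt_toFF_spec Z hZ,
      hN.ordAt_toFF_spec Z hZ, h Z] at e1
    omega
  have hmem : ∀ y : X.functionField, y ≠ 0 → (∀ Z : PrimeDiv X, Z.1 ⤳ x → ordAt Z y = 0) →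
      y ∈ (toFF X x).range := by
    intro y hy hy0
    refine P5a.mem_range_stalk_of_forall_coheight_one hnorm x y fun z hz hco => ?_
    have hdvr : IsDiscreteValuationRing (X.presheaf.stalk z) :=
      P5a.isDiscreteValuationRing_of_coheight_eq_one z (hnorm z) hco
    have h0 := hy0 ⟨z, hdvr⟩ hz
    obtain ⟨a, ha⟩ := (ordAt_nonneg_iff ⟨z, hdvr⟩ hy).mp h0.ge
    exact ⟨a, ha⟩
  have hinv : ∀ Z : PrimeDiv X, Z.1 ⤳ x → ordAt Z r⁻¹ = 0 := by
    intro Z hZ
    have e := ordAt_mul Z hr0 (inv_ne_zero hr0)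
    rw [mul_inv_cancel₀ hr0, ordAt_one, hord Z hZ] at e
    omega
  obtain ⟨a, ha⟩ := hmem r hr0 hord
  obtain ⟨b, hb⟩ := hmem r⁻¹ (inv_ne_zero hr0) hinv
  have hab : a * b = 1 := by
    apply toFF_injective X x
    rw [map_mul, ha, hb, mul_inv_cancel₀ hr0, map_one]
  have hu : IsUnit a := IsUnit.of_mul_eq_one _ hab
  refine ⟨hu.unit, ?_⟩
  rw [IsUnit.unit_spec, ha, hr]
  field_simp

end Weil

section Pull

variable {X Y : Scheme.{u}} [IsIntegral X] [IsIntegral Y] [IsLocallyNoetherian X]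
  [IsLocallyNoetherian Y] (φ : X ⟶ Y) [Flat φ] [FormallyUnramified φ] [LocallyOfFiniteType φ]

/-- the Weil divisor of a pull-back along a flat unramified dominant morphism -/
theorem LocFam.weil_pullback [IsDominant φ] (D : LocFam Y) (P' : PrimeDiv X) :
    (D.pullback φ).weil P' = D.weil (imgPt φ P') := by
  unfold LocFam.weil
  rw [LocFam.pullback_t, toFF_stalkMap_ffMap, ordAt_ffMap]
  rfl

end Pull

section Hquad

variable {A : Scheme.{u}} [IsIntegral A] [IsLocallyNoetherian A] (φ : A ⟶ A) [Flat φ]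
  [FormallyUnramified φ] [LocallyOfFiniteType φ]

/-- **the hypothesis `hquad` of the growth theorem** from the Cartier statement
`div u = φ^* D - m D` -/
theorem hquad_of_isDivOf [IsDominant φ] {D : LocFam A} (hD0 : ∀ x, D.t x ≠ 0) {u : A.functionField}
    (hu : u ≠ 0) (m : ℕ) (h : IsDivOf u (D.pullback φ) (D ^ m)) (Dw : PrimeDiv A → ℕ)
    (hDw : ∀ Z, (Dw Z : ℤ) = D.weil Z) (P' : PrimeDiv A) :
    (((1 : ℕ) * Dw (imgPt φ P') : ℕ) : ℤ) = (m : ℤ) * (Dw P' : ℤ) + ordAt P' u := by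
  have h1 := h.ordAt_eq hu (fun x => pow_ne_zero m (hD0 x)) P'
  rw [LocFam.weil_pullback, LocFam.weil_pow P' (hD0 P'.1)] at h1
  rw [one_mul, hDw, hDw, h1]
  ring

end Hquad

end Fermat.Agent.S26lib.Quad
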