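/-
S26lib / Quad / Reduced  (helper1)  --  Project K (S26)

**(G1) WEIL ⟹ CARTIER for a reduced effective divisor on a locally factorial scheme.**

`X` integral noetherian with factorial local rings, `S` a finite set of prime divisors.
* `exists_unit_of_ordAt_eq_zero`, `associated_of_ordAt_eq` (local Hartogs, `X` normal) : elements of
  `O_{X,x}` with the same orders along all prime divisors through `x` are associated;
* **`exists_locFam_of_finite`** : there is a COHERENT family of local equations `D` (an effective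
  Cartier divisor) with non-zero equations such that for every point `x` and every prime divisor `Z`
  through `x` : `ordAt Z (D.t x) = 1` if `Z ∈ S`, `= 0` otherwise;
* consequences: `weil D Z = 1` on `S`, `= 0` off `S`; `x ∈ supp D ↔ ∃ Z ∈ S, Z ⤳ x`.
-/
import Mathlib
import Fermat.Agent.S26lib.Quad.LocalEq
import Fermat.Agent.S26lib.Quad.WeilCartier

set_option autoImplicit false
set_option linter.unusedSectionVars false
set_option linter.style.haveILetI false
set_option linter.overlappingInstances false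

noncomputable section

namespace Fermat.Agent.S26lib.Quad

open AlgebraicGeometry CategoryTheory TopologicalSpace IsLocalRing Fermat.Agent.S26lib.Weil
  Fermat.Agent.S26lib.FinMap

universe u

section Hartogs

variable {X : Scheme.{u}} [IsIntegral X] [IsLocallyNoetherian X]

/-- a rational function of order `0` along all prime divisors through `x` is a unit of `O_{X,x}` -/
theorem exists_unit_of_ordAt_eq_zero (hnorm : ∀ x : X, IsIntegrallyClosed (X.presheaf.stalk x))
    (x : X) {r : X.functionField} (hr0 : r ≠ 0)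
    (hord : ∀ Z : PrimeDiv X, Z.1 ⤳ x → ordAt Z r = 0) :
    ∃ ε : (X.presheaf.stalk x)ˣ, toFF X x ε = r := by
  have hmem : ∀ y : X.functionField, y ≠ 0 → (∀ Z : PrimeDiv X, Z.1 ⤳ x → ordAt Z y = 0) →
      y ∈ (toFF X x).range := by
    intro y hy hy0
    refine P5a.mem_range_stalk_of_forall_coheight_one hnorm x y fun z hz hco => ?_
    have hdvr : IsDiscreteValuationRing (X.presheaf.stalk z) :=
      P5a.isDiscreteValuationRing_of_coheight_eq_one z (hnorm z) hco
    have h0 := hy0 ⟨z, hdvr⟩ hz
    obtain ⟨a, ha⟩ := (ordAt_nonneg_iff ⟨z, hdvr⟩ hy).mp h0.ge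
    exact ⟨a, ha⟩
  have hinv : ∀ Z : PrimeDiv X, Z.1 ⤳ x → ordAt Z r⁻¹ = 0 := by
    intro Z hZ
    have e := ordAt_mul Z hr0 (inv_ne_zero hr0)
    rw [mul_inv_cancel₀ hr0, ordAt_one, hord Z hZ] at e
    omega
  obtain ⟨a, ha⟩ := hmem r hr0 hord
  obtain ⟨b, hb⟩ := hmem r⁻¹ (inv_ne_zero hr0) hinv
  have hab : a * b = 1 := by
    apply toFF_injective X x
    rw [map_mul, ha, hb, mul_inv_cancel₀ hr0, map_one]
  exact ⟨(IsUnit.of_mul_eq_one _ hab).unit, ha⟩

/-- elements of `O_{X,x}` with the same orders along all prime divisors through `x` are associated -/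
theorem associated_of_ordAt_eq (hnorm : ∀ x : X, IsIntegrallyClosed (X.presheaf.stalk x))
    (x : X) {a b : X.presheaf.stalk x} (ha : a ≠ 0) (hb : b ≠ 0)
    (h : ∀ Z : PrimeDiv X, Z.1 ⤳ x → ordAt Z (toFF X x a) = ordAt Z (toFF X x b)) :
    Associated a b := by
  have ha' := toFF_ne_zero X ha
  have hb' := toFF_ne_zero X hb
  have hr0 : toFF X x b * (toFF X x a)⁻¹ ≠ 0 := mul_ne_zero hb' (inv_ne_zero ha')
  obtain ⟨ε, hε⟩ := exists_unit_of_ordAt_eq_zero hnorm x hr0 (fun Z hZ => by
    have e := ordAt_mul Z hr0 ha'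
    rw [mul_assoc, inv_mul_cancel₀ ha', mul_one, h Z hZ] at e
    omega)
  refine ⟨ε, ?_⟩
  apply toFF_injective X x
  rw [map_mul, hε, mul_comm, mul_assoc, inv_mul_cancel₀ ha', mul_one]

/-- the order of a finite product -/
theorem ordAt_prod (Z : PrimeDiv X) {ι : Type*} (s : Finset ι) (f : ι → X.functionField)
    (hf : ∀ i ∈ s, f i ≠ 0) : ordAt Z (∏ i ∈ s, f i) = ∑ i ∈ s, ordAt Z (f i) := by
  classical
  induction s using Finset.induction_on with
  | empty => simp [ordAt_one]
  | insert a s ha ih =>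
    rw [Finset.prod_insert ha, Finset.sum_insert ha,
      ordAt_mul Z (hf a (Finset.mem_insert_self a s))
        (Finset.prod_ne_zero_iff.mpr fun i hi => hf i (Finset.mem_insert_of_mem hi)),
      ih fun i hi => hf i (Finset.mem_insert_of_mem hi)]

end Hartogs

section Construction

variable {X : Scheme.{u}} [IsIntegral X] [IsNoetherian X]
  (hUFD : ∀ x : X, UniqueFactorizationMonoid (X.presheaf.stalk x))

include hUFD in
theorem isIntegrallyClosed_of_ufd (x : X) : IsIntegrallyClosed (X.presheaf.stalk x) :=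
  haveI := hUFD x
  inferInstance

open Classical in
/-- a chosen local equation at `x` of the prime divisor `Z` (`1` if `Z` does not pass through `x`) -/
def piOf (x : X) (Z : PrimeDiv X) : X.presheaf.stalk x :=
  if h : Z.1 ⤳ x then
    haveI := hUFD x
    Classical.choose (exists_localEq Z h)
  else 1

theorem piOf_ne_zero (x : X) (Z : PrimeDiv X) : piOf hUFD x Z ≠ 0 := by
  unfold piOf
  split_ifs with h
  · haveI := hUFD x
    exact (Classical.choose_spec (exists_localEq Z h)).1
  · exact one_ne_zero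

theorem ordAt_piOf_self (x : X) (Z : PrimeDiv X) (h : Z.1 ⤳ x) :
    ordAt Z (toFF X x (piOf hUFD x Z)) = 1 := by
  unfold piOf
  rw [dif_pos h]
  haveI := hUFD x
  exact (Classical.choose_spec (exists_localEq Z h)).2.1

theorem ordAt_piOf_of_ne (x : X) (Z Z' : PrimeDiv X) (h' : Z'.1 ⤳ x) (hne : Z' ≠ Z) :
    ordAt Z' (toFF X x (piOf hUFD x Z)) = 0 := by
  unfold piOf
  split_ifs with h
  · haveI := hUFD x
    exact (Classical.choose_spec (exists_localEq Z h)).2.2 Z' h' hne
  · rw [map_one, ordAt_one]

variable (S : Finset (PrimeDiv X))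

/-- the family of local equations of the reduced divisor `∑_{Z ∈ S} Z` -/
def reducedFam : LocFam X := ⟨fun x => ∏ Z ∈ S, piOf hUFD x Z⟩

theorem reducedFam_t (x : X) : (reducedFam hUFD S).t x = ∏ Z ∈ S, piOf hUFD x Z := rfl

theorem reducedFam_ne_zero (x : X) : (reducedFam hUFD S).t x ≠ 0 := by
  rw [reducedFam_t]
  exact Finset.prod_ne_zero_iff.mpr fun Z _ => piOf_ne_zero hUFD x Z

open Classical in
/-- the orders of the local equations of the reduced divisor -/
theorem ordAt_reducedFam (x : X) (Z' : PrimeDiv X) (h' : Z'.1 ⤳ x) :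
    ordAt Z' (toFF X x ((reducedFam hUFD S).t x)) = if Z' ∈ S then 1 else 0 := by
  rw [reducedFam_t, map_prod, ordAt_prod Z' S _ fun Z _ => toFF_ne_zero X (piOf_ne_zero hUFD x Z)]
  have hterm : ∀ Z ∈ S, ordAt Z' (toFF X x (piOf hUFD x Z)) = if Z = Z' then 1 else 0 := by
    intro Z _
    split_ifs with hZ
    · subst hZ
      exact ordAt_piOf_self hUFD x Z h'
    · exact ordAt_piOf_of_ne hUFD x Z Z' h' (fun e => hZ e.symm)
  rw [Finset.sum_congr rfl hterm, Finset.sum_ite_eq']

open Classical in
/-- **coherence of the reduced family** -/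
theorem reducedFam_isCoherent : (reducedFam hUFD S).IsCoherent := by
  intro x
  have hnorm := isIntegrallyClosed_of_ufd hUFD
  obtain ⟨U, hxU, s, hs⟩ := X.presheaf.exists_germ_eq (x := x) ((reducedFam hUFD S).t x)
  haveI : Nonempty U := ⟨⟨x, hxU⟩⟩
  set G : X.functionField := X.germToFunctionField U s with hG
  have hGx : toFF X x ((reducedFam hUFD S).t x) = G := by
    rw [← hs]
    exact X.algebraMap_germ_eq_germToFunctionField hxU s
  have hG0 : G ≠ 0 := by
    rw [← hGx]
    exact toFF_ne_zero X (reducedFam_ne_zero hUFD S x)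
  -- the bad prime divisors
  let B : Set (PrimeDiv X) := {Z | ordAt Z G ≠ if Z ∈ S then 1 else 0}
  have hBfin : B.Finite := by
    refine ((finite_ordAt_ne_zero G hG0).union S.finite_toSet).subset ?_
    intro Z hZ
    by_cases hZS : Z ∈ S
    · exact Or.inr hZS
    · refine Or.inl ?_
      have : ordAt Z G ≠ if Z ∈ S then 1 else 0 := hZ
      rw [if_neg hZS] at this
      exact this
  have hBx : ∀ Z ∈ B, ¬ Z.1 ⤳ x := by
    intro Z hZ hsp
    apply hZ
    rw [← hGx]
    exact ordAt_reducedFam hUFD S x Z hsp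
  let C : Set X := ⋃ Z ∈ B, closure {Z.1}
  have hCclosed : IsClosed C := hBfin.isClosed_biUnion fun Z _ => isClosed_closure
  have hxC : x ∉ C := by
    simp only [C, Set.mem_iUnion, not_exists]
    intro Z hZ hx
    exact hBx Z hZ (specializes_iff_mem_closure.mpr hx)
  let V : X.Opens := ⟨Cᶜ, hCclosed.isOpen_compl⟩
  refine ⟨U ⊓ V, ⟨hxU, hxC⟩, X.presheaf.map (homOfLE inf_le_left).op s, fun y hy => ?_⟩
  have e1 : X.presheaf.germ (U ⊓ V) y hy (X.presheaf.map (homOfLE inf_le_left).op s) =
      X.presheaf.germ U y hy.1 s := X.presheaf.germ_res_apply (homOfLE inf_le_left) y hy s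
  rw [e1]
  have hgy : toFF X y (X.presheaf.germ U y hy.1 s) = G :=
    X.algebraMap_germ_eq_germToFunctionField hy.1 s
  have hg0 : X.presheaf.germ U y hy.1 s ≠ 0 := by
    intro h0
    rw [h0, map_zero] at hgy
    exact hG0 hgy.symm
  refine associated_of_ordAt_eq hnorm y hg0 (reducedFam_ne_zero hUFD S y) fun Z hZ => ?_
  rw [hgy, ordAt_reducedFam hUFD S y Z hZ]
  -- `Z ∉ B` since `Z ∈ V`
  have hZV : Z.1 ∈ V := hZ.mem_open V.isOpen hy.2
  by_contra hne
  have hZB : Z ∈ B := hne
  apply hZV
  exact Set.mem_biUnion hZB (subset_closure rfl)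

include hUFD in
open Classical in
/-- **(G1)** : a finite reduced sum of prime divisors on a locally factorial integral noetherian
scheme is an effective Cartier divisor -/
theorem exists_locFam_of_finite :
    ∃ D : LocFam X, D.IsCoherent ∧ (∀ x, D.t x ≠ 0) ∧
      ∀ (x : X) (Z : PrimeDiv X), Z.1 ⤳ x →
        ordAt Z (toFF X x (D.t x)) = if Z ∈ S then 1 else 0 :=
  ⟨reducedFam hUFD S, reducedFam_isCoherent hUFD S, reducedFam_ne_zero hUFD S,
    ordAt_reducedFam hUFD S⟩

open Classical in
theorem weil_reducedFam (Z : PrimeDiv X) :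
    (reducedFam hUFD S).weil Z = if Z ∈ S then 1 else 0 :=
  ordAt_reducedFam hUFD S Z.1 Z specializes_rfl

/-- the support of the reduced family is the union of the closures of the points of `S` -/
theorem mem_supp_reducedFam_iff (x : X) :
    x ∈ (reducedFam hUFD S).supp ↔ ∃ Z ∈ S, Z.1 ⤳ x := by
  classical
  have hnorm := isIntegrallyClosed_of_ufd hUFD
  constructor
  · intro hx
    by_contra hno
    push Not at hno
    apply hx
    have hassoc : Associated ((reducedFam hUFD S).t x) 1 := by
      refine associated_of_ordAt_eq hnorm x (reducedFam_ne_zero hUFD S x) one_ne_zero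
        fun Z hZ => ?_
      rw [ordAt_reducedFam hUFD S x Z hZ, map_one, ordAt_one, if_neg fun hZS => hno Z hZS hZ]
    exact associated_one_iff_isUnit.mp hassoc
  · rintro ⟨Z, hZS, hZ⟩ hu
    have hu' : IsUnit ((reducedFam hUFD S).t x) := hu
    obtain ⟨ε, hε⟩ := hu'
    have h1 := ordAt_reducedFam hUFD S x Z hZ
    rw [if_pos hZS, ← hε] at h1
    -- a unit of `O_x` has order `0` along `Z`
    have h2 : ordAt Z (toFF X x (ε : X.presheaf.stalk x)) = 0 := by
      rw [← toFF_spec X hZ]
      exact ordAt_toFF_unit Z (Units.map (X.presheaf.stalkSpecializes hZ).hom.toMonoidHom ε)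
    omega

end Construction

end Fermat.Agent.S26lib.Quad
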