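/-
S26lib / Quad / RatWeil  (helper1)  --  Project K (S26), cube kernel, step (M)

**Orders of rational families along prime divisors; Hartogs for `RatFam`.**

`X` integral, locally noetherian.
* `ordZ P f : ℤ` for `f : K(X)ˣ` : the order along the prime divisor `P` (`ordZ_mul/_inv/_div/_pow/
  _zpow/_prod`); it vanishes on `unitsAt x` and is `≥ 0` on `regAt x` for `P ⤳ x`;
* `RatFam.weil τ P := ordZ P (τ P)`; for coherent `τ`, `ordZ P (τ x) = τ.weil P` for `P ⤳ x`;
* **Hartogs** (`X` normal): `mem_regAt_of_ordZ_nonneg`, `mem_unitsAt_of_ordZ_eq_zero`;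
  `isPrincipal_iff_weil` : a coherent family is principal iff its Weil divisor is `- div s`;
* `IsCoherent.finite_weil_ne_zero` (`X` noetherian): the Weil divisor has finite support;
* `isOpen_unitsAt` : the unit locus of a rational function is open;
* `eq_or_eq_of_specializes_dvr` : a DVR point has only two generisations.
-/
import Mathlib
import Fermat.Agent.S26lib.Quad.RatFam
import Fermat.Agent.S26lib.Quad.Reduced
import Fermat.Agent.S26lib.Prod.Gen

set_option autoImplicit false
set_option linter.unusedSectionVars false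
set_option linter.style.haveILetI false
set_option linter.overlappingInstances false

noncomputable section

namespace Fermat.Agent.S26lib.Quad

open AlgebraicGeometry CategoryTheory TopologicalSpace IsLocalRing Fermat.Agent.S26lib.Weil
  Fermat.Agent.S26lib.FinMap

universe u

section Ord

variable {X : Scheme.{u}} [IsIntegral X] [IsLocallyNoetherian X]

/-- the order of a non-zero rational function along a prime divisor -/
def ordZ (P : PrimeDiv X) (f : X.functionFieldˣ) : ℤ := ordAt P (f : X.functionField)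

theorem ordZ_def (P : PrimeDiv X) (f : X.functionFieldˣ) :
    ordZ P f = ordAt P (f : X.functionField) := rfl

@[simp] theorem ordZ_one (P : PrimeDiv X) : ordZ P 1 = 0 := by
  rw [ordZ, Units.val_one, FinMap.ordAt_one]

@[simp] theorem ordZ_mul (P : PrimeDiv X) (f g : X.functionFieldˣ) :
    ordZ P (f * g) = ordZ P f + ordZ P g := by
  rw [ordZ, Units.val_mul, ordAt_mul P f.ne_zero g.ne_zero]
  rfl

@[simp] theorem ordZ_inv (P : PrimeDiv X) (f : X.functionFieldˣ) :
    ordZ P f⁻¹ = - ordZ P f := by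
  have h := ordZ_mul P f f⁻¹
  rw [mul_inv_cancel, ordZ_one] at h
  omega

@[simp] theorem ordZ_div (P : PrimeDiv X) (f g : X.functionFieldˣ) :
    ordZ P (f / g) = ordZ P f - ordZ P g := by
  rw [div_eq_mul_inv, ordZ_mul, ordZ_inv]
  ring

@[simp] theorem ordZ_pow (P : PrimeDiv X) (f : X.functionFieldˣ) (n : ℕ) :
    ordZ P (f ^ n) = n * ordZ P f := by
  induction n with
  | zero => simp
  | succ n ih => rw [pow_succ, ordZ_mul, ih]; push_cast; ring

@[simp] theorem ordZ_zpow (P : PrimeDiv X) (f : X.functionFieldˣ) (n : ℤ) :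
    ordZ P (f ^ n) = n * ordZ P f := by
  cases n with
  | ofNat n => rw [Int.ofNat_eq_natCast, zpow_natCast, ordZ_pow]
  | negSucc n => rw [zpow_negSucc, ordZ_inv, ordZ_pow, Int.negSucc_eq]; push_cast; ring

theorem ordZ_prod (P : PrimeDiv X) {ι : Type*} (s : Finset ι) (f : ι → X.functionFieldˣ) :
    ordZ P (∏ i ∈ s, f i) = ∑ i ∈ s, ordZ P (f i) := by
  classical
  induction s using Finset.induction_on with
  | empty => simp
  | insert a s ha ih => rw [Finset.prod_insert ha, Finset.sum_insert ha, ordZ_mul, ih]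

/-- units of the local ring at a specialisation have order `0` -/
theorem ordZ_eq_zero_of_mem_unitsAt {P : PrimeDiv X} {x : X} (h : P.1 ⤳ x)
    {f : X.functionFieldˣ} (hf : f ∈ unitsAt X x) : ordZ P f = 0 := by
  obtain ⟨a, ha⟩ := mem_unitsAt_iff.1 (unitsAt_mono h hf)
  rw [ordZ, ← ha]
  exact ordAt_toFF_unit P a

/-- functions regular at a specialisation have non-negative order -/
theorem ordZ_nonneg_of_mem_regAt {P : PrimeDiv X} {x : X} (h : P.1 ⤳ x)
    {f : X.functionFieldˣ} (hf : (f : X.functionField) ∈ regAt X x) : 0 ≤ ordZ P f := by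
  obtain ⟨a, ha⟩ := regAt_mono h hf
  rw [ordZ, ← ha]
  exact ordAt_toFF_nonneg P a

/-- the Weil divisor of a rational family -/
def RatFam.weil (τ : RatFam X) (P : PrimeDiv X) : ℤ := ordZ P (τ P.1)

theorem RatFam.IsCoherent.ordZ_spec {τ : RatFam X} (hτ : τ.IsCoherent) {P : PrimeDiv X} {x : X}
    (h : P.1 ⤳ x) : ordZ P (τ x) = τ.weil P := by
  have h1 := ordZ_eq_zero_of_mem_unitsAt (P := P) (specializes_rfl) (hτ.spec h)
  rw [ordZ_div] at h1
  rw [RatFam.weil]
  omega

@[simp] theorem RatFam.weil_mul (τ σ : RatFam X) (P : PrimeDiv X) :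
    (τ * σ).weil P = τ.weil P + σ.weil P := by
  simp [RatFam.weil]

@[simp] theorem RatFam.weil_inv (τ : RatFam X) (P : PrimeDiv X) :
    (τ⁻¹).weil P = - τ.weil P := by
  simp [RatFam.weil]

@[simp] theorem RatFam.weil_div (τ σ : RatFam X) (P : PrimeDiv X) :
    (τ / σ).weil P = τ.weil P - σ.weil P := by
  simp [RatFam.weil]

@[simp] theorem RatFam.weil_one (P : PrimeDiv X) : (1 : RatFam X).weil P = 0 := by
  simp [RatFam.weil]

@[simp] theorem RatFam.weil_const (s : X.functionFieldˣ) (P : PrimeDiv X) :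
    (RatFam.const s).weil P = ordZ P s := rfl

@[simp] theorem RatFam.weil_pow (τ : RatFam X) (n : ℕ) (P : PrimeDiv X) :
    (τ ^ n).weil P = n * τ.weil P := by
  simp [RatFam.weil]

/-- **Hartogs**: a rational function with non-negative orders along all prime divisors through `x`
is regular at `x` -/
theorem mem_regAt_of_ordZ_nonneg (hnorm : ∀ x : X, IsIntegrallyClosed (X.presheaf.stalk x))
    (x : X) (f : X.functionFieldˣ) (h : ∀ P : PrimeDiv X, P.1 ⤳ x → 0 ≤ ordZ P f) :
    (f : X.functionField) ∈ regAt X x := by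
  refine P5a.mem_range_stalk_of_forall_coheight_one hnorm x f fun z hz hco => ?_
  have hdvr : IsDiscreteValuationRing (X.presheaf.stalk z) :=
    P5a.isDiscreteValuationRing_of_coheight_eq_one z (hnorm z) hco
  obtain ⟨a, ha⟩ := (ordAt_nonneg_iff ⟨z, hdvr⟩ f.ne_zero).mp (h ⟨z, hdvr⟩ hz)
  exact ⟨a, ha⟩

/-- **Hartogs for units** -/
theorem mem_unitsAt_of_ordZ_eq_zero (hnorm : ∀ x : X, IsIntegrallyClosed (X.presheaf.stalk x))
    (x : X) (f : X.functionFieldˣ) (h : ∀ P : PrimeDiv X, P.1 ⤳ x → ordZ P f = 0) :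
    f ∈ unitsAt X x := by
  rw [mem_unitsAt_iff_regAt]
  refine ⟨mem_regAt_of_ordZ_nonneg hnorm x f fun P hP => (h P hP).ge,
    mem_regAt_of_ordZ_nonneg hnorm x f⁻¹ fun P hP => ?_⟩
  rw [ordZ_inv, h P hP]
  simp

/-- **a coherent family is principal iff its Weil divisor is principal** -/
theorem RatFam.isPrincipal_of_weil (hnorm : ∀ x : X, IsIntegrallyClosed (X.presheaf.stalk x))
    {τ : RatFam X} (hτ : τ.IsCoherent) (s : X.functionFieldˣ)
    (h : ∀ P : PrimeDiv X, ordZ P s + τ.weil P = 0) : τ.IsPrincipal := by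
  refine ⟨s, fun x => mem_unitsAt_of_ordZ_eq_zero hnorm x _ fun P hP => ?_⟩
  rw [ordZ_mul, hτ.ordZ_spec hP]
  exact h P

theorem RatFam.IsPrincipal.exists_weil {τ : RatFam X} (hτ : τ.IsPrincipal) :
    ∃ s : X.functionFieldˣ, ∀ P : PrimeDiv X, ordZ P s + τ.weil P = 0 := by
  obtain ⟨s, hs⟩ := hτ
  refine ⟨s, fun P => ?_⟩
  have := ordZ_eq_zero_of_mem_unitsAt (P := P) specializes_rfl (hs P.1)
  rwa [ordZ_mul] at this

end Ord

section Fin

variable {X : Scheme.{u}} [IsIntegral X] [IsNoetherian X]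

/-- the Weil divisor of a coherent family has finite support -/
theorem RatFam.IsCoherent.finite_weil_ne_zero {τ : RatFam X} (hτ : τ.IsCoherent) :
    {P : PrimeDiv X | τ.weil P ≠ 0}.Finite := by
  classical
  choose U hxU s hs using hτ
  obtain ⟨t, ht⟩ := CompactSpace.elim_nhds_subcover (fun x => (U x : Set X))
    (fun x => (U x).isOpen.mem_nhds (hxU x))
  have hfin : (⋃ x ∈ t, {P : PrimeDiv X | ordAt P ((s x : X.functionFieldˣ) : X.functionField) ≠ 0}).Finite :=
    Set.Finite.biUnion t.finite_toSet fun x _ => finite_ordAt_ne_zero _ (s x).ne_zero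
  refine hfin.subset fun P hP => ?_
  have hmem : P.1 ∈ ⋃ x ∈ t, (U x : Set X) := by rw [ht]; trivial
  simp only [Set.mem_iUnion] at hmem ⊢
  obtain ⟨x, hxt, hPx⟩ := hmem
  refine ⟨x, hxt, ?_⟩
  have h0 := ordZ_eq_zero_of_mem_unitsAt (P := P) specializes_rfl (hs x P.1 hPx)
  rw [ordZ_div] at h0
  have hP' : τ.weil P ≠ 0 := hP
  rw [RatFam.weil] at hP'
  show ordZ P (s x) ≠ 0
  omega

end Fin

section Top

variable {X : Scheme.{u}} [IsIntegral X]

/-- the unit locus of a rational function is open -/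
theorem isOpen_unitsAt (f : X.functionFieldˣ) : IsOpen {x : X | f ∈ unitsAt X x} := by
  rw [isOpen_iff_forall_mem_open]
  intro x hx
  obtain ⟨a, ha⟩ := mem_unitsAt_iff.1 hx
  obtain ⟨U, hxU, s, hs⟩ := X.presheaf.exists_germ_eq (x := x) (a : X.presheaf.stalk x)
  obtain ⟨U', hxU', s', hs'⟩ := X.presheaf.exists_germ_eq (x := x)
    ((a⁻¹ : (X.presheaf.stalk x)ˣ) : X.presheaf.stalk x)
  have hV : x ∈ U ⊓ U' := ⟨hxU, hxU'⟩
  set σ := X.presheaf.map (homOfLE (inf_le_left : U ⊓ U' ≤ U)).op s with hσ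
  set σ' := X.presheaf.map (homOfLE (inf_le_right : U ⊓ U' ≤ U')).op s' with hσ'
  have hσx : X.presheaf.germ (U ⊓ U') x hV σ = a := by
    rw [hσ, TopCat.Presheaf.germ_res_apply, hs]
  have hσ'x : X.presheaf.germ (U ⊓ U') x hV σ' = ((a⁻¹ : (X.presheaf.stalk x)ˣ) : _) := by
    rw [hσ', TopCat.Presheaf.germ_res_apply, hs']
  have hunit : σ * σ' = 1 := by
    apply germ_injective_of_isIntegral X x hV
    rw [map_mul, map_one, hσx, hσ'x, Units.mul_inv]
  refine ⟨(U ⊓ U' : X.Opens), fun y hy => ?_, (U ⊓ U').isOpen, hV⟩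
  have hu : IsUnit (X.presheaf.germ (U ⊓ U') y hy σ) :=
    (IsUnit.of_mul_eq_one _ hunit).map _
  refine mem_unitsAt_of_isUnit hu ?_
  have hgen : genericPoint X ∈ U ⊓ U' := (generic_specializes X x).mem_open (U ⊓ U').isOpen hV
  have e1 : toFF X y (X.presheaf.germ (U ⊓ U') y hy σ) =
      X.presheaf.germ (U ⊓ U') (genericPoint X) hgen σ := by
    rw [toFF_eq]
    exact X.presheaf.germ_stalkSpecializes_apply _ _ _
  have e2 : toFF X x (X.presheaf.germ (U ⊓ U') x hV σ) =
      X.presheaf.germ (U ⊓ U') (genericPoint X) hgen σ := by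
    rw [toFF_eq]
    exact X.presheaf.germ_stalkSpecializes_apply _ _ _
  rw [e1, ← e2, hσx, ha]

/-- the support of a coherent family is closed: the complement is open -/
theorem RatFam.IsCoherent.isOpen_unit_locus {τ : RatFam X} (hτ : τ.IsCoherent) :
    IsOpen {x : X | τ x ∈ unitsAt X x} := by
  rw [isOpen_iff_forall_mem_open]
  intro x hx
  obtain ⟨U, hxU, s, hs⟩ := hτ x
  have hsx : s ∈ unitsAt X x := by
    have := (unitsAt X x).div_mem hx (hs x hxU)
    rwa [div_div_cancel] at this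
  refine ⟨(U : Set X) ∩ {y | s ∈ unitsAt X y}, fun y hy => ?_,
    U.isOpen.inter (isOpen_unitsAt s), ⟨hxU, hsx⟩⟩
  have := (unitsAt X y).mul_mem (hs y hy.1) hy.2
  rwa [div_mul_cancel] at this

/-- a point whose local ring is a DVR has only two generisations -/
theorem eq_or_eq_of_specializes_dvr {q y : X}
    (hq : IsDiscreteValuationRing (X.presheaf.stalk q)) (h : y ⤳ q) :
    y = q ∨ y = genericPoint X := by
  obtain ⟨𝔮, rfl⟩ := Prod.exists_genPt_eq h
  by_cases h0 : 𝔮.asIdeal = ⊥
  · right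
    obtain ⟨𝔮₀, h𝔮₀⟩ := Prod.exists_genPt_eq (generic_specializes X q)
    have h1 : Prod.genPt q 𝔮 ⤳ genericPoint X := by
      rw [← h𝔮₀, Prod.genPt_specializes_iff]
      show 𝔮.asIdeal ≤ 𝔮₀.asIdeal
      rw [h0]; exact bot_le
    exact (h1.antisymm (generic_specializes X _)).eq
  · left
    have hmax : 𝔮.asIdeal.IsMaximal := 𝔮.isPrime.isMaximal h0
    have : 𝔮 = IsLocalRing.closedPoint (X.presheaf.stalk q) :=
      PrimeSpectrum.ext (IsLocalRing.eq_maximalIdeal hmax)
    rw [this, Prod.genPt_closedPoint]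

end Top

end Fermat.Agent.S26lib.Quad
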