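/-
S26lib / Quad / CaBridge  (helper1)  --  Project K (S26), cube kernel, step (M)

**Bridge between helper7's `Hub.CDiv` (Cartier divisors, `Hub/CaCl{,Fun}`) and the toolbox
`Quad/RatFam`, `Quad/RatWeil`.**  `CDiv X` is a subtype of `RatFam X = X → K(X)ˣ`:
`stalkUnits = unitsAt`, `D.1` is coherent, `D ∈ principal X ↔ D.1.IsPrincipal`; orders `D.weil P`.
-/
import Mathlib
import Fermat.Agent.S26lib.Quad.RatWeil
import Fermat.Agent.S26lib.Hub.CaClFun

set_option autoImplicit false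
set_option linter.unusedSectionVars false
set_option linter.style.haveILetI false

noncomputable section

namespace Fermat.Agent.S26lib.Quad

open AlgebraicGeometry CategoryTheory TopologicalSpace Fermat.Agent.S26lib.Weil
  Fermat.Agent.S26lib.FinMap Fermat.Agent.S26lib.Hub

universe u

variable {X Y : Scheme.{u}} [IsIntegral X] [IsIntegral Y]

theorem unitsAt_eq_stalkUnits (x : X) : unitsAt X x = stalkUnits X x := rfl

theorem mem_unitsAt_iff_stalkUnits {x : X} {f : X.functionFieldˣ} :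
    f ∈ unitsAt X x ↔ f ∈ stalkUnits X x := Iff.rfl

/-- the underlying family of a Cartier divisor is coherent -/
theorem CDiv_isCoherent (D : CDiv X) : RatFam.IsCoherent (D.1 : RatFam X) := by
  intro x
  obtain ⟨U, hxU, hU⟩ := D.coherent x
  exact ⟨U, hxU, D.t x, fun y hy => hU y hy⟩

/-- a coherent family as a Cartier divisor -/
def RatFam.toCDiv (τ : RatFam X) (hτ : τ.IsCoherent) : CDiv X :=
  ⟨τ, mem_cdivSubgroup_of_exists fun x => by
    obtain ⟨U, hxU, s, hs⟩ := hτ x
    exact ⟨U, s, hxU, hs⟩⟩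

@[simp] theorem RatFam.toCDiv_t (τ : RatFam X) (hτ : τ.IsCoherent) (x : X) :
    (τ.toCDiv hτ).t x = τ x := rfl

theorem mem_principal_iff_isPrincipal (D : CDiv X) :
    D ∈ CDiv.principal X ↔ RatFam.IsPrincipal (D.1 : RatFam X) := by
  rw [CDiv.mem_principal_iff]
  constructor
  · rintro ⟨h, hh⟩
    refine ⟨h⁻¹, fun x => ?_⟩
    have h1 : (D / CDiv.prin h).t x ∈ stalkUnits X x := CDiv.mem_units_iff.1 hh x
    have h2 : (D / CDiv.prin h).t x = h⁻¹ * D.t x := by
      rw [CDiv.div_t, div_eq_inv_mul]; rfl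
    rw [h2] at h1
    exact h1
  · rintro ⟨s, hs⟩
    refine ⟨s⁻¹, CDiv.mem_units_iff.2 fun x => ?_⟩
    have h2 : (D / CDiv.prin s⁻¹).t x = s * D.t x := by
      rw [CDiv.div_t, div_eq_inv_mul]
      show (s⁻¹)⁻¹ * D.t x = _
      rw [inv_inv]
    rw [h2]
    exact hs x

theorem mem_units_iff_unitsAt (D : CDiv X) :
    D ∈ CDiv.units X ↔ ∀ x, D.t x ∈ unitsAt X x := CDiv.mem_units_iff

/-- the normalised pull-backs agree -/
theorem pull_val_eq_npb (ψ : Y ⟶ X) (D : CDiv X) :
    ((CDiv.pull ψ D).1 : RatFam Y) = RatFam.npb ψ (D.1 : RatFam X) := by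
  funext z
  have hc := CDiv_isCoherent D
  have h := hc.spec (map_generic_specializes ψ z)
  rw [RatFam.npb_apply hc]
  show (CDiv.pull ψ D).t z = _
  rw [CDiv.pull_t_eq ψ D z (unitsAt.lift h) (Units.ext (unitsAt.toFF_lift h))]
  rfl

end Fermat.Agent.S26lib.Quad
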