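/-
S26lib / Quad / CubeSetup  (helper1)  --  Project K (S26), cube kernel, step (M)

**The set-up of the theorem of the cube `C × T`, `T = V × W`.**

`K` algebraically closed, `sC : C ⟶ Spec K` (a curve), `sT : T ⟶ Spec K`, `X := pullback sC sT`
(helper6's generic `Prod`), `ρ := pullback.fst`, `π := pullback.snd`.

* `surjective_toSpecField` : the structure morphism of a non-empty `K`-scheme is surjective (so the
  projections of `X` are surjective, hence dominant: instances);
* `GoodMap.pull_eq_of_map_eq`, `GoodMap.ordZ_pull`, `GoodMap.ordZ_eq_zero_of_dominant` : helper6's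
  `GoodMap` calculus in the `ordZ` form;
* `Mfam τ d₀ x = τ x * ρ^* (d₀ (ρ x))` : the family `𝔐 = 𝔏 + ρ^* D₀`;
* `IsLift τ d₀ t G`, `LiftAt τ d₀ t` : the CONCLUSION of (LIFT) at the closed point `t` of `T`
  (helper3's `RelCurve`): `G` generates `H⁰(C × Spec O_{T,t}, O(𝔐))` over `O_{T,t}` and
  `div G + 𝔐` restricts to `D₀` on the closed fibre.
-/
import Mathlib
import Fermat.Agent.S26lib.Quad.CaBridge
import Fermat.Agent.S26lib.Prod.GoodProj

set_option autoImplicit false
set_option linter.unusedSectionVars false
set_option linter.style.haveILetI false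
set_option linter.overlappingInstances false

noncomputable section

namespace Fermat.Agent.S26lib.Quad

open AlgebraicGeometry CategoryTheory CategoryTheory.Limits TopologicalSpace
  Fermat.Agent.S26lib.Weil Fermat.Agent.S26lib.FinMap Fermat.Agent.S26lib.Hub
  Fermat.Agent.S26lib.Prod

universe u

/-! ### generalities -/

section Gen

variable {K : Type u} [Field K] {T : Scheme.{u}}

/-- the structure morphism of a non-empty scheme over a field is surjective -/
theorem surjective_toSpecField (sT : T ⟶ Spec (CommRingCat.of K)) [Nonempty T] :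
    Surjective sT := by
  constructor
  intro x
  obtain ⟨t⟩ := (inferInstance : Nonempty T)
  refine ⟨t, ?_⟩
  have : Subsingleton (PrimeSpectrum K) := inferInstance
  exact Subsingleton.elim (α := PrimeSpectrum K) _ _

end Gen

section Good

variable {X Y : Scheme.{u}} [IsIntegral X] [IsIntegral Y] [IsLocallyNoetherian X]
  [IsLocallyNoetherian Y] {σ : X ⟶ Y} (h : GoodMap σ)

include h

/-- the local ring at the generic point is not a DVR -/
theorem primeDiv_ne_generic (P : PrimeDiv Y) : P.1 ≠ genericPoint Y := by
  intro hP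
  have hd : IsDiscreteValuationRing (Y.presheaf.stalk P.1) := P.2
  rw [hP] at hd
  exact IsDiscreteValuationRing.not_isField _ (Field.toIsField (Y.functionField))

/-- a prime divisor of `X` lying over a prime divisor of `Y` is its pull-back -/
theorem GoodMap.pull_eq_of_map_eq (W : PrimeDiv X) (P : PrimeDiv Y) (hW : σ W.1 = P.1) :
    h.pull P = W := by
  haveI := h.isDominant
  apply Subtype.ext
  have h1 : (h.pull P).1 ⤳ W.1 := by
    rw [h.pull_specializes_iff, hW]
  rcases eq_or_eq_of_specializes_dvr W.2 h1 with h2 | h2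
  · exact h2
  · exfalso
    have h3 := h.map_pull P
    rw [h2, map_genericPoint σ] at h3
    exact primeDiv_ne_generic h P h3.symm

theorem GoodMap.ordZ_pull (P : PrimeDiv Y) (f : Y.functionFieldˣ) :
    haveI := h.isDominant
    ordZ (h.pull P) (Units.map (FinMap.ffMap σ : Y.functionField →* X.functionField) f) = ordZ P f :=
  h.ordAt_pull P f

theorem GoodMap.ordZ_eq_zero_of_dominant (W : PrimeDiv X) (hW : σ W.1 = genericPoint Y)
    (f : Y.functionFieldˣ) :
    haveI := h.isDominant
    ordZ W (Units.map (FinMap.ffMap σ : Y.functionField →* X.functionField) f) = 0 :=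
  h.ordAt_eq_zero_of_dominant W hW f.ne_zero

end Good

/-! ### the product and the lifting datum -/

section Setup

variable {K : Type u} [Field K] {C T : Scheme.{u}}
  (sC : C ⟶ Spec (CommRingCat.of K)) (sT : T ⟶ Spec (CommRingCat.of K))
  [IsIntegral C] [IsIntegral T] [IsIntegral (pullback sC sT)]

attribute [local instance] surjective_toSpecField

/-- the family `𝔐 = 𝔏 + ρ^* D₀` on `X = C × T` -/
def Mfam (τ : CDiv (pullback sC sT)) (d₀ : CDiv C) : RatFam (pullback sC sT) :=
  (τ.1 : RatFam (pullback sC sT)) * RatFam.pull (pullback.fst sC sT) (d₀.1 : RatFam C)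

theorem Mfam_apply (τ : CDiv (pullback sC sT)) (d₀ : CDiv C) (x : ↥(pullback sC sT)) :
    Mfam sC sT τ d₀ x = τ.t x *
      Units.map (FinMap.ffMap (pullback.fst sC sT) : C.functionField →* (pullback sC sT).functionField)
        (d₀.t (pullback.fst sC sT x)) := rfl

theorem Mfam_isCoherent (τ : CDiv (pullback sC sT)) (d₀ : CDiv C) :
    (Mfam sC sT τ d₀).IsCoherent :=
  (CDiv_isCoherent τ).mul ((CDiv_isCoherent d₀).pull _)

/-- **the conclusion of (LIFT)** at the closed point `t` of `T`, for the function `G` -/
structure IsLift (τ : CDiv (pullback sC sT)) (d₀ : CDiv C) (t : KPt sT)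
    (G : (pullback sC sT).functionFieldˣ) : Prop where
  /-- `G` is a section of `O(𝔐)` over `C × Spec O_{T,t}` -/
  reg : ∀ x : ↥(pullback sC sT), pullback.snd sC sT x ⤳ t.pt →
    ((G * Mfam sC sT τ d₀ x : (pullback sC sT).functionFieldˣ) :
      (pullback sC sT).functionField) ∈ regAt (pullback sC sT) x
  /-- `G` generates the sections of `O(𝔐)` over `C × Spec O_{T,t}` -/
  gen : ∀ h : (pullback sC sT).functionFieldˣ,
    (∀ x : ↥(pullback sC sT), pullback.snd sC sT x ⤳ t.pt →
      ((h * Mfam sC sT τ d₀ x : (pullback sC sT).functionFieldˣ) :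
        (pullback sC sT).functionField) ∈ regAt (pullback sC sT) x) →
    ∃ a : T.functionFieldˣ, (a : T.functionField) ∈ regAt T t.pt ∧
      h = Units.map (FinMap.ffMap (pullback.snd sC sT) :
        T.functionField →* (pullback sC sT).functionField) a * G
  /-- `div G + 𝔐` restricts to `D₀` on the closed fibre `C × t` -/
  fib : ∀ p : C, ∃ e : (pullback sC sT).presheaf.stalk (sliceL sC sT t p),
    toFF (pullback sC sT) _ e =
      ((G * Mfam sC sT τ d₀ (sliceL sC sT t p) : (pullback sC sT).functionFieldˣ) :
        (pullback sC sT).functionField) ∧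
    ∃ u : (C.presheaf.stalk p)ˣ,
      toFF C p ((sliceL sC sT t).stalkMap p e) =
        toFF C p (u : C.presheaf.stalk p) * ((d₀.t p : C.functionFieldˣ) : C.functionField)

/-- **(LIFT) holds at `t`** -/
def LiftAt (τ : CDiv (pullback sC sT)) (d₀ : CDiv C) (t : KPt sT) : Prop :=
  ∃ G : (pullback sC sT).functionFieldˣ, IsLift sC sT τ d₀ t G

end Setup

end Fermat.Agent.S26lib.Quad
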