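/-
S26lib / Quad / LiftExtract  (helper1)  --  Project K (S26), cube kernel: (LIFT) → `IsLift`

**Extraction of the interface `IsLift` from the output of the two-chart theorem.**
`X = C × T`, `π = pr₂ : X ⟶ T`, `t` a `K`-point of `T`, `ι = sliceL t : C ⟶ X` the closed fibre.
helper3's `RelCurve` produces, for a Cartier divisor `𝔐` on `X` with `𝔐 = (τ + pr₁^* D₀) · κ`
(`κ` a constant), a rational function `G` with

* `G ∈ Lam π 𝔐 t univ` (a section of `O(𝔐)` over `C × Spec O_{T,t}`),
* every element of `Lam π 𝔐 t univ` is an `O_{T,t}`-multiple of `G`,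
* the reduction `ρ G = resFF ι (G · 𝔐(ι η_C))` is the section `1` of `O(D₀)` of the closed fibre.

`isLift_of_Lam` turns this into `IsLift sC sT τ d₀ t (G * κ)`, the input of `Quad.cube`.
-/
import Mathlib
import Fermat.Agent.S26lib.Quad.CubeSetup
import Fermat.Agent.S26lib.RelCurve.BaseAlg
import Fermat.Agent.S26lib.RelCurve.Fibre

set_option autoImplicit false
set_option linter.unusedSectionVars false
set_option linter.style.haveILetI false
set_option linter.overlappingInstances false

noncomputable section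

namespace Fermat.Agent.S26lib.Quad

open AlgebraicGeometry CategoryTheory CategoryTheory.Limits TopologicalSpace
  Fermat.Agent.S26lib.Weil Fermat.Agent.S26lib.FinMap Fermat.Agent.S26lib.Hub
  Fermat.Agent.S26lib.Prod Fermat.Agent.S26lib.RelCurve

universe u

/-! ### restriction of rational functions to a subscheme -/

section Res

variable {X C : Scheme.{u}} [IsIntegral X] [IsIntegral C] (ι : C ⟶ X)

/-- the local homomorphism at `p`, in terms of the restriction of rational functions -/
theorem toFF_stalkMap_eq_resFF (p : C) (e : X.presheaf.stalk (ι p)) :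
    toFF C p (ι.stalkMap p e) = resFF ι (toFF X (ι p) e) := by
  rw [toFF_stalkMap, ← toFF_spec X (map_generic_specializes ι p) e, resFF_toFF]

/-- the quotient of two local equations along a specialisation is regular at the generic one -/
theorem CDiv_div_mem_regAt (𝔏 : CDiv X) {x x' : X} (h : x' ⤳ x) :
    ((𝔏.t x / 𝔏.t x' : (X.functionField)ˣ) : X.functionField) ∈ regAt X x' := by
  obtain ⟨v, hv⟩ := 𝔏.div_mem_of_specializes h
  exact ⟨(v : X.presheaf.stalk x'), by rw [← hv]; rfl⟩

/-- **the value of a section at a point of the fibre** is its reduction times the local equation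
of the pulled-back divisor -/
theorem resFF_mul_t (𝔏 : CDiv X) (h : X.functionField)
    (hh : h * ((𝔏.t (ι (genericPoint C)) : (X.functionField)ˣ) : X.functionField) ∈
      regAt X (ι (genericPoint C))) (c : C) :
    resFF ι (h * ((𝔏.t (ι c) : (X.functionField)ˣ) : X.functionField)) =
      resFF ι (h * ((𝔏.t (ι (genericPoint C)) : (X.functionField)ˣ) : X.functionField)) *
        (((CDiv.pull ι 𝔏).t c : (C.functionField)ˣ) : C.functionField) := by
  rw [pull_t_val, ← resFF_mul ι hh (CDiv_div_mem_regAt 𝔏 (map_generic_specializes ι c))]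
  congr 1
  rw [Units.val_div_eq_div_val]
  field_simp

end Res

/-! ### generation, in the language of `Submodule.span` -/

section Span

variable {X T : Scheme.{u}} [IsIntegral X] [IsIntegral T] (π : X ⟶ T) [IsDominant π]

/-- if `Lam ≤ O_{T,t} • G` (for helper3's module structure `stalkAlgebra`) then every section is
`a • G`, spelled out with `ffMap` -/
theorem exists_eq_ffMap_mul_of_le_span (𝔏 : CDiv X) (t : T) (S : Set X) (G : X.functionField)
    (hle : Lam π 𝔏 t S ≤ @Submodule.span (T.presheaf.stalk t) X.functionField _ _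
      (stalkAlgebra π t).toModule {G}) :
    ∀ h ∈ Lam π 𝔏 t S, ∃ a : T.presheaf.stalk t, h = FinMap.ffMap π (toFF T t a) * G := by
  letI := stalkAlgebra π t
  intro h hh
  obtain ⟨a, ha⟩ := Submodule.mem_span_singleton.1 (hle hh)
  exact ⟨a, by rw [← ha, Algebra.smul_def]; rfl⟩

end Span

/-! ### the extraction -/

section Extract

variable {K : Type u} [Field K] {C T : Scheme.{u}}
  (sC : C ⟶ Spec (CommRingCat.of K)) (sT : T ⟶ Spec (CommRingCat.of K))
  [IsIntegral C] [IsIntegral T] [IsIntegral (pullback sC sT)]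

attribute [local instance] surjective_toSpecField

/-- **(LIFT) → `IsLift`**, general form: `𝔐` any Cartier divisor with `𝔐 = Mfam τ d₀ · κ`. -/
theorem isLift_of_Lam (τ : CDiv (pullback sC sT)) (d₀ : CDiv C) (t : KPt sT)
    (𝔐 : CDiv (pullback sC sT)) (κ : (pullback sC sT).functionFieldˣ)
    (h𝔐 : ∀ x : ↥(pullback sC sT), 𝔐.t x = Mfam sC sT τ d₀ x * κ)
    (G : (pullback sC sT).functionFieldˣ)
    (hG : ((G : (pullback sC sT).functionFieldˣ) : (pullback sC sT).functionField) ∈
      Lam (pullback.snd sC sT) 𝔐 t.pt Set.univ)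
    (hgen : ∀ h ∈ Lam (pullback.snd sC sT) 𝔐 t.pt Set.univ, ∃ a : T.presheaf.stalk t.pt,
      h = FinMap.ffMap (pullback.snd sC sT) (toFF T t.pt a) *
        ((G : (pullback sC sT).functionFieldˣ) : (pullback sC sT).functionField))
    (hρ : ∀ p : C, ∃ u : (C.presheaf.stalk p)ˣ,
      resFF (sliceL sC sT t) (((G : (pullback sC sT).functionFieldˣ) :
          (pullback sC sT).functionField) *
        ((𝔐.t (sliceL sC sT t (genericPoint C)) : (pullback sC sT).functionFieldˣ) :
          (pullback sC sT).functionField)) *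
        (((CDiv.pull (sliceL sC sT t) 𝔐).t p : (C.functionField)ˣ) : C.functionField) =
      toFF C p (u : C.presheaf.stalk p) * ((d₀.t p : C.functionFieldˣ) : C.functionField)) :
    IsLift sC sT τ d₀ t (G * κ) := by
  have hval : ∀ (g : (pullback sC sT).functionFieldˣ) (x : ↥(pullback sC sT)),
      ((g * κ * Mfam sC sT τ d₀ x : (pullback sC sT).functionFieldˣ) :
        (pullback sC sT).functionField) =
      ((g : (pullback sC sT).functionFieldˣ) : (pullback sC sT).functionField) *
        ((𝔐.t x : (pullback sC sT).functionFieldˣ) : (pullback sC sT).functionField) := by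
    intro g x
    rw [h𝔐 x, ← Units.val_mul]
    congr 1
    rw [mul_assoc, mul_comm κ]
  have hreg : ∀ x : ↥(pullback sC sT), pullback.snd sC sT x ⤳ t.pt →
      ((G * κ * Mfam sC sT τ d₀ x : (pullback sC sT).functionFieldˣ) :
        (pullback sC sT).functionField) ∈ regAt (pullback sC sT) x := by
    intro x hx
    rw [hval G x]
    exact hG x (Set.mem_univ _) hx
  refine ⟨hreg, ?_, ?_⟩
  · intro h hh
    have h1 : ((h * κ⁻¹ : (pullback sC sT).functionFieldˣ) : (pullback sC sT).functionField) ∈
        Lam (pullback.snd sC sT) 𝔐 t.pt Set.univ := by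
      intro x _ hx
      have h2 := hh x hx
      rw [← hval (h * κ⁻¹) x, inv_mul_cancel_right]
      exact h2
    obtain ⟨a, ha⟩ := hgen _ h1
    have ha0 : toFF T t.pt a ≠ 0 := by
      intro h0
      rw [h0, map_zero, zero_mul] at ha
      exact (h * κ⁻¹).ne_zero ha
    refine ⟨Units.mk0 _ ha0, ⟨a, rfl⟩, ?_⟩
    apply Units.ext
    have h3 : ((h : (pullback sC sT).functionFieldˣ) : (pullback sC sT).functionField) =
        ((h * κ⁻¹ : (pullback sC sT).functionFieldˣ) : (pullback sC sT).functionField) *
          ((κ : (pullback sC sT).functionFieldˣ) : (pullback sC sT).functionField) := by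
      rw [← Units.val_mul, inv_mul_cancel_right]
    rw [h3, ha]
    push_cast
    have h4 : (((Units.map (FinMap.ffMap (pullback.snd sC sT) :
        T.functionField →* (pullback sC sT).functionField)) (Units.mk0 (toFF T t.pt a) ha0) :
        (pullback sC sT).functionFieldˣ) : (pullback sC sT).functionField) =
        FinMap.ffMap (pullback.snd sC sT) (toFF T t.pt a) := rfl
    rw [h4]
    ring
  · intro p
    have hsnd : pullback.snd sC sT (sliceL sC sT t p) ⤳ t.pt := by
      rw [snd_sliceL_apply]
    obtain ⟨e, he⟩ := hreg (sliceL sC sT t p) hsnd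
    refine ⟨e, he, ?_⟩
    obtain ⟨u, hu⟩ := hρ p
    refine ⟨u, ?_⟩
    rw [toFF_stalkMap_eq_resFF, he, hval G, ← hu]
    refine resFF_mul_t (sliceL sC sT t) 𝔐 _ ?_ p
    have hsnd' : pullback.snd sC sT (sliceL sC sT t (genericPoint C)) ⤳ t.pt := by
      rw [snd_sliceL_apply]
    exact hG _ (Set.mem_univ _) hsnd'

/-- the Cartier divisor `𝔐 = τ + pr₁^* D₀` of the family -/
def McDiv (τ : CDiv (pullback sC sT)) (d₀ : CDiv C) : CDiv (pullback sC sT) :=
  τ * CDiv.pull (pullback.fst sC sT) d₀

/-- the constant by which `McDiv` and `Mfam` differ -/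
def Mconst (d₀ : CDiv C) : (pullback sC sT).functionFieldˣ :=
  (Units.map (FinMap.ffMap (pullback.fst sC sT) :
    C.functionField →* (pullback sC sT).functionField) (d₀.t (genericPoint C)))⁻¹

theorem McDiv_t (τ : CDiv (pullback sC sT)) (d₀ : CDiv C) (x : ↥(pullback sC sT)) :
    (McDiv sC sT τ d₀).t x = Mfam sC sT τ d₀ x * Mconst sC sT d₀ := by
  have h1 : (CDiv.pull (pullback.fst sC sT) d₀).t x =
      Units.map (FinMap.ffMap (pullback.fst sC sT) :
        C.functionField →* (pullback sC sT).functionField) (d₀.t (pullback.fst sC sT x)) *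
      Mconst sC sT d₀ := by
    apply Units.ext
    rw [CDiv.pull_t_of_dominant, FinMap.map_genericPoint (pullback.fst sC sT)]
    unfold Mconst
    push_cast
    rw [div_eq_mul_inv]
    rfl
  show τ.t x * (CDiv.pull (pullback.fst sC sT) d₀).t x = _
  rw [h1, Mfam_apply, mul_assoc]

/-- the closed fibre of `𝔐` is `τ|_{C × t} + D₀ - div (D₀(η))` -/
theorem pull_sliceL_McDiv_t (τ : CDiv (pullback sC sT)) (d₀ : CDiv C) (t : KPt sT) (p : C) :
    (CDiv.pull (sliceL sC sT t) (McDiv sC sT τ d₀)).t p =
      (CDiv.pull (sliceL sC sT t) τ).t p * (d₀.t p / d₀.t (genericPoint C)) := by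
  unfold McDiv
  rw [map_mul, CDiv.mul_t, CDiv.pull_comp, CDiv.pull_congr (sliceL_fst sC sT t), CDiv.pull_id]
  rfl

/-- **(LIFT) → `IsLift`**, special form: `𝔐 = τ + pr₁^* D₀` as a Cartier divisor, the closed fibre
of `τ` trivial, and the reduction of `G` is `D₀(η)` (the section `1` of `O(D₀)`) up to a global
unit `s`. -/
theorem isLift_of_Lam_McDiv (τ : CDiv (pullback sC sT)) (d₀ : CDiv C) (t : KPt sT)
    (hτ : CDiv.pull (sliceL sC sT t) τ ∈ CDiv.units C)
    (G : (pullback sC sT).functionFieldˣ)
    (hG : ((G : (pullback sC sT).functionFieldˣ) : (pullback sC sT).functionField) ∈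
      Lam (pullback.snd sC sT) (McDiv sC sT τ d₀) t.pt Set.univ)
    (hgen : ∀ h ∈ Lam (pullback.snd sC sT) (McDiv sC sT τ d₀) t.pt Set.univ,
      ∃ a : T.presheaf.stalk t.pt,
      h = FinMap.ffMap (pullback.snd sC sT) (toFF T t.pt a) *
        ((G : (pullback sC sT).functionFieldˣ) : (pullback sC sT).functionField))
    (s : C.functionFieldˣ) (hs : ∀ p : C, s ∈ stalkUnits C p)
    (hρ : resFF (sliceL sC sT t) (((G : (pullback sC sT).functionFieldˣ) :
          (pullback sC sT).functionField) *
        (((McDiv sC sT τ d₀).t (sliceL sC sT t (genericPoint C)) :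
          (pullback sC sT).functionFieldˣ) : (pullback sC sT).functionField)) =
      ((s * d₀.t (genericPoint C) : C.functionFieldˣ) : C.functionField)) :
    IsLift sC sT τ d₀ t (G * Mconst sC sT d₀) := by
  refine isLift_of_Lam sC sT τ d₀ t (McDiv sC sT τ d₀) (Mconst sC sT d₀) (McDiv_t sC sT τ d₀) G hG
    hgen fun p => ?_
  obtain ⟨u, hu⟩ := mul_mem (hs p) (CDiv.mem_units_iff.1 hτ p)
  refine ⟨u, ?_⟩
  rw [hρ, pull_sliceL_McDiv_t]
  have hu' : toFF C p (u : C.presheaf.stalk p) =
      ((s * (CDiv.pull (sliceL sC sT t) τ).t p : C.functionFieldˣ) : C.functionField) := by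
    rw [← hu]; rfl
  rw [hu']
  push_cast
  field_simp

end Extract

end Fermat.Agent.S26lib.Quad
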