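/-
S26lib / Quad / AbelianD  (helper1)  --  Project K (S26)

**The Cartier form `Dc` of helper9's divisor `Weil.D L`** (the reduced divisor `A ∖ U₀`) on the abelian
variety `A`, with all the properties asked by `QuadData3` (`Quad/Induct3.lean`):

* `Dc L hUFD : LocFam A`, `Dc_isCoherent`, `Dc_ne_zero`;
* `weil_Dc : (Dc L hUFD).weil Z = Weil.D L Z`;
* `not_mem_supp_Dc_of_mem_U₀`, `zeroPt_not_mem_supp_Dc`;
* `nMul_zero_not_mem_supp_Dc` (`[0]` maps `A` off the support),
  `map_genericPoint_not_mem_supp_Dc` (any `ψ` fixing the origin maps the generic point off the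
  support; in particular `[k]` for EVERY `k`, also when `char K ∣ k`);
* `Dc_symm : ((Dc L hUFD).pullback (neg L)).Equiv (Dc L hUFD)`.
-/
import Mathlib
import Fermat.Agent.S26lib.Quad.Reduced
import Fermat.Agent.S26lib.Weil.Defs
import Fermat.Agent.S26lib.P5a.FinType

set_option autoImplicit false
set_option linter.unusedSectionVars false
set_option linter.style.haveILetI false
set_option linter.overlappingInstances false

noncomputable section

namespace Fermat.Agent.S26lib.Quad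

open AlgebraicGeometry CategoryTheory TopologicalSpace IsLocalRing Fermat.Agent.S26lib.Weil
  Fermat.Agent.S26lib.FinMap NeronModelInfra GoodReductionJacobian

universe u

variable {K : Type u} [Field K] {A : Scheme.{u}} {f : A ⟶ Spec (CommRingCat.of K)}
  (L : RelativeGroupLaw K f)

/-! ### `[k]` and the origin -/

theorem oneHom_nMul (k : ℕ) : NMul.oneHom L ≫ Weil.nMul L k = NMul.oneHom L := by
  have h := NMul.comp_nsmulHom L k (NMul.onePt L)
  have h1 : (NMul.onePt L).1 = NMul.oneHom L := rfl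
  rw [h1] at h
  show NMul.oneHom L ≫ NMul.nsmulHom L k = NMul.oneHom L
  rw [h]
  have h2 : L.nsmul (𝟙 _) k (NMul.onePt L) = L.one (𝟙 _) := L.nsmul_unit (𝟙 _) k
  rw [h2]
  rfl

theorem nMul_zeroPt (k : ℕ) : (Weil.nMul L k) (zeroPt L) = zeroPt L := by
  have h := oneHom_nMul L k
  have h1 : (NMul.oneHom L ≫ Weil.nMul L k) (specPt K) = (NMul.oneHom L) (specPt K) := by rw [h]
  rwa [Scheme.Hom.comp_apply] at h1

theorem nMul_zero_eq : Weil.nMul L 0 = f ≫ NMul.oneHom L :=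
  NMul.one_eq L f

theorem nMul_zero_apply (y : A) : (Weil.nMul L 0) y = zeroPt L := by
  rw [nMul_zero_eq, Scheme.Hom.comp_apply]
  have : f y = specPt K := Subsingleton.elim _ _
  rw [this]
  rfl

variable [IsIntegral A] [IsNoetherian A]

/-! ### the prime divisors off `U₀` -/

theorem finite_offU₀ : {P : PrimeDiv A | P.1 ∉ U₀ L}.Finite := by
  haveI := nonempty_U₀ L
  have hfin := P5a.finite_coheight_one_not_mem (X := A) (U₀ L)
  refine (hfin.preimage (f := fun P : PrimeDiv A => P.1) ?_).subset ?_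
  · intro P _ Q _ h
    exact Subtype.ext h
  · intro P hP
    exact ⟨coheight_primeDiv P, hP⟩

/-- the prime divisors off `U₀` -/
def offU₀ : Finset (PrimeDiv A) := (finite_offU₀ L).toFinset

theorem mem_offU₀ (P : PrimeDiv A) : P ∈ offU₀ L ↔ P.1 ∉ U₀ L := by
  unfold offU₀
  rw [Set.Finite.mem_toFinset]
  rfl

variable (hUFD : ∀ x : A, UniqueFactorizationMonoid (A.presheaf.stalk x))

/-- **the Cartier form of the divisor `D = A ∖ U₀`** -/
def Dc : LocFam A := reducedFam hUFD (offU₀ L)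

theorem Dc_isCoherent : (Dc L hUFD).IsCoherent := reducedFam_isCoherent hUFD _

theorem Dc_ne_zero (x : A) : (Dc L hUFD).t x ≠ 0 := reducedFam_ne_zero hUFD _ x

/-- the orders of the local equations: `1` along the prime divisors off `U₀`, `0` along the others -/
theorem ordAt_Dc (x : A) (Z : PrimeDiv A) (h : Z.1 ⤳ x) :
    ordAt Z (toFF A x ((Dc L hUFD).t x)) = (Weil.D L Z : ℤ) := by
  classical
  unfold Dc
  rw [ordAt_reducedFam hUFD _ x Z h, D_apply L Z]
  by_cases hZ : Z.1 ∈ U₀ L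
  · rw [if_neg (fun hm => (mem_offU₀ L Z).mp hm hZ), if_pos hZ]
    rfl
  · rw [if_pos ((mem_offU₀ L Z).mpr hZ), if_neg hZ]
    rfl

theorem weil_Dc (Z : PrimeDiv A) : (Dc L hUFD).weil Z = (Weil.D L Z : ℤ) :=
  ordAt_Dc L hUFD Z.1 Z specializes_rfl

theorem mem_supp_Dc_iff (x : A) :
    x ∈ (Dc L hUFD).supp ↔ ∃ Z : PrimeDiv A, Z.1 ∉ U₀ L ∧ Z.1 ⤳ x := by
  unfold Dc
  rw [mem_supp_reducedFam_iff]
  constructor
  · rintro ⟨Z, hZ, h⟩
    exact ⟨Z, (mem_offU₀ L Z).mp hZ, h⟩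
  · rintro ⟨Z, hZ, h⟩
    exact ⟨Z, (mem_offU₀ L Z).mpr hZ, h⟩

theorem not_mem_supp_Dc_of_mem_U₀ {x : A} (hx : x ∈ U₀ L) : x ∉ (Dc L hUFD).supp := by
  rw [mem_supp_Dc_iff]
  rintro ⟨Z, hZ, h⟩
  exact hZ (h.mem_open (U₀ L).isOpen hx)

theorem zeroPt_not_mem_supp_Dc : zeroPt L ∉ (Dc L hUFD).supp :=
  not_mem_supp_Dc_of_mem_U₀ L hUFD (zeroPt_mem_U₀ L)

/-- `[0]` maps `A` off the support -/
theorem nMul_zero_not_mem_supp_Dc (y : A) : (Weil.nMul L 0) y ∉ (Dc L hUFD).supp := by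
  rw [nMul_zero_apply]
  exact zeroPt_not_mem_supp_Dc L hUFD

/-- a point which specialises to the origin is off the support -/
theorem not_mem_supp_Dc_of_specializes {x : A} (hx : x ⤳ zeroPt L) : x ∉ (Dc L hUFD).supp := by
  intro hmem
  rw [mem_supp_Dc_iff] at hmem
  obtain ⟨Z, hZ, h⟩ := hmem
  exact zeroPt_not_mem_supp_Dc L hUFD ((mem_supp_Dc_iff L hUFD _).mpr ⟨Z, hZ, h.trans hx⟩)

/-- any endomorphism fixing the origin maps the generic point off the support -/
theorem map_genericPoint_not_mem_supp_Dc (ψ : A ⟶ A) (hψ : ψ (zeroPt L) = zeroPt L) :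
    ψ (genericPoint A) ∉ (Dc L hUFD).supp := by
  apply not_mem_supp_Dc_of_specializes
  have h := (generic_specializes A (zeroPt L)).map ψ.continuous
  rwa [hψ] at h

/-- `[k]` maps the generic point off the support, for EVERY `k` -/
theorem nMul_genericPoint_not_mem_supp_Dc (k : ℕ) :
    (Weil.nMul L k) (genericPoint A) ∉ (Dc L hUFD).supp :=
  map_genericPoint_not_mem_supp_Dc L hUFD _ (nMul_zeroPt L k)

/-! ### symmetry -/

instance isIso_neg : IsIso (Weil.neg L) :=
  (inferInstance : IsIso (negIso L).hom)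

theorem neg_mem_U₀_iff (x : A) : (Weil.neg L) x ∈ U₀ L ↔ x ∈ U₀ L := by
  have h := neg_preimage_U₀ L
  have : x ∈ (Weil.neg L) ⁻¹ᵁ (U₀ L) ↔ x ∈ U₀ L := by rw [h]
  exact this

/-- **`D` is symmetric**, in the Cartier sense -/
theorem Dc_symm : ((Dc L hUFD).pullback (Weil.neg L)).Equiv (Dc L hUFD) := by
  classical
  have hnorm := isIntegrallyClosed_of_ufd hUFD
  haveI : IsDominant (Weil.neg L) := ⟨(Weil.neg L).surjective.denseRange⟩
  intro y
  have hne : ((Dc L hUFD).pullback (Weil.neg L)).t y ≠ 0 :=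
    LocFam.pullback_t_ne_zero (Dc_isCoherent L hUFD) (Weil.neg L)
      (map_genericPoint_not_mem_supp_Dc L hUFD _ (neg_zeroPt L)) y
  refine associated_of_ordAt_eq hnorm y hne (Dc_ne_zero L hUFD y) fun Z hZ => ?_
  rw [LocFam.pullback_t, toFF_stalkMap_ffMap, ordAt_ffMap, ordAt_Dc L hUFD y Z hZ]
  have hZ' : (imgPt (Weil.neg L) Z).1 ⤳ (Weil.neg L) y := hZ.map (Weil.neg L).continuous
  rw [ordAt_Dc L hUFD _ _ hZ', D_apply L Z, D_apply L (imgPt (Weil.neg L) Z)]
  have hiff : (imgPt (Weil.neg L) Z).1 ∈ U₀ L ↔ Z.1 ∈ U₀ L := neg_mem_U₀_iff L Z.1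
  by_cases hm : Z.1 ∈ U₀ L
  · rw [if_pos hm, if_pos (hiff.mpr hm)]
  · rw [if_neg hm, if_neg (fun h' => hm (hiff.mp h'))]

end Fermat.Agent.S26lib.Quad
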