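/-
S26lib / Quad / CubeHor  (helper1)  --  Project K (S26), cube kernel, step (M)

**The horizontal part of `div G + 𝔐` on `X = C × T`.**

* `IsLift.exists_eq_mul` (Part A): two liftings (at two closed points of `T`) differ by a factor
  `π^* r`, `r ∈ K(T)ˣ` -- from `(gen)` and the clearing of vertical poles (helper5's `Clear`);
* `hor_support` (Part B), `T = V × W` with `V` proper: if (LIFT) holds at all closed points of the two
  faces, a horizontal prime divisor `P` with `ord_P (G₀ 𝔐) ≠ 0` lies over a point of `C` where `d₀` is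
  not a unit -- from helper9's `Face.exists_face_point_of_primeDiv` (Krull + the topology of `V × W`).
-/
import Mathlib
import Fermat.Agent.S26lib.Quad.CubeSetup
import Fermat.Agent.S26lib.Clear.Main
import Fermat.Agent.S26lib.Face.PrimeDiv

set_option autoImplicit false
set_option linter.unusedSectionVars false
set_option linter.style.haveILetI false
set_option linter.overlappingInstances false

noncomputable section

namespace Fermat.Agent.S26lib.Quad

open AlgebraicGeometry CategoryTheory CategoryTheory.Limits TopologicalSpace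
  Fermat.Agent.S26lib.Weil Fermat.Agent.S26lib.FinMap Fermat.Agent.S26lib.Hub
  Fermat.Agent.S26lib.Prod

universe u

attribute [local instance] surjective_toSpecField

section PartA

variable {K : Type u} [Field K] [IsAlgClosed K] {C T : Scheme.{u}}
  (sC : C ⟶ Spec (CommRingCat.of K)) (sT : T ⟶ Spec (CommRingCat.of K))
  [LocallyOfFiniteType sC] [LocallyOfFiniteType sT]
  [IsIntegral C] [IsIntegral T] [IsIntegral (pullback sC sT)]
  [IsNoetherian (pullback sC sT)] [IsLocallyNoetherian T]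

/-- a lifting is regular along the horizontal prime divisors -/
theorem IsLift.ordZ_nonneg_of_hor {τ : CDiv (pullback sC sT)} {d₀ : CDiv C} {t₀ : KPt sT}
    {G₀ : (pullback sC sT).functionFieldˣ} (h₀ : IsLift sC sT τ d₀ t₀ G₀)
    (P : PrimeDiv (pullback sC sT)) (hP : pullback.snd sC sT P.1 = genericPoint T) :
    0 ≤ ordZ P (G₀ * Mfam sC sT τ d₀ P.1) :=
  ordZ_nonneg_of_mem_regAt specializes_rfl
    (h₀.reg P.1 (hP ▸ generic_specializes T t₀.pt))

/-- **Part A**: two liftings differ by a function on the base -/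
theorem IsLift.exists_eq_mul
    (hufd : ∀ x : ↥(pullback sC sT),
      UniqueFactorizationMonoid ((pullback sC sT).presheaf.stalk x))
    (hnT : ∀ t : T, IsIntegrallyClosed (T.presheaf.stalk t))
    {τ : CDiv (pullback sC sT)} {d₀ : CDiv C} {t₀ t₁ : KPt sT}
    {G₀ G₁ : (pullback sC sT).functionFieldˣ}
    (h₀ : IsLift sC sT τ d₀ t₀ G₀) (h₁ : IsLift sC sT τ d₀ t₁ G₁) :
    ∃ r : T.functionFieldˣ, G₀ = Units.map (FinMap.ffMap (pullback.snd sC sT) :
      T.functionField →* (pullback sC sT).functionField) r * G₁ := by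
  have hπ := goodMap_snd sC sT hufd
  obtain ⟨a, -, hax⟩ := Clear.clear_vertical_poles (isIntegrallyClosed_of_ufd hufd) hnT
    (pullback.snd sC sT) hπ (Mfam sC sT τ d₀) (Mfam_isCoherent sC sT τ d₀) G₀ t₁.pt
    (fun P hP => h₀.ordZ_nonneg_of_hor sC sT P hP)
  obtain ⟨b, -, hb⟩ := h₁.gen (Units.map (FinMap.ffMap (pullback.snd sC sT) :
      T.functionField →* (pullback sC sT).functionField) a * G₀) hax
  refine ⟨b / a, ?_⟩
  rw [map_div, div_mul_eq_mul_div, ← hb, mul_div_cancel_left]

end PartA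

section PartB

variable {K : Type u} [Field K] [IsAlgClosed K] {C V W : Scheme.{u}}
  (sC : C ⟶ Spec (CommRingCat.of K)) (sV : V ⟶ Spec (CommRingCat.of K))
  (sW : W ⟶ Spec (CommRingCat.of K))
  [LocallyOfFiniteType sC] [LocallyOfFiniteType sV] [LocallyOfFiniteType sW]
  [UniversallyClosed sV] [IrreducibleSpace V]
  [IsIntegral C] [IsIntegral (pullback sV sW)] [IsLocallyNoetherian (pullback sV sW)]
  [IsIntegral (pullback sC (sProd sV sW))] [IsNoetherian (pullback sC (sProd sV sW))]

/-- **Part B**: the horizontal part of `div G₀ + 𝔐` is supported over the support of `D₀` -/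
theorem hor_support
    (hufd : ∀ x : ↥(pullback sC (sProd sV sW)),
      UniqueFactorizationMonoid ((pullback sC (sProd sV sW)).presheaf.stalk x))
    (hnT : ∀ t : ↥(pullback sV sW), IsIntegrallyClosed ((pullback sV sW).presheaf.stalk t))
    (τ : CDiv (pullback sC (sProd sV sW))) (d₀ : CDiv C) (v₀ : KPt sV) (w₀ : KPt sW)
    (hlift : ∀ t : KPt (sProd sV sW), (KPt.fstK sV sW t = v₀ ∨ KPt.sndK sV sW t = w₀) →
      LiftAt sC (sProd sV sW) τ d₀ t)
    {t₀ : KPt (sProd sV sW)} {G₀ : (pullback sC (sProd sV sW)).functionFieldˣ}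
    (h₀ : IsLift sC (sProd sV sW) τ d₀ t₀ G₀)
    (P : PrimeDiv (pullback sC (sProd sV sW)))
    (hP : pullback.snd sC (sProd sV sW) P.1 = genericPoint ↥(pullback sV sW))
    (hne : ordZ P (G₀ * Mfam sC (sProd sV sW) τ d₀ P.1) ≠ 0) :
    d₀.t (pullback.fst sC (sProd sV sW) P.1) ∉
      unitsAt C (pullback.fst sC (sProd sV sW) P.1) := by
  intro hunit
  have hπ := goodMap_snd sC (sProd sV sW) hufd
  haveI := hπ.isDominant
  -- a closed point of the closure of `P` over the unit locus of `d₀`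
  have hopen : IsOpen {x : ↥(pullback sC (sProd sV sW)) |
      d₀.t (pullback.fst sC (sProd sV sW) x) ∈ unitsAt C (pullback.fst sC (sProd sV sW) x)} :=
    (CDiv_isCoherent d₀).isOpen_unit_locus.preimage (pullback.fst sC (sProd sV sW)).continuous
  have hlc : IsLocallyClosed (closure {P.1} ∩ {x : ↥(pullback sC (sProd sV sW)) |
      d₀.t (pullback.fst sC (sProd sV sW) x) ∈ unitsAt C (pullback.fst sC (sProd sV sW) x)}) :=
    isClosed_closure.isLocallyClosed.inter hopen.isLocallyClosed
  obtain ⟨z, hzZ, hzΩ⟩ := KPt.exists_kPt_mem_of_isLocallyClosed (sProd sC (sProd sV sW)) hlc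
    ⟨P.1, subset_closure rfl, hunit⟩
  set p := KPt.fstK sC (sProd sV sW) z with hp
  set t := KPt.sndK sC (sProd sV sW) z with ht
  have hz : z.pt = sliceR sC (sProd sV sW) p t.pt := by
    rw [sliceR_apply_pt, pairK_eta]
  have hPz : P.1 ⤳ sliceR sC (sProd sV sW) p t.pt := by
    rw [← hz]; exact specializes_iff_mem_closure.2 hzZ
  have hρz : pullback.fst sC (sProd sV sW) z.pt = p.pt := by
    rw [hz, fst_sliceR_apply]
  -- a closed point of a face in the closure of `P`
  obtain ⟨t₁, hPt₁, hface⟩ := Face.exists_face_point_of_primeDiv sV sW hufd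
    (sliceR sC (sProd sV sW) p) P t.pt hPz v₀ w₀
  obtain ⟨G₁, h₁⟩ := hlift t₁ hface
  -- the local equation of `div G₁ + 𝔐` at `(p, t₁)` is a unit
  have hx₁ : sliceR sC (sProd sV sW) p t₁.pt = sliceL sC (sProd sV sW) t₁ p.pt := by
    rw [sliceR_apply_pt, sliceL_apply_pt]
  obtain ⟨e, he, u, hu⟩ := h₁.fib p.pt
  have hd : d₀.t p.pt ∈ unitsAt C p.pt := by
    have := hzΩ
    simp only [Set.mem_ofPred_eq] at this
    rwa [hρz] at this
  obtain ⟨v, hv⟩ := mem_unitsAt_iff.1 hd
  have heu : IsUnit ((sliceL sC (sProd sV sW) t₁).stalkMap p.pt e) := by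
    have h1 : (sliceL sC (sProd sV sW) t₁).stalkMap p.pt e = (u * v : (C.presheaf.stalk p.pt)ˣ) := by
      apply toFF_injective C p.pt
      rw [hu, Units.val_mul, map_mul, hv]
    rw [h1]
    exact Units.isUnit _
  have he' : IsUnit e := isUnit_of_map_unit ((sliceL sC (sProd sV sW) t₁).stalkMap p.pt).hom e heu
  have hmem : G₁ * Mfam sC (sProd sV sW) τ d₀ (sliceL sC (sProd sV sW) t₁ p.pt) ∈
      unitsAt (pullback sC (sProd sV sW)) (sliceL sC (sProd sV sW) t₁ p.pt) :=
    mem_unitsAt_of_isUnit he' he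
  have hPx : P.1 ⤳ sliceL sC (sProd sV sW) t₁ p.pt := hx₁ ▸ hPt₁
  have h0 : ordZ P (G₁ * Mfam sC (sProd sV sW) τ d₀ (sliceL sC (sProd sV sW) t₁ p.pt)) = 0 :=
    ordZ_eq_zero_of_mem_unitsAt hPx hmem
  have hcoh := (Mfam_isCoherent sC (sProd sV sW) τ d₀).ordZ_spec hPx
  -- comparison of `G₀` and `G₁`
  obtain ⟨r, hr⟩ := h₀.exists_eq_mul sC (sProd sV sW) hufd hnT h₁
  have hr0 := GoodMap.ordZ_eq_zero_of_dominant hπ P hP r
  apply hne
  rw [ordZ_mul] at h0 ⊢
  rw [hcoh] at h0
  rw [hr, ordZ_mul, hr0]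
  show 0 + ordZ P G₁ + (Mfam sC (sProd sV sW) τ d₀).weil P = 0
  omega

end PartB

end Fermat.Agent.S26lib.Quad
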