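/-
S26lib / Quad / CubeMult  (helper1)  --  Project K (S26), cube kernel, step (M), brick (HOR-C)

**The multiplicities of the horizontal part**: if the horizontal part of `div G₀ + 𝔐` is supported
over the support of `D₀` (Part B), then it is EQUAL to `ρ^* D₀`, i.e. `div G₀ + 𝔏` has no horizontal
component (`hor_zero`).  The multiplicity along `{q} × T` is read off on the closed fibre `C × t₀`
through `(fib)`; vertical components through `t₀` are excluded because they contain the whole fibre.
-/
import Mathlib
import Fermat.Agent.S26lib.Quad.CubeSetup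

set_option autoImplicit false
set_option linter.unusedSectionVars false
set_option linter.style.haveILetI false
set_option linter.overlappingInstances false

noncomputable section

namespace Fermat.Agent.S26lib.Quad

open AlgebraicGeometry CategoryTheory CategoryTheory.Limits TopologicalSpace
  Fermat.Agent.S26lib.Weil Fermat.Agent.S26lib.FinMap Fermat.Agent.S26lib.Hub
  Fermat.Agent.S26lib.Prod

universe u

attribute [local instance] surjective_toSpecField

section Local

variable {X Y : Scheme.{u}} [IsIntegral X] [IsIntegral Y]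

/-- a non-unit at the image of the generic point pulls back to `0` -/
theorem pbFF_eq_zero_of_not_isUnit (ψ : Y ⟶ X) {a : X.presheaf.stalk (ψ (genericPoint Y))}
    (ha : ¬ IsUnit a) : pbFF ψ a = 0 := by
  by_contra h
  apply ha
  have hu : IsUnit ((ψ.stalkMap (genericPoint Y)).hom a) := IsUnit.mk0 _ h
  exact isUnit_of_map_unit (ψ.stalkMap (genericPoint Y)).hom a hu

/-- a germ at `ψ y` which lies in the maximal ideal at a generisation `y'` of `ψ η_Y` restricts to
`0` -/
theorem toFF_stalkMap_eq_zero_of_mem (ψ : Y ⟶ X) (y : Y) (e : X.presheaf.stalk (ψ y)) {y' : X}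
    (h1 : y' ⤳ ψ (genericPoint Y))
    (he : X.presheaf.stalkSpecializes (h1.trans (map_generic_specializes ψ y)) e ∈
      IsLocalRing.maximalIdeal (X.presheaf.stalk y')) :
    toFF Y y (ψ.stalkMap y e) = 0 := by
  rw [toFF_stalkMap]
  apply pbFF_eq_zero_of_not_isUnit
  intro hu
  have hu' := hu.map (X.presheaf.stalkSpecializes h1).hom
  have hc : (X.presheaf.stalkSpecializes h1).hom
      ((X.presheaf.stalkSpecializes (map_generic_specializes ψ y)).hom e) =
      (X.presheaf.stalkSpecializes (h1.trans (map_generic_specializes ψ y))).hom e := by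
    have := X.presheaf.stalkSpecializes_comp h1 (map_generic_specializes ψ y)
    exact congrArg (fun φ => φ.hom e) this
  rw [hc] at hu'
  exact (IsLocalRing.mem_maximalIdeal _).mp he hu'

end Local

section HorC

variable {K : Type u} [Field K] [IsAlgClosed K] {C T : Scheme.{u}}
  (sC : C ⟶ Spec (CommRingCat.of K)) (sT : T ⟶ Spec (CommRingCat.of K))
  [LocallyOfFiniteType sC] [LocallyOfFiniteType sT]
  [IsIntegral C] [IsIntegral T] [IsIntegral (pullback sC sT)]
  [IsNoetherian (pullback sC sT)] [IsLocallyNoetherian T] [IsLocallyNoetherian C]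

/-- **(HOR-C)**: `div G₀ + 𝔏` has no horizontal component -/
theorem hor_zero
    (hufd : ∀ x : ↥(pullback sC sT),
      UniqueFactorizationMonoid ((pullback sC sT).presheaf.stalk x))
    (hnT : ∀ t : T, IsIntegrallyClosed (T.presheaf.stalk t))
    (hreg : ∀ c : C, c = genericPoint C ∨ IsDiscreteValuationRing (C.presheaf.stalk c))
    (τ : CDiv (pullback sC sT)) (d₀ : CDiv C) (t₀ : KPt sT)
    (G₀ : (pullback sC sT).functionFieldˣ) (h₀ : IsLift sC sT τ d₀ t₀ G₀)
    (hB : ∀ P : PrimeDiv (pullback sC sT), pullback.snd sC sT P.1 = genericPoint T →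
      ordZ P (G₀ * Mfam sC sT τ d₀ P.1) ≠ 0 →
      d₀.t (pullback.fst sC sT P.1) ∉ unitsAt C (pullback.fst sC sT P.1)) :
    ∀ P : PrimeDiv (pullback sC sT), pullback.snd sC sT P.1 = genericPoint T →
      ordZ P (G₀ * τ.t P.1) = 0 := by
  intro P hP
  have hρ := goodMap_fst sC sT hufd
  have hπ := goodMap_snd sC sT hufd
  have hnX := isIntegrallyClosed_of_ufd hufd
  have h𝔐 := Mfam_isCoherent sC sT τ d₀
  -- the basic decomposition
  have hdec : ∀ P' : PrimeDiv (pullback sC sT), ordZ P' (G₀ * Mfam sC sT τ d₀ P'.1) =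
      ordZ P' (G₀ * τ.t P'.1) + ordZ P' (Units.map (FinMap.ffMap (pullback.fst sC sT) :
        C.functionField →* (pullback sC sT).functionField) (d₀.t (pullback.fst sC sT P'.1))) := by
    intro P'
    rw [Mfam_apply, ← mul_assoc, ordZ_mul]
  set q := pullback.fst sC sT P.1 with hq
  by_cases hu : d₀.t q ∈ unitsAt C q
  · -- `d₀` is a unit at `ρ P`
    have h1 : ordZ P (G₀ * Mfam sC sT τ d₀ P.1) = 0 := by
      by_contra hne
      exact hB P hP hne hu
    have h2 : ordZ P (Units.map (FinMap.ffMap (pullback.fst sC sT) :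
        C.functionField →* (pullback sC sT).functionField) (d₀.t q)) = 0 :=
      ordZ_eq_zero_of_mem_unitsAt specializes_rfl
        (RatFam.map_ffMap_mem_unitsAt (pullback.fst sC sT) hu)
    have h3 := hdec P
    rw [h1, h2] at h3
    omega
  · -- `d₀` is not a unit at `q = ρ P`
    have hqη : q ≠ genericPoint C := by
      intro h
      apply hu
      have : unitsAt C q = ⊤ := by rw [h]; exact unitsAt_generic
      rw [this]; trivial
    have hdvr : IsDiscreteValuationRing (C.presheaf.stalk q) := (hreg q).resolve_left hqη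
    set Q : PrimeDiv C := ⟨q, hdvr⟩ with hQ
    have hPQ : hρ.pull Q = P := GoodMap.pull_eq_of_map_eq hρ P Q rfl
    -- the point `x = (q, t₀)`
    set x := sliceL sC sT t₀ q with hx
    have hρx : pullback.fst sC sT x = q := fst_sliceL_apply sC sT t₀ q
    have hπx : pullback.snd sC sT x = t₀.pt := snd_sliceL_apply sC sT t₀ q
    have hPx : P.1 ⤳ x := by
      rw [← hPQ, hρ.pull_specializes_iff, hρx]
    obtain ⟨e, he, u, hu'⟩ := h₀.fib q
    set F := G₀ * Mfam sC sT τ d₀ x with hF
    set n := ordZ P F with hn
    have hnP : ordZ P (G₀ * Mfam sC sT τ d₀ P.1) = n := by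
      rw [hn, hF, ordZ_mul, ordZ_mul, h𝔐.ordZ_spec hPx]; rfl
    -- a uniformiser at `q`
    obtain ⟨ϖ₀, hϖ0, hϖ1⟩ := exists_ordAt_eq_one Q
    set ϖ : C.functionFieldˣ := Units.mk0 ϖ₀ hϖ0 with hϖ
    have hϖQ : ordZ Q ϖ = 1 := hϖ1
    set ρϖ := Units.map (FinMap.ffMap (pullback.fst sC sT) :
        C.functionField →* (pullback sC sT).functionField) ϖ with hρϖ
    have hρϖP : ordZ P ρϖ = 1 := by
      rw [← hPQ]
      exact (GoodMap.ordZ_pull hρ Q ϖ).trans hϖQ
    -- the generic point of the closed fibre
    set ξ := sliceL sC sT t₀ (genericPoint C) with hξ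
    have hξx : ξ ⤳ x := (generic_specializes C q).map (sliceL sC sT t₀).continuous
    have hρξ : pullback.fst sC sT ξ = genericPoint C := fst_sliceL_apply sC sT t₀ _
    have hπξ : pullback.snd sC sT ξ = t₀.pt := snd_sliceL_apply sC sT t₀ _
    -- the restriction of `e` is non-zero
    have hne0 : toFF C q ((sliceL sC sT t₀).stalkMap q e) ≠ 0 := by
      rw [hu']
      exact mul_ne_zero (toFF_ne_zero C u.ne_zero) (d₀.t q).ne_zero
    -- `θ = F / (ρ^* ϖ)^n` is a unit at `x`
    set θ := F / ρϖ ^ n with hθ
    have hθu : θ ∈ unitsAt (pullback sC sT) x := by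
      refine mem_unitsAt_of_ordZ_eq_zero hnX x θ fun P' hP'x => ?_
      rw [hθ, ordZ_div, ordZ_zpow]
      by_cases hPP : P' = P
      · subst hPP
        rw [hρϖP, ← hn]; ring
      · have hρP'q : pullback.fst sC sT P'.1 ⤳ q := by
          have := hP'x.map (pullback.fst sC sT).continuous
          rwa [hρx] at this
        have hρP' : pullback.fst sC sT P'.1 = genericPoint C := by
          rcases eq_or_eq_of_specializes_dvr hdvr hρP'q with h | h
          · exfalso
            apply hPP
            rw [← hPQ]
            exact (GoodMap.pull_eq_of_map_eq hρ P' Q h).symm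
          · exact h
        have h1 : ordZ P' ρϖ = 0 := GoodMap.ordZ_eq_zero_of_dominant hρ P' hρP' ϖ
        have h2 : ordZ P' F = 0 := by
          have hcoh : ordZ P' F = ordZ P' (G₀ * Mfam sC sT τ d₀ P'.1) := by
            rw [hF, ordZ_mul, ordZ_mul, h𝔐.ordZ_spec hP'x]; rfl
          rw [hcoh]
          by_cases hhor : pullback.snd sC sT P'.1 = genericPoint T
          · by_contra hne
            apply hB P' hhor hne
            have : unitsAt C (pullback.fst sC sT P'.1) = ⊤ := by
              rw [hρP']; exact unitsAt_generic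
            rw [this]; trivial
          · -- a vertical prime divisor through `x` contains the whole fibre
            have hπP' : pullback.snd sC sT P'.1 ⤳ t₀.pt := by
              have := hP'x.map (pullback.snd sC sT).continuous
              rwa [hπx] at this
            have hge : 0 ≤ ordZ P' (G₀ * Mfam sC sT τ d₀ P'.1) :=
              ordZ_nonneg_of_mem_regAt specializes_rfl (h₀.reg P'.1 hπP')
            by_contra hne
            have hpos : 0 < ordZ P' F := by
              rw [hcoh]; omega
            obtain ⟨S, hS⟩ := hπ.exists_pull_eq hnT P' hhor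
            have hP'ξ : P'.1 ⤳ ξ := by
              rw [← hS, hπ.pull_specializes_iff, hπξ]
              have h3 := hπ.map_pull S
              rw [hS] at h3
              rw [← h3]
              exact hπP'
            obtain ⟨a, ha, haF⟩ := (ordAt_pos_iff P' F.ne_zero).mp hpos
            apply hne0
            refine toFF_stalkMap_eq_zero_of_mem (sliceL sC sT t₀) q e hP'ξ ?_
            have hae : (pullback sC sT).presheaf.stalkSpecializes
                (hP'ξ.trans (map_generic_specializes (sliceL sC sT t₀) q)) e = a := by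
              apply toFF_injective (pullback sC sT) P'.1
              rw [toFF_spec, he, haF]
            rw [hae]; exact ha
        rw [h1, h2]; ring
    -- restriction to the closed fibre
    have hFθ : F = θ * ρϖ ^ n := by rw [hθ, div_mul_cancel]
    have hθξ : θ ∈ unitsAt (pullback sC sT) ξ := unitsAt_mono hξx hθu
    have hρϖξ : ρϖ ∈ unitsAt (pullback sC sT) ξ := by
      refine RatFam.map_ffMap_mem_unitsAt (pullback.fst sC sT) ?_
      have : unitsAt C (pullback.fst sC sT ξ) = ⊤ := by rw [hρξ]; exact unitsAt_generic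
      rw [this]; trivial
    have hFξ : F ∈ unitsAt (pullback sC sT) ξ := by
      rw [hFθ]; exact mul_mem hθξ (zpow_mem hρϖξ n)
    have key := RatFam.toFF_stalkMap_eq_pbU (sliceL sC sT t₀) q e he hFξ
    have h1 : RatFam.pbU (sliceL sC sT t₀) F hFξ =
        RatFam.pbU (sliceL sC sT t₀) θ hθξ * ϖ ^ n := by
      rw [RatFam.pbU_congr _ hFθ, RatFam.pbU_mul _ hθξ (zpow_mem hρϖξ n),
        RatFam.pbU_zpow _ hρϖξ,
        RatFam.pbU_pull_of_section _ _ (sliceL_fst sC sT t₀) ϖ hρϖξ]
    have h2 : RatFam.pbU (sliceL sC sT t₀) θ hθξ ∈ unitsAt C q :=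
      RatFam.pbU_mem_unitsAt (sliceL sC sT t₀) q hθu
    set U' : C.functionFieldˣ := Units.map (toFF C q : C.presheaf.stalk q →* C.functionField) u
      with hU'
    have hU'm : U' ∈ unitsAt C q := ⟨u, rfl⟩
    have h3 : U' * d₀.t q = RatFam.pbU (sliceL sC sT t₀) θ hθξ * ϖ ^ n := by
      apply Units.ext
      rw [← h1, ← key, hu']
      rfl
    have h4 := congrArg (ordZ Q) h3
    rw [ordZ_mul, ordZ_mul, ordZ_zpow, hϖQ,
      ordZ_eq_zero_of_mem_unitsAt (P := Q) specializes_rfl hU'm,
      ordZ_eq_zero_of_mem_unitsAt (P := Q) specializes_rfl h2] at h4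
    have h5 := GoodMap.ordZ_pull hρ Q (d₀.t q)
    rw [hPQ] at h5
    have h6 := hdec P
    rw [hnP] at h6
    have h7 : ordZ P (Units.map (FinMap.ffMap (pullback.fst sC sT) :
        C.functionField →* (pullback sC sT).functionField) (d₀.t (pullback.fst sC sT P.1))) =
        ordZ Q (d₀.t q) := h5
    rw [h7] at h6
    omega

end HorC

end Fermat.Agent.S26lib.Quad
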