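/-
S26lib / Quad / CubeVert  (helper1)  --  Project K (S26), cube kernel, step (M), brick (VERT-D)

**The vertical part**: a Cartier divisor `τ` on `X = C × T` such that `div G₀ + τ` has no horizontal
component, and whose restriction to `{c₀} × T` is principal, is principal
(`principal_of_hor_zero`).  Indeed `div G₀ + τ = π^* E` with `E` the (normalised) restriction to
`{c₀} × T`, up to the divisor of a function of `T`; the comparison is a local computation at the
points `(c₀, S)`, `S` a prime divisor of `T`.
-/
import Mathlib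
import Fermat.Agent.S26lib.Quad.CubeSetup

set_option autoImplicit false
set_option linter.unusedSectionVars false
set_option linter.style.haveILetI false
set_option linter.overlappingInstances false

noncomputable section

namespace Fermat.Agent.S26lib.Quad

open AlgebraicGeometry CategoryTheory CategoryTheory.Limits TopologicalSpace
  Fermat.Agent.S26lib.Weil Fermat.Agent.S26lib.FinMap Fermat.Agent.S26lib.Hub
  Fermat.Agent.S26lib.Prod

universe u

attribute [local instance] surjective_toSpecField

variable {K : Type u} [Field K] [IsAlgClosed K] {C T : Scheme.{u}}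
  (sC : C ⟶ Spec (CommRingCat.of K)) (sT : T ⟶ Spec (CommRingCat.of K))
  [LocallyOfFiniteType sC] [LocallyOfFiniteType sT]
  [IsIntegral C] [IsIntegral T] [IsIntegral (pullback sC sT)]
  [IsNoetherian (pullback sC sT)] [IsLocallyNoetherian T]

/-- **(VERT-D)**: no horizontal component + principal on `{c₀} × T` implies principal -/
theorem principal_of_hor_zero
    (hufd : ∀ x : ↥(pullback sC sT),
      UniqueFactorizationMonoid ((pullback sC sT).presheaf.stalk x))
    (hnT : ∀ t : T, IsIntegrallyClosed (T.presheaf.stalk t))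
    (τ : CDiv (pullback sC sT)) (G₀ : (pullback sC sT).functionFieldˣ)
    (hhor : ∀ P : PrimeDiv (pullback sC sT), pullback.snd sC sT P.1 = genericPoint T →
      ordZ P (G₀ * τ.t P.1) = 0)
    (c₀ : KPt sC) (hc : CDiv.pull (sliceR sC sT c₀) τ ∈ CDiv.principal T) :
    τ ∈ CDiv.principal (pullback sC sT) := by
  have hπ := goodMap_snd sC sT hufd
  have hnX := isIntegrallyClosed_of_ufd hufd
  have hπi : ∀ z : T, pullback.snd sC sT (sliceR sC sT c₀ z) = z := snd_sliceR_apply sC sT c₀
  -- `τ' = G₀ τ`
  set τ' : RatFam (pullback sC sT) := RatFam.const G₀ * (τ.1 : RatFam (pullback sC sT)) with hτ'def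
  have hτ' : τ'.IsCoherent := (RatFam.isCoherent_const G₀).mul (CDiv_isCoherent τ)
  have hτ'w : ∀ P : PrimeDiv (pullback sC sT), pullback.snd sC sT P.1 = genericPoint T →
      τ'.weil P = 0 := fun P hP => hhor P hP
  -- the generic point of `{c₀} × T`
  set y₀ := sliceR sC sT c₀ (genericPoint T) with hy₀
  have hπy₀ : pullback.snd sC sT y₀ = genericPoint T := hπi _
  have hhor_of : ∀ P' : PrimeDiv (pullback sC sT), P'.1 ⤳ y₀ →
      pullback.snd sC sT P'.1 = genericPoint T := by
    intro P' hP'
    have h1 := hP'.map (pullback.snd sC sT).continuous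
    rw [hπy₀] at h1
    exact (h1.antisymm (generic_specializes T _)).eq
  have hu₀ : τ' y₀ ∈ unitsAt (pullback sC sT) y₀ :=
    mem_unitsAt_of_ordZ_eq_zero hnX y₀ _ fun P' hP' => by
      rw [hτ'.ordZ_spec hP']
      exact hτ'w P' (hhor_of P' hP')
  set r₀ := RatFam.pbU (sliceR sC sT c₀) (τ' y₀) hu₀ with hr₀
  -- the restriction to `{c₀} × T`
  set ε : RatFam T := RatFam.npb (sliceR sC sT c₀) τ' with hεdef
  have hε : ε.IsCoherent := hτ'.npb _
  have hεη : ε (genericPoint T) = 1 := RatFam.npb_generic hτ' _
  have hεp : ε.IsPrincipal := by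
    have h1 := (mem_principal_iff_isPrincipal _).1 hc
    rw [pull_val_eq_npb] at h1
    have h2 : ε = RatFam.npb (sliceR sC sT c₀) (τ.1 : RatFam (pullback sC sT)) := by
      rw [hεdef, hτ'def, RatFam.npb_mul (RatFam.isCoherent_const G₀) (CDiv_isCoherent τ),
        RatFam.npb_const, one_mul]
    rwa [h2]
  -- the key local computation
  have key : ∀ S : PrimeDiv T, ordZ S (ε S.1) = τ'.weil (hπ.pull S) - ordZ S r₀ := by
    intro S
    set P := hπ.pull S with hP
    set x := sliceR sC sT c₀ S.1 with hx
    have hπx : pullback.snd sC sT x = S.1 := hπi _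
    have hPx : P.1 ⤳ x := by
      rw [hP, hπ.pull_specializes_iff, hπx]
    have hy₀x : y₀ ⤳ x := (generic_specializes T S.1).map (sliceR sC sT c₀).continuous
    set n := τ'.weil P with hn
    obtain ⟨s₀, hs0, hs1⟩ := exists_ordAt_eq_one S
    set s : T.functionFieldˣ := Units.mk0 s₀ hs0 with hs
    have hsS : ordZ S s = 1 := hs1
    set πs := Units.map (FinMap.ffMap (pullback.snd sC sT) :
        T.functionField →* (pullback sC sT).functionField) s with hπs
    have hπsP : ordZ P πs = 1 := (GoodMap.ordZ_pull hπ S s).trans hsS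
    set θ := τ' x / πs ^ n with hθ
    have hθu : θ ∈ unitsAt (pullback sC sT) x := by
      refine mem_unitsAt_of_ordZ_eq_zero hnX x θ fun P' hP'x => ?_
      rw [hθ, ordZ_div, ordZ_zpow, hτ'.ordZ_spec hP'x]
      by_cases hPP : P' = P
      · rw [hPP, hπsP, ← hn]; ring
      · have h1 : pullback.snd sC sT P'.1 ⤳ S.1 := by
          have := hP'x.map (pullback.snd sC sT).continuous
          rwa [hπx] at this
        have h2 : pullback.snd sC sT P'.1 = genericPoint T := by
          rcases eq_or_eq_of_specializes_dvr S.2 h1 with h | h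
          · exfalso
            apply hPP
            exact (GoodMap.pull_eq_of_map_eq hπ P' S h).symm
          · exact h
        rw [hτ'w P' h2, GoodMap.ordZ_eq_zero_of_dominant hπ P' h2 s]; ring
    have hθy : θ ∈ unitsAt (pullback sC sT) y₀ := unitsAt_mono hy₀x hθu
    have hπsy : πs ∈ unitsAt (pullback sC sT) y₀ := by
      refine RatFam.map_ffMap_mem_unitsAt (pullback.snd sC sT) ?_
      have : unitsAt T (pullback.snd sC sT y₀) = ⊤ := by rw [hπy₀]; exact unitsAt_generic
      rw [this]; trivial
    have hquot : τ' x / τ' y₀ = θ * πs ^ n / τ' y₀ := by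
      rw [hθ, div_mul_cancel]
    have hmem : θ * πs ^ n ∈ unitsAt (pullback sC sT) y₀ := mul_mem hθy (zpow_mem hπsy n)
    have h1 : ε S.1 = RatFam.pbU (sliceR sC sT c₀) θ hθy * s ^ n / r₀ := by
      rw [hεdef, RatFam.npb_apply hτ', RatFam.pbU_congr _ hquot,
        RatFam.pbU_div _ hmem hu₀, RatFam.pbU_mul _ hθy (zpow_mem hπsy n),
        RatFam.pbU_zpow _ hπsy,
        RatFam.pbU_pull_of_section _ _ (sliceR_snd sC sT c₀) s hπsy]
    have h2 : RatFam.pbU (sliceR sC sT c₀) θ hθy ∈ unitsAt T S.1 :=
      RatFam.pbU_mem_unitsAt (sliceR sC sT c₀) S.1 hθu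
    rw [h1, ordZ_div, ordZ_mul, ordZ_zpow, hsS,
      ordZ_eq_zero_of_mem_unitsAt (P := S) specializes_rfl h2]
    ring
  -- the corrected family has trivial Weil divisor
  set πr := Units.map (FinMap.ffMap (pullback.snd sC sT) :
      T.functionField →* (pullback sC sT).functionField) r₀ with hπr
  set σ : RatFam (pullback sC sT) :=
    τ' / RatFam.pull (pullback.snd sC sT) ε * RatFam.const πr⁻¹ with hσ
  have hσc : σ.IsCoherent := (hτ'.div (hε.pull _)).mul (RatFam.isCoherent_const _)
  have hσw : ∀ P : PrimeDiv (pullback sC sT), ordZ P 1 + σ.weil P = 0 := by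
    intro P
    have e1 : σ.weil P = τ'.weil P - ordZ P (Units.map (FinMap.ffMap (pullback.snd sC sT) :
        T.functionField →* (pullback sC sT).functionField) (ε (pullback.snd sC sT P.1))) -
        ordZ P πr := by
      rw [hσ, RatFam.weil_mul, RatFam.weil_div, RatFam.weil_const, ordZ_inv]
      rfl
    rw [ordZ_one, zero_add, e1]
    by_cases hP : pullback.snd sC sT P.1 = genericPoint T
    · rw [hτ'w P hP, hP, hεη, map_one, ordZ_one, GoodMap.ordZ_eq_zero_of_dominant hπ P hP r₀]
      ring
    · obtain ⟨S, hS⟩ := hπ.exists_pull_eq hnT P hP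
      have hmp : pullback.snd sC sT P.1 = S.1 := by
        rw [← hS]; exact hπ.map_pull S
      rw [hmp, ← hS, GoodMap.ordZ_pull hπ S (ε S.1), GoodMap.ordZ_pull hπ S r₀, key S]
      ring
  have hσp : σ.IsPrincipal := RatFam.isPrincipal_of_weil hnX hσc 1 hσw
  -- conclusion
  rw [mem_principal_iff_isPrincipal]
  have hfin : (τ.1 : RatFam (pullback sC sT)) =
      RatFam.const G₀⁻¹ * (σ * RatFam.pull (pullback.snd sC sT) ε * RatFam.const πr) := by
    funext x
    simp only [hσ, hτ'def, Pi.mul_apply, Pi.div_apply, RatFam.const_apply]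
    apply Units.ext
    push_cast
    field_simp
  rw [hfin]
  exact (RatFam.isPrincipal_const _).mul
    ((hσp.mul (hεp.pull _)).mul (RatFam.isPrincipal_const _))

end Fermat.Agent.S26lib.Quad
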