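/-
S26lib / Quad / Cube  (helper1)  --  Project K (S26), cube kernel, step (M)

**THE THEOREM OF THE CUBE for `C × V × W`** (`C` a regular curve, `V` proper), from (LIFT) at the
closed points of the two faces `V × {w₀}`, `{v₀} × W`.

`cube_of_bricks` : the assembly, with the two local computations (HOR-C) `hor_zero` (multiplicities of
the horizontal part) and (VERT-D) `principal_of_hor_zero` (the vertical part) as hypotheses in exactly
the shape in which they are proved (helper5 `Clear/…`, helper9 `Face/…`).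
-/
import Mathlib
import Fermat.Agent.S26lib.Quad.CubeHor
import Fermat.Agent.S26lib.Quad.CubeMult
import Fermat.Agent.S26lib.Quad.CubeVert

set_option autoImplicit false
set_option linter.unusedSectionVars false
set_option linter.style.haveILetI false
set_option linter.overlappingInstances false

noncomputable section

namespace Fermat.Agent.S26lib.Quad

open AlgebraicGeometry CategoryTheory CategoryTheory.Limits TopologicalSpace
  Fermat.Agent.S26lib.Weil Fermat.Agent.S26lib.FinMap Fermat.Agent.S26lib.Hub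
  Fermat.Agent.S26lib.Prod

universe u

attribute [local instance] surjective_toSpecField

variable {K : Type u} [Field K] [IsAlgClosed K] {C V W : Scheme.{u}}
  (sC : C ⟶ Spec (CommRingCat.of K)) (sV : V ⟶ Spec (CommRingCat.of K))
  (sW : W ⟶ Spec (CommRingCat.of K))
  [LocallyOfFiniteType sC] [LocallyOfFiniteType sV] [LocallyOfFiniteType sW]
  [UniversallyClosed sV] [IrreducibleSpace V]
  [IsIntegral C] [IsIntegral (pullback sV sW)] [IsLocallyNoetherian (pullback sV sW)]
  [IsIntegral (pullback sC (sProd sV sW))] [IsNoetherian (pullback sC (sProd sV sW))]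

/-- the statement of (HOR-C) -/
def HorZeroStatement (τ : CDiv (pullback sC (sProd sV sW))) (d₀ : CDiv C) : Prop :=
  ∀ (t₀ : KPt (sProd sV sW)) (G₀ : (pullback sC (sProd sV sW)).functionFieldˣ),
    IsLift sC (sProd sV sW) τ d₀ t₀ G₀ →
    (∀ P : PrimeDiv (pullback sC (sProd sV sW)),
      pullback.snd sC (sProd sV sW) P.1 = genericPoint ↥(pullback sV sW) →
      ordZ P (G₀ * Mfam sC (sProd sV sW) τ d₀ P.1) ≠ 0 →
      d₀.t (pullback.fst sC (sProd sV sW) P.1) ∉
        unitsAt C (pullback.fst sC (sProd sV sW) P.1)) →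
    ∀ P : PrimeDiv (pullback sC (sProd sV sW)),
      pullback.snd sC (sProd sV sW) P.1 = genericPoint ↥(pullback sV sW) →
      ordZ P (G₀ * τ.t P.1) = 0

/-- the statement of (VERT-D) -/
def VertStatement (τ : CDiv (pullback sC (sProd sV sW))) : Prop :=
  ∀ (G₀ : (pullback sC (sProd sV sW)).functionFieldˣ),
    (∀ P : PrimeDiv (pullback sC (sProd sV sW)),
      pullback.snd sC (sProd sV sW) P.1 = genericPoint ↥(pullback sV sW) →
      ordZ P (G₀ * τ.t P.1) = 0) →
    ∀ c₀ : KPt sC, CDiv.pull (sliceR sC (sProd sV sW) c₀) τ ∈ CDiv.principal (pullback sV sW) →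
      τ ∈ CDiv.principal (pullback sC (sProd sV sW))

/-- **the theorem of the cube**, from the two local computations -/
theorem cube_of_bricks
    (hufd : ∀ x : ↥(pullback sC (sProd sV sW)),
      UniqueFactorizationMonoid ((pullback sC (sProd sV sW)).presheaf.stalk x))
    (hnT : ∀ t : ↥(pullback sV sW), IsIntegrallyClosed ((pullback sV sW).presheaf.stalk t))
    (τ : CDiv (pullback sC (sProd sV sW))) (d₀ : CDiv C)
    (hHor : HorZeroStatement sC sV sW τ d₀) (hVert : VertStatement sC sV sW τ)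
    (c₀ : KPt sC) (v₀ : KPt sV) (w₀ : KPt sW)
    (hc : CDiv.pull (sliceR sC (sProd sV sW) c₀) τ ∈ CDiv.principal (pullback sV sW))
    (hlift : ∀ t : KPt (sProd sV sW), (KPt.fstK sV sW t = v₀ ∨ KPt.sndK sV sW t = w₀) →
      LiftAt sC (sProd sV sW) τ d₀ t) :
    τ ∈ CDiv.principal (pullback sC (sProd sV sW)) := by
  have hcorner : KPt.fstK sV sW (pairK sV sW v₀ w₀) = v₀ := by
    apply Subtype.ext
    exact pairK_fst sV sW v₀ w₀
  obtain ⟨G₀, h₀⟩ := hlift (pairK sV sW v₀ w₀) (Or.inl hcorner)
  have hB := fun P hP hne =>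
    hor_support sC sV sW hufd hnT τ d₀ v₀ w₀ hlift h₀ P hP hne
  exact hVert G₀ (hHor _ G₀ h₀ hB) c₀ hc

/-- (HOR-C) holds (`Quad/CubeMult.lean`) -/
theorem horZeroStatement [IsLocallyNoetherian C]
    (hufd : ∀ x : ↥(pullback sC (sProd sV sW)),
      UniqueFactorizationMonoid ((pullback sC (sProd sV sW)).presheaf.stalk x))
    (hnT : ∀ t : ↥(pullback sV sW), IsIntegrallyClosed ((pullback sV sW).presheaf.stalk t))
    (hreg : ∀ c : C, c = genericPoint C ∨ IsDiscreteValuationRing (C.presheaf.stalk c))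
    (τ : CDiv (pullback sC (sProd sV sW))) (d₀ : CDiv C) :
    HorZeroStatement sC sV sW τ d₀ := fun t₀ G₀ h₀ hB =>
  hor_zero sC (sProd sV sW) hufd hnT hreg τ d₀ t₀ G₀ h₀ hB

/-- **the theorem of the cube**, modulo the vertical part (VERT-D) -/
theorem cube_of_vert [IsLocallyNoetherian C]
    (hufd : ∀ x : ↥(pullback sC (sProd sV sW)),
      UniqueFactorizationMonoid ((pullback sC (sProd sV sW)).presheaf.stalk x))
    (hnT : ∀ t : ↥(pullback sV sW), IsIntegrallyClosed ((pullback sV sW).presheaf.stalk t))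
    (hreg : ∀ c : C, c = genericPoint C ∨ IsDiscreteValuationRing (C.presheaf.stalk c))
    (τ : CDiv (pullback sC (sProd sV sW))) (d₀ : CDiv C)
    (hVert : VertStatement sC sV sW τ)
    (c₀ : KPt sC) (v₀ : KPt sV) (w₀ : KPt sW)
    (hc : CDiv.pull (sliceR sC (sProd sV sW) c₀) τ ∈ CDiv.principal (pullback sV sW))
    (hlift : ∀ t : KPt (sProd sV sW), (KPt.fstK sV sW t = v₀ ∨ KPt.sndK sV sW t = w₀) →
      LiftAt sC (sProd sV sW) τ d₀ t) :
    τ ∈ CDiv.principal (pullback sC (sProd sV sW)) :=
  cube_of_bricks sC sV sW hufd hnT τ d₀ (horZeroStatement sC sV sW hufd hnT hreg τ d₀) hVert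
    c₀ v₀ w₀ hc hlift

/-- (VERT-D) holds (`Quad/CubeVert.lean`) -/
theorem vertStatement
    (hufd : ∀ x : ↥(pullback sC (sProd sV sW)),
      UniqueFactorizationMonoid ((pullback sC (sProd sV sW)).presheaf.stalk x))
    (hnT : ∀ t : ↥(pullback sV sW), IsIntegrallyClosed ((pullback sV sW).presheaf.stalk t))
    (τ : CDiv (pullback sC (sProd sV sW))) :
    VertStatement sC sV sW τ := fun G₀ hhor c₀ hc =>
  principal_of_hor_zero sC (sProd sV sW) hufd hnT τ G₀ hhor c₀ hc

/-- **THE THEOREM OF THE CUBE** for `C × V × W`, `C` a regular curve, `V` proper: a Cartier divisor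
`τ` whose restriction to `{c₀} × V × W` is principal and for which (LIFT) holds at the closed points
of the two faces `V × {w₀}`, `{v₀} × W` is principal. -/
theorem cube [IsLocallyNoetherian C]
    (hufd : ∀ x : ↥(pullback sC (sProd sV sW)),
      UniqueFactorizationMonoid ((pullback sC (sProd sV sW)).presheaf.stalk x))
    (hnT : ∀ t : ↥(pullback sV sW), IsIntegrallyClosed ((pullback sV sW).presheaf.stalk t))
    (hreg : ∀ c : C, c = genericPoint C ∨ IsDiscreteValuationRing (C.presheaf.stalk c))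
    (τ : CDiv (pullback sC (sProd sV sW))) (d₀ : CDiv C)
    (c₀ : KPt sC) (v₀ : KPt sV) (w₀ : KPt sW)
    (hc : CDiv.pull (sliceR sC (sProd sV sW) c₀) τ ∈ CDiv.principal (pullback sV sW))
    (hlift : ∀ t : KPt (sProd sV sW), (KPt.fstK sV sW t = v₀ ∨ KPt.sndK sV sW t = w₀) →
      LiftAt sC (sProd sV sW) τ d₀ t) :
    τ ∈ CDiv.principal (pullback sC (sProd sV sW)) :=
  cube_of_vert sC sV sW hufd hnT hreg τ d₀ (vertStatement sC sV sW hufd hnT τ) c₀ v₀ w₀ hc hlift

end Fermat.Agent.S26lib.Quad
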