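/-
S26lib / Quad / Induct  (helper1)  --  Project K (S26)

**(Q3): from the parallelogram function to `[n]^* D ~ n² D`.**

Abstract setting (to be instantiated with the abelian variety `A`, `A2 = A × A`, `m` the sum,
`s` the difference, `p1`, `p2` the projections, `nmul k = [k]`, `ψ n : y ↦ (n y, y)`):
integral schemes `A`, `A2` with morphisms satisfying
`ψ n ≫ m = nmul (n+1)`, `ψ (n+1) ≫ s = nmul n`, `ψ n ≫ p1 = nmul n`, `ψ n ≫ p2 = 𝟙`,
`nmul 1 = 𝟙`; a coherent family of local equations `D` on `A` (an effective Cartier divisor)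
such that `[0]` maps `A` outside the support of `D` and no `[k]` maps the generic point into the
support; a rational function `H` on `A2` with divisor `m^*D + s^*D - 2 p1^*D - 2 p2^*D`.

`quad_main` : for every `n` there is a non-zero rational function `u` on `A` with divisor
`[n]^* D - n² D`, in the strong (Cartier) sense `IsDivOf u ([n]^*D) (D ^ n²)` : at every point
`u = unit * [n]^*(t) / t ^ n²`.
-/
import Mathlib
import Fermat.Agent.S26lib.Quad.LocEq

set_option autoImplicit false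
set_option linter.unusedSectionVars false

noncomputable section

namespace Fermat.Agent.S26lib.Quad

open AlgebraicGeometry CategoryTheory TopologicalSpace

universe u

section Aux

variable {X : Scheme.{u}} [IsIntegral X]

/-- cancellation of a common factor, pointwise form -/
theorem IsDivOf.cancel' {H : X.functionField} {P N P' N' C : LocFam X} (h : IsDivOf H P N)
    (hP : ∀ x, P.t x = P'.t x * C.t x) (hN : ∀ x, N.t x = N'.t x * C.t x)
    (hC : ∀ x, C.t x ≠ 0) : IsDivOf H P' N' := by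
  have hP' : P = P' * C := by ext x; exact hP x
  have hN' : N = N' * C := by ext x; exact hN x
  rw [hP', hN'] at h
  exact h.cancel hC

/-- a family of units is the trivial divisor -/
theorem isDivOf_one_of_units {D : LocFam X} (hD : ∀ x, IsUnit (D.t x)) :
    IsDivOf (1 : X.functionField) D 1 := by
  intro x
  refine ⟨(hD x).unit, ?_⟩
  simp

end Aux

section Main

variable {A A2 : Scheme.{u}} [IsIntegral A] [IsIntegral A2]
variable (m s p1 p2 : A2 ⟶ A) (nmul : ℕ → (A ⟶ A)) (ψ : ℕ → (A ⟶ A2))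
variable (D : LocFam A) (H : A2.functionField)

/-- the hypotheses of (Q3) -/
structure QuadData : Prop where
  hm : ∀ n, ψ n ≫ m = nmul (n + 1)
  hs : ∀ n, ψ (n + 1) ≫ s = nmul n
  hp1 : ∀ n, ψ n ≫ p1 = nmul n
  hp2 : ∀ n, ψ n ≫ p2 = 𝟙 A
  h1 : nmul 1 = 𝟙 A
  coh : D.IsCoherent
  ne : ∀ x, D.t x ≠ 0
  zero : ∀ y, nmul 0 y ∉ D.supp
  gen : ∀ k, nmul k (genericPoint A) ∉ D.supp
  para : IsDivOf H (D.pullback m * D.pullback s) (D.pullback p1 ^ 2 * D.pullback p2 ^ 2)

variable {m s p1 p2 nmul ψ D H}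

namespace QuadData

variable (Q : QuadData m s p1 p2 nmul ψ D H)

include Q

/-- the local equations of `[k]^* D` do not vanish -/
theorem nmul_ne (k : ℕ) (y : A) : (D.pullback (nmul k)).t y ≠ 0 :=
  LocFam.pullback_t_ne_zero Q.coh (nmul k) (Q.gen k) y

theorem pull_m (n : ℕ) : (D.pullback m).pullback (ψ n) = D.pullback (nmul (n + 1)) := by
  rw [← LocFam.pullback_comp, LocFam.pullback_congr (Q.hm n)]

theorem pull_s (n : ℕ) : (D.pullback s).pullback (ψ (n + 1)) = D.pullback (nmul n) := by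
  rw [← LocFam.pullback_comp, LocFam.pullback_congr (Q.hs n)]

theorem pull_p1 (n : ℕ) : (D.pullback p1).pullback (ψ n) = D.pullback (nmul n) := by
  rw [← LocFam.pullback_comp, LocFam.pullback_congr (Q.hp1 n)]

theorem pull_p2 (n : ℕ) : (D.pullback p2).pullback (ψ n) = D := by
  rw [← LocFam.pullback_comp, LocFam.pullback_congr (Q.hp2 n), LocFam.pullback_id]

/-- the image of the generic point under `ψ n` is outside the support of `f^* D` as soon as
`ψ n ≫ f = [k]` -/
theorem gen_not_mem {f : A2 ⟶ A} {n k : ℕ} (hf : ψ n ≫ f = nmul k) :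
    ψ n (genericPoint A) ∉ (D.pullback f).supp := by
  apply LocFam.not_mem_supp_pullback
  have e : f (ψ n (genericPoint A)) = nmul k (genericPoint A) := by
    rw [← hf]; rfl
  rw [e]
  exact Q.gen k

theorem gen_not_mem_id {f : A2 ⟶ A} {n : ℕ} (hf : ψ n ≫ f = 𝟙 A) :
    ψ n (genericPoint A) ∉ (D.pullback f).supp := by
  apply LocFam.not_mem_supp_pullback
  have e : f (ψ n (genericPoint A)) = nmul 1 (genericPoint A) := by
    rw [Q.h1, ← hf]; rfl
  rw [e]
  exact Q.gen 1

/-- **the second difference**: a non-zero `w` with divisor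
`[n+2]^*D + [n]^*D - 2 [n+1]^*D - 2 D` -/
theorem exists_w (n : ℕ) : ∃ w : A.functionField, w ≠ 0 ∧
    IsDivOf w (D.pullback (nmul (n + 2)) * D.pullback (nmul n))
      (D.pullback (nmul (n + 1)) ^ 2 * D ^ 2) := by
  have hP : ψ (n + 1) (genericPoint A) ∉ (D.pullback m * D.pullback s).supp :=
    LocFam.not_mem_supp_mul (Q.gen_not_mem (Q.hm (n + 1))) (Q.gen_not_mem (Q.hs n))
  have hN : ψ (n + 1) (genericPoint A) ∉ (D.pullback p1 ^ 2 * D.pullback p2 ^ 2).supp :=
    LocFam.not_mem_supp_mul (LocFam.not_mem_supp_pow (Q.gen_not_mem (Q.hp1 (n + 1))) 2)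
      (LocFam.not_mem_supp_pow (Q.gen_not_mem_id (Q.hp2 (n + 1))) 2)
  obtain ⟨a, ha⟩ := Q.para.exists_unit hP hN
  refine ⟨pbFF (ψ (n + 1)) a, pbFF_ne_zero _ a.isUnit, ?_⟩
  have h := Q.para.pullback (ψ (n + 1)) a ha
  rw [LocFam.pullback_mul, LocFam.pullback_mul, LocFam.pullback_pow, LocFam.pullback_pow,
    Q.pull_m, Q.pull_s, Q.pull_p1, Q.pull_p2] at h
  exact h

/-- **(Q3)** : `[n]^* D - n² D` is principal, for every `n` -/
theorem quad_main (n : ℕ) : ∃ u : A.functionField, u ≠ 0 ∧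
    IsDivOf u (D.pullback (nmul n)) (D ^ (n ^ 2)) := by
  induction n using Nat.strong_induction_on with
  | _ n ih =>
    match n, ih with
    | 0, _ =>
      refine ⟨1, one_ne_zero, ?_⟩
      have h0 : ∀ y, IsUnit ((D.pullback (nmul 0)).t y) := fun y =>
        (LocFam.not_mem_supp_iff _ _).1 (LocFam.not_mem_supp_pullback (nmul 0) (Q.zero y))
      have h := isDivOf_one_of_units h0
      have e : D ^ (0 ^ 2) = 1 := by ext x; simp
      rw [e]
      exact h
    | 1, _ =>
      refine ⟨1, one_ne_zero, ?_⟩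
      have e : D.pullback (nmul 1) = D := by
        rw [LocFam.pullback_congr Q.h1, LocFam.pullback_id]
      have e' : D ^ (1 ^ 2) = D := by ext x; simp
      rw [e, e']
      exact isDivOf_one D
    | (k + 2), ih =>
      obtain ⟨u1, hu1, h1⟩ := ih (k + 1) (by omega)
      obtain ⟨u0, hu0, h0⟩ := ih k (by omega)
      obtain ⟨w, hw, hw'⟩ := Q.exists_w k
      refine ⟨w * u1 ^ 2 * u0⁻¹, mul_ne_zero (mul_ne_zero hw (pow_ne_zero 2 hu1))
        (inv_ne_zero hu0), ?_⟩
      have hall := (hw'.mul (h1.pow 2)).mul (h0.inv hu0)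
      -- cancel `[k]^*D * ([k+1]^*D)^2 * D^(k^2)`
      refine hall.cancel' (C := D.pullback (nmul k) * D.pullback (nmul (k + 1)) ^ 2 * D ^ (k ^ 2))
        (fun x => ?_) (fun x => ?_) (fun x => ?_)
      · simp only [LocFam.mul_t, LocFam.pow_t]
        ring
      · simp only [LocFam.mul_t, LocFam.pow_t]
        have e : (k + 2) ^ 2 + k ^ 2 = 2 + (k + 1) ^ 2 * 2 := by ring
        have e' : D.t x ^ ((k + 2) ^ 2) * D.t x ^ (k ^ 2) =
            D.t x ^ 2 * (D.t x ^ ((k + 1) ^ 2)) ^ 2 := by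
          rw [← pow_add, e, pow_add, pow_mul]
        calc (D.pullback (nmul (k + 1))).t x ^ 2 * D.t x ^ 2 * (D.t x ^ (k + 1) ^ 2) ^ 2 *
              (D.pullback (nmul k)).t x
            = (D.t x ^ 2 * (D.t x ^ ((k + 1) ^ 2)) ^ 2) *
              ((D.pullback (nmul k)).t x * (D.pullback (nmul (k + 1))).t x ^ 2) := by ring
          _ = (D.t x ^ ((k + 2) ^ 2) * D.t x ^ (k ^ 2)) *
              ((D.pullback (nmul k)).t x * (D.pullback (nmul (k + 1))).t x ^ 2) := by rw [e']
          _ = D.t x ^ (k + 2) ^ 2 * ((D.pullback (nmul k)).t x *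
              (D.pullback (nmul (k + 1))).t x ^ 2 * D.t x ^ k ^ 2) := by ring
      · simp only [LocFam.mul_t, LocFam.pow_t]
        exact mul_ne_zero (mul_ne_zero (Q.nmul_ne k x) (pow_ne_zero 2 (Q.nmul_ne (k + 1) x)))
          (pow_ne_zero _ (Q.ne x))

end QuadData

end Main

end Fermat.Agent.S26lib.Quad
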