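/-
S26lib / Quad / Induct3  (helper1)  --  Project K (S26)

**(Q3'): from helper2's THREE-VARIABLE function on `A³` to `[n]^* D ~ n² D`** (works in every
characteristic, see #h2-226).

Abstract setting (to be instantiated with the abelian variety `A`, `A3 = A × A × A` with coordinates
`(x, z, y)`, `σ13 = x + y`, `σ23 = z + y`, `σm = y - x - z`, `m12 = x + z`, `p1, p2, p3` the
projections, `neg = [-1]`, `nmul k = [k]`, `ψ a : y ↦ (a y, - a y, y)`): integral schemes `A`, `A3`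
with morphisms satisfying
`ψ n ≫ σ13 = [n+1]`, `ψ (n+1) ≫ σ23 = [n] ≫ neg`, `ψ n ≫ σm = 𝟙 = ψ n ≫ p3`, `ψ n ≫ p1 = [n]`,
`ψ n ≫ p2 = [n] ≫ neg`, `ψ n ≫ m12 = [0]`, `[1] = 𝟙`; a coherent SYMMETRIC family of local
equations `D` on `A` (`neg^* D ~ D`) such that `[0]` maps `A` outside the support of `D` and no `[k]`
maps the generic point into the support; a rational function `H` on `A3` with divisor
`σ13^*D + σ23^*D + σm^*D - 3 p3^*D - p1^*D - p2^*D - m12^*D`.

* `SecondDiff nmul D` : the abstract second-difference package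
  (`∃ w ≠ 0, div w = [n+2]^*D + [n]^*D - 2 [n+1]^*D - 2 D` for all `n`), and
  `SecondDiff.quad_main : ∀ n, ∃ u ≠ 0, IsDivOf u ([n]^*D) (D ^ n²)`;
* `QuadData.secondDiff` (two-variable data of `Quad/Induct.lean`), `QuadData3.secondDiff`;
* **`QuadData3.quad_main`**.
-/
import Mathlib
import Fermat.Agent.S26lib.Quad.Induct

set_option autoImplicit false
set_option linter.unusedSectionVars false

noncomputable section

namespace Fermat.Agent.S26lib.Quad

open AlgebraicGeometry CategoryTheory TopologicalSpace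

universe u

section Supp

variable {X Y : Scheme.{u}}

/-- the support of a pulled-back family is the preimage of the support -/
theorem LocFam.mem_supp_pullback_iff (ψ : Y ⟶ X) (D : LocFam X) (y : Y) :
    y ∈ (D.pullback ψ).supp ↔ ψ y ∈ D.supp := by
  unfold LocFam.supp
  simp only [Set.mem_ofPred_eq, LocFam.pullback_t]
  exact not_congr (isUnit_map_iff (ψ.stalkMap y).hom _)

end Supp

section SecondDiff

variable {A : Scheme.{u}} [IsIntegral A]
variable (nmul : ℕ → (A ⟶ A)) (D : LocFam A)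

/-- the abstract second-difference package -/
structure SecondDiff : Prop where
  h1 : nmul 1 = 𝟙 A
  coh : D.IsCoherent
  ne : ∀ x, D.t x ≠ 0
  zero : ∀ y, nmul 0 y ∉ D.supp
  gen : ∀ k, nmul k (genericPoint A) ∉ D.supp
  w : ∀ n : ℕ, ∃ w : A.functionField, w ≠ 0 ∧
    IsDivOf w (D.pullback (nmul (n + 2)) * D.pullback (nmul n))
      (D.pullback (nmul (n + 1)) ^ 2 * D ^ 2)

variable {nmul D}

namespace SecondDiff

variable (S : SecondDiff nmul D)

include S

theorem nmul_ne (k : ℕ) (y : A) : (D.pullback (nmul k)).t y ≠ 0 :=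
  LocFam.pullback_t_ne_zero S.coh (nmul k) (S.gen k) y

/-- **(Q3)** : `[n]^* D - n² D` is principal, for every `n` -/
theorem quad_main (n : ℕ) : ∃ u : A.functionField, u ≠ 0 ∧
    IsDivOf u (D.pullback (nmul n)) (D ^ (n ^ 2)) := by
  induction n using Nat.strong_induction_on with
  | _ n ih =>
    match n, ih with
    | 0, _ =>
      refine ⟨1, one_ne_zero, ?_⟩
      have h0 : ∀ y, IsUnit ((D.pullback (nmul 0)).t y) := fun y =>
        (LocFam.not_mem_supp_iff _ _).1 (LocFam.not_mem_supp_pullback (nmul 0) (S.zero y))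
      have h := isDivOf_one_of_units h0
      have e : D ^ (0 ^ 2) = 1 := by ext x; simp
      rw [e]
      exact h
    | 1, _ =>
      refine ⟨1, one_ne_zero, ?_⟩
      have e : D.pullback (nmul 1) = D := by
        rw [LocFam.pullback_congr S.h1, LocFam.pullback_id]
      have e' : D ^ (1 ^ 2) = D := by ext x; simp
      rw [e, e']
      exact isDivOf_one D
    | (k + 2), ih =>
      obtain ⟨u1, hu1, h1⟩ := ih (k + 1) (by omega)
      obtain ⟨u0, hu0, h0⟩ := ih k (by omega)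
      obtain ⟨w, hw, hw'⟩ := S.w k
      refine ⟨w * u1 ^ 2 * u0⁻¹, mul_ne_zero (mul_ne_zero hw (pow_ne_zero 2 hu1))
        (inv_ne_zero hu0), ?_⟩
      have hall := (hw'.mul (h1.pow 2)).mul (h0.inv hu0)
      refine hall.cancel' (C := D.pullback (nmul k) * D.pullback (nmul (k + 1)) ^ 2 * D ^ (k ^ 2))
        (fun x => ?_) (fun x => ?_) (fun x => ?_)
      · simp only [LocFam.mul_t, LocFam.pow_t]
        ring
      · simp only [LocFam.mul_t, LocFam.pow_t]
        have e : (k + 2) ^ 2 + k ^ 2 = 2 + (k + 1) ^ 2 * 2 := by ring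
        have e' : D.t x ^ ((k + 2) ^ 2) * D.t x ^ (k ^ 2) =
            D.t x ^ 2 * (D.t x ^ ((k + 1) ^ 2)) ^ 2 := by
          rw [← pow_add, e, pow_add, pow_mul]
        calc (D.pullback (nmul (k + 1))).t x ^ 2 * D.t x ^ 2 * (D.t x ^ (k + 1) ^ 2) ^ 2 *
              (D.pullback (nmul k)).t x
            = (D.t x ^ 2 * (D.t x ^ ((k + 1) ^ 2)) ^ 2) *
              ((D.pullback (nmul k)).t x * (D.pullback (nmul (k + 1))).t x ^ 2) := by ring
          _ = (D.t x ^ ((k + 2) ^ 2) * D.t x ^ (k ^ 2)) *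
              ((D.pullback (nmul k)).t x * (D.pullback (nmul (k + 1))).t x ^ 2) := by rw [e']
          _ = D.t x ^ (k + 2) ^ 2 * ((D.pullback (nmul k)).t x *
              (D.pullback (nmul (k + 1))).t x ^ 2 * D.t x ^ k ^ 2) := by ring
      · simp only [LocFam.mul_t, LocFam.pow_t]
        exact mul_ne_zero (mul_ne_zero (S.nmul_ne k x) (pow_ne_zero 2 (S.nmul_ne (k + 1) x)))
          (pow_ne_zero _ (S.ne x))

end SecondDiff

/-- the two-variable data of `Quad/Induct.lean` give a second-difference package -/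
theorem QuadData.secondDiff {A2 : Scheme.{u}} [IsIntegral A2] {m s p1 p2 : A2 ⟶ A}
    {ψ : ℕ → (A ⟶ A2)} {H : A2.functionField} (Q : QuadData m s p1 p2 nmul ψ D H) :
    SecondDiff nmul D :=
  ⟨Q.h1, Q.coh, Q.ne, Q.zero, Q.gen, Q.exists_w⟩

end SecondDiff

section Three

variable {A A3 : Scheme.{u}} [IsIntegral A] [IsIntegral A3]
variable (σ13 σ23 σm p1 p2 p3 m12 : A3 ⟶ A) (neg : A ⟶ A) (nmul : ℕ → (A ⟶ A))
  (ψ : ℕ → (A ⟶ A3)) (D : LocFam A) (H : A3.functionField)

/-- the hypotheses of (Q3'), three-variable form -/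
structure QuadData3 : Prop where
  h13 : ∀ n, ψ n ≫ σ13 = nmul (n + 1)
  h23 : ∀ n, ψ (n + 1) ≫ σ23 = nmul n ≫ neg
  hm : ∀ n, ψ n ≫ σm = 𝟙 A
  hp3 : ∀ n, ψ n ≫ p3 = 𝟙 A
  hp1 : ∀ n, ψ n ≫ p1 = nmul n
  hp2 : ∀ n, ψ n ≫ p2 = nmul n ≫ neg
  hm12 : ∀ n, ψ n ≫ m12 = nmul 0
  h1 : nmul 1 = 𝟙 A
  coh : D.IsCoherent
  ne : ∀ x, D.t x ≠ 0
  symm : (D.pullback neg).Equiv D
  zero : ∀ y, nmul 0 y ∉ D.supp
  gen : ∀ k, nmul k (genericPoint A) ∉ D.supp
  para : IsDivOf H (D.pullback σ13 * D.pullback σ23 * D.pullback σm)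
    (D.pullback p3 ^ 3 * D.pullback p1 * D.pullback p2 * D.pullback m12)

variable {σ13 σ23 σm p1 p2 p3 m12 neg nmul ψ D H}

namespace QuadData3

variable (Q : QuadData3 σ13 σ23 σm p1 p2 p3 m12 neg nmul ψ D H)

include Q

/-- `neg` preserves the complement of the support -/
theorem neg_not_mem {x : A} (hx : x ∉ D.supp) : neg x ∉ D.supp := by
  rw [← LocFam.mem_supp_pullback_iff, Q.symm.supp_eq]
  exact hx

theorem gen_not_mem {f : A3 ⟶ A} {n k : ℕ} (hf : ψ n ≫ f = nmul k) :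
    ψ n (genericPoint A) ∉ (D.pullback f).supp := by
  apply LocFam.not_mem_supp_pullback
  have e : f (ψ n (genericPoint A)) = nmul k (genericPoint A) := by
    rw [← hf]; rfl
  rw [e]
  exact Q.gen k

theorem gen_not_mem_neg {f : A3 ⟶ A} {n k : ℕ} (hf : ψ n ≫ f = nmul k ≫ neg) :
    ψ n (genericPoint A) ∉ (D.pullback f).supp := by
  apply LocFam.not_mem_supp_pullback
  have e : f (ψ n (genericPoint A)) = neg (nmul k (genericPoint A)) := by
    have : (ψ n ≫ f) (genericPoint A) = (nmul k ≫ neg) (genericPoint A) := by rw [hf]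
    exact this
  rw [e]
  exact Q.neg_not_mem (Q.gen k)

theorem gen_not_mem_id {f : A3 ⟶ A} {n : ℕ} (hf : ψ n ≫ f = 𝟙 A) :
    ψ n (genericPoint A) ∉ (D.pullback f).supp := by
  apply LocFam.not_mem_supp_pullback
  have e : f (ψ n (genericPoint A)) = nmul 1 (genericPoint A) := by
    rw [Q.h1, ← hf]; rfl
  rw [e]
  exact Q.gen 1

theorem pull_nmul {f : A3 ⟶ A} {n k : ℕ} (hf : ψ n ≫ f = nmul k) :
    (D.pullback f).pullback (ψ n) = D.pullback (nmul k) := by
  rw [← LocFam.pullback_comp, LocFam.pullback_congr hf]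

theorem pull_id {f : A3 ⟶ A} {n : ℕ} (hf : ψ n ≫ f = 𝟙 A) :
    (D.pullback f).pullback (ψ n) = D := by
  rw [← LocFam.pullback_comp, LocFam.pullback_congr hf, LocFam.pullback_id]

theorem pull_neg {f : A3 ⟶ A} {n k : ℕ} (hf : ψ n ≫ f = nmul k ≫ neg) :
    ((D.pullback f).pullback (ψ n)).Equiv (D.pullback (nmul k)) := by
  rw [← LocFam.pullback_comp, LocFam.pullback_congr hf, LocFam.pullback_comp]
  exact Q.symm.pullback (nmul k)

/-- `[0]^* D` is a family of units -/
theorem pull_zero : (D.pullback (nmul 0)).Equiv 1 := by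
  intro y
  have h0 : IsUnit ((D.pullback (nmul 0)).t y) :=
    (LocFam.not_mem_supp_iff _ _).1 (LocFam.not_mem_supp_pullback (nmul 0) (Q.zero y))
  exact (associated_one_iff_isUnit.mpr h0)

/-- **the second difference** from the three-variable function -/
theorem exists_w (n : ℕ) : ∃ w : A.functionField, w ≠ 0 ∧
    IsDivOf w (D.pullback (nmul (n + 2)) * D.pullback (nmul n))
      (D.pullback (nmul (n + 1)) ^ 2 * D ^ 2) := by
  have hP : ψ (n + 1) (genericPoint A) ∉
      (D.pullback σ13 * D.pullback σ23 * D.pullback σm).supp :=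
    LocFam.not_mem_supp_mul
      (LocFam.not_mem_supp_mul (Q.gen_not_mem (Q.h13 (n + 1))) (Q.gen_not_mem_neg (Q.h23 n)))
      (Q.gen_not_mem_id (Q.hm (n + 1)))
  have hN : ψ (n + 1) (genericPoint A) ∉
      (D.pullback p3 ^ 3 * D.pullback p1 * D.pullback p2 * D.pullback m12).supp :=
    LocFam.not_mem_supp_mul
      (LocFam.not_mem_supp_mul
        (LocFam.not_mem_supp_mul (LocFam.not_mem_supp_pow (Q.gen_not_mem_id (Q.hp3 (n + 1))) 3)
          (Q.gen_not_mem (Q.hp1 (n + 1))))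
        (Q.gen_not_mem_neg (Q.hp2 (n + 1))))
      (Q.gen_not_mem (Q.hm12 (n + 1)))
  obtain ⟨a, ha⟩ := Q.para.exists_unit hP hN
  refine ⟨pbFF (ψ (n + 1)) a, pbFF_ne_zero _ a.isUnit, ?_⟩
  have h := Q.para.pullback (ψ (n + 1)) a ha
  rw [LocFam.pullback_mul, LocFam.pullback_mul, LocFam.pullback_mul, LocFam.pullback_mul,
    LocFam.pullback_mul, LocFam.pullback_pow, Q.pull_nmul (Q.h13 (n + 1)), Q.pull_id (Q.hm (n + 1)),
    Q.pull_id (Q.hp3 (n + 1)), Q.pull_nmul (Q.hp1 (n + 1)), Q.pull_nmul (Q.hm12 (n + 1))] at h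
  have h' := h.congr
    (P' := D.pullback (nmul (n + 2)) * D.pullback (nmul n) * D)
    (N' := D ^ 3 * D.pullback (nmul (n + 1)) * D.pullback (nmul (n + 1)) * 1)
    (((LocFam.Equiv.refl _).mul (Q.pull_neg (Q.h23 n))).mul (LocFam.Equiv.refl _))
    ((((LocFam.Equiv.refl _).mul (LocFam.Equiv.refl _)).mul (Q.pull_neg (Q.hp2 (n + 1)))).mul
      Q.pull_zero)
  refine h'.cancel' (C := D) (fun x => ?_) (fun x => ?_) Q.ne
  · simp only [LocFam.mul_t]
  · simp only [LocFam.mul_t, LocFam.pow_t, LocFam.one_t]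
    ring

theorem secondDiff : SecondDiff nmul D :=
  ⟨Q.h1, Q.coh, Q.ne, Q.zero, Q.gen, Q.exists_w⟩

/-- **(Q3')** : `[n]^* D - n² D` is principal, for every `n` -/
theorem quad_main (n : ℕ) : ∃ u : A.functionField, u ≠ 0 ∧
    IsDivOf u (D.pullback (nmul n)) (D ^ (n ^ 2)) :=
  Q.secondDiff.quad_main n

end QuadData3

end Three

end Fermat.Agent.S26lib.Quad
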