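/-
S26lib / Quad / Final  (helper1)  --  Project K (S26)

**(Q) ⟹ the hypothesis `hquad` of the growth theorem, for the S26 abelian variety.**

Given the seven maps `A³ → A` with their identities (helper6's `Prod/Maps`) and helper2's function `H`
on `A³` in CARTIER form (`para`), for the Cartier divisor `Dc L hUFD` (`Quad/AbelianD.lean`):

* `quadData3_of_para` : the structure `QuadData3` (all the remaining fields are proved here);
* **`exists_hquad`** : for every `n` such that `[n]` is flat, unramified, dominant: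
  `∃ h₀ ≠ 0, ∀ P', (pullDiv (imgPt [n]) 1 (Weil.D L) P' : ℤ) = n² * Weil.D L P' + ordAt P' h₀`.
-/
import Mathlib
import Fermat.Agent.S26lib.Quad.AbelianD
import Fermat.Agent.S26lib.Quad.Induct3

set_option autoImplicit false
set_option linter.unusedSectionVars false
set_option linter.style.haveILetI false
set_option linter.overlappingInstances false

noncomputable section

namespace Fermat.Agent.S26lib.Quad

open AlgebraicGeometry CategoryTheory TopologicalSpace IsLocalRing Fermat.Agent.S26lib.Weil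
  Fermat.Agent.S26lib.FinMap NeronModelInfra GoodReductionJacobian

universe u

variable {K : Type u} [Field K] {A : Scheme.{u}} {f : A ⟶ Spec (CommRingCat.of K)}
  (L : RelativeGroupLaw K f)

theorem nMul_one : Weil.nMul L 1 = 𝟙 A := by
  show (L.nsmul f 1 RelativeGroupLaw.idPoint).1 = 𝟙 A
  rw [L.nsmul_one_apply]

variable [IsIntegral A] [IsNoetherian A]
  (hUFD : ∀ x : A, UniqueFactorizationMonoid (A.presheaf.stalk x))

variable {A3 : Scheme.{u}} [IsIntegral A3] {σ13 σ23 σm p1 p2 p3 m12 : A3 ⟶ A}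
  {ψ : ℕ → (A ⟶ A3)} {H : A3.functionField}

/-- the structure `QuadData3` from the seven identities and the function `H` -/
theorem quadData3_of_para
    (h13 : ∀ n, ψ n ≫ σ13 = Weil.nMul L (n + 1))
    (h23 : ∀ n, ψ (n + 1) ≫ σ23 = Weil.nMul L n ≫ Weil.neg L)
    (hm : ∀ n, ψ n ≫ σm = 𝟙 A) (hp3 : ∀ n, ψ n ≫ p3 = 𝟙 A)
    (hp1 : ∀ n, ψ n ≫ p1 = Weil.nMul L n)
    (hp2 : ∀ n, ψ n ≫ p2 = Weil.nMul L n ≫ Weil.neg L)
    (hm12 : ∀ n, ψ n ≫ m12 = Weil.nMul L 0)
    (para : IsDivOf H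
      ((Dc L hUFD).pullback σ13 * (Dc L hUFD).pullback σ23 * (Dc L hUFD).pullback σm)
      ((Dc L hUFD).pullback p3 ^ 3 * (Dc L hUFD).pullback p1 * (Dc L hUFD).pullback p2 *
        (Dc L hUFD).pullback m12)) :
    QuadData3 σ13 σ23 σm p1 p2 p3 m12 (Weil.neg L) (Weil.nMul L) ψ (Dc L hUFD) H where
  h13 := h13
  h23 := h23
  hm := hm
  hp3 := hp3
  hp1 := hp1
  hp2 := hp2
  hm12 := hm12
  h1 := nMul_one L
  coh := Dc_isCoherent L hUFD
  ne := Dc_ne_zero L hUFD
  symm := Dc_symm L hUFD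
  zero := nMul_zero_not_mem_supp_Dc L hUFD
  gen := nMul_genericPoint_not_mem_supp_Dc L hUFD
  para := para

/-- **the hypothesis `hquad` of the growth theorem** -/
theorem exists_hquad
    (Q : QuadData3 σ13 σ23 σm p1 p2 p3 m12 (Weil.neg L) (Weil.nMul L) ψ (Dc L hUFD) H) (n : ℕ)
    [Flat (Weil.nMul L n)] [FormallyUnramified (Weil.nMul L n)]
    [LocallyOfFiniteType (Weil.nMul L n)] [IsDominant (Weil.nMul L n)] :
    ∃ h₀ : A.functionField, h₀ ≠ 0 ∧ ∀ P' : PrimeDiv A,
      (((1 : ℕ) * Weil.D L (imgPt (Weil.nMul L n) P') : ℕ) : ℤ) =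
        (n : ℤ) ^ 2 * (Weil.D L P' : ℤ) + ordAt P' h₀ := by
  obtain ⟨u, hu, hdiv⟩ := Q.quad_main n
  refine ⟨u, hu, fun P' => ?_⟩
  have h := hquad_of_isDivOf (Weil.nMul L n) (Dc_ne_zero L hUFD) hu (n ^ 2) hdiv (Weil.D L)
    (fun Z => (weil_Dc L hUFD Z).symm) P'
  rw [h]
  push_cast
  ring

end Fermat.Agent.S26lib.Quad
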